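import Fermat.Agent.ZG.Pt
import Fermat.Agent.WM.LowA
import Fermat.Agent.ImW.RPrime

/-!
# The residual data of a semistable curve
-/

set_option autoImplicit false
set_option linter.unusedSectionVars false
set_option linter.style.haveILetI false

noncomputable section

namespace Fermat.Agent.ZG

open Matrix IsLocalRing Fermat.Agent.GalRep Fermat.Agent.TW Fermat.Agent.Places Fermat.Agent.Flat
open Fermat.Agent.Cheb Fermat.Agent.Sel Fermat.Agent.StR Fermat.Agent.TWG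
open Fermat.Agent.ImW Fermat.Agent.WM
open Fermat.Agent.LC (OrdB RO Up ordL mul2)
open scoped Pointwise

local notation "Ω" => AlgebraicClosure ℚ

local notation "𝒢" => (AlgebraicClosure ℚ) ≃ₐ[ℚ] (AlgebraicClosure ℚ)

/-- scalar Frobenius: all places -/
theorem scalar_all {k : Type} [Field k] {ρ : 𝒢 →* M2 k}
    (hlc : ∃ F : IntermediateField ℚ Ω, FiniteDimensional ℚ F ∧
      ∀ σ : 𝒢, (∀ x ∈ F, σ x = x) → ρ σ = 1) {l : ℕ} (hl : l.Prime) {A B : ValuationSubring Ω}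
    (hA : A.LiesOverPrime l) (hB : B.LiesOverPrime l) {Φ : 𝒢} (hΦ : A.IsFrobeniusAt Φ l)
    (hI : ∀ σ ∈ A.inertiaSubgroupIn ℚ, ρ σ = 1) {a : k} (ha : ρ Φ = a • 1) {g : 𝒢}
    (hg : g ∈ B.decompositionSubgroup ℚ) : ∃ b : k, ρ g = b • 1 := by
  obtain ⟨s, rfl⟩ := exists_smul_eq_of_liesOverPrime hl A B hA hB
  have h1 : s⁻¹ * g * s ∈ A.decompositionSubgroup ℚ := by
    have h1 : g • (s • A) = s • A := hg
    change (s⁻¹ * g * s) • A = A
    rw [mul_smul, mul_smul, h1, inv_smul_smul]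
  obtain ⟨b, hb⟩ := scalar_dec hlc hl hA hΦ hI ha h1
  refine ⟨b, ?_⟩
  have h2 : g = s * (s⁻¹ * g * s) * s⁻¹ := by group
  rw [h2, map_mul, map_mul, hb, mul_smul_comm, mul_one, smul_mul_assoc, rho_mul_inv (ρ := ρ)]

section

variable {W : WeierstrassCurve ℤ} {p : ℕ} [hp : Fact p.Prime] {ρ : 𝒢 →* M2 (ZMod p)}
  {k : Type} [Field k] [Algebra (ZMod p) k]

/-- the prime divisors of the discriminant -/
def badF (W : WeierstrassCurve ℤ) : Finset ℕ := W.Δ.natAbs.primeFactors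

theorem mem_badF (hΔ : W.Δ ≠ 0) {l : ℕ} : l ∈ badF W ↔ l.Prime ∧ ¬ W.IsGoodPrimeFor l := by
  rw [badF, Nat.mem_primeFactors, WeierstrassCurve.IsGoodPrimeFor, not_not, ← Int.natCast_dvd]
  exact ⟨fun h => ⟨h.1, h.2.1⟩, fun h => ⟨h.1, h.2, Int.natAbs_ne_zero.2 hΔ⟩⟩

/-- The residual data of a semistable curve. -/
structure NData (W : WeierstrassCurve ℤ) (p r₀ : ℕ) [hp : Fact p.Prime] (ρ : 𝒢 →* M2 (ZMod p))
    (k : Type) [Field k] [Algebra (ZMod p) k] {t : ℕ} (q : Fin t → ℕ) (ty : Fin t → Ty)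
    (S₀ Un : Finset ℕ) : Prop where
  num : NumH p (extW ρ (algebraMap (ZMod p) k)) S₀ q ty Un
  mem : ∀ l, l ∈ S₀ ↔ l = p ∨ l = r₀ ∨ (l.Prime ∧ ¬ W.IsGoodPrimeFor l)
  memq : ∀ l, (∃ j, q j = l) ↔ (l.Prime ∧ ¬ W.IsGoodPrimeFor l) ∧ l ≠ p ∧ Unr ρ l
  memU : ∀ l, l ∈ Un ↔ (l.Prime ∧ ¬ W.IsGoodPrimeFor l) ∧ l ≠ p ∧ ¬ Unr ρ l
  ns : ∀ j, ty j = Ty.ns → ∀ A : ValuationSubring Ω, A.LiesOverPrime (q j) → ∀ Φ,
    A.IsFrobeniusAt Φ (q j) →
      ¬ ∃ a : k, extW ρ (algebraMap (ZMod p) k) Φ = a • (1 : M2 k)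

theorem not_unr_ext {l : ℕ} (hl : l.Prime) (hu : ¬ Unr ρ l) {A : ValuationSubring Ω}
    (hA : A.LiesOverPrime l) : ∃ σ ∈ A.inertiaSubgroupIn ℚ,
      extW ρ (algebraMap (ZMod p) k) σ ≠ 1 := by
  by_contra hcon
  push Not at hcon
  apply hu
  intro A' hA' σ hσ
  obtain ⟨g, hg⟩ := Places.exists_smul_eq_of_liesOverPrime hl A A' hA hA'
  rw [← hg] at hσ
  have h1 := hcon _ (Sel.conj_inertia hσ)
  have h3 : σ = g * (g⁻¹ * σ * g) * g⁻¹ := by group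
  have h4 : extW ρ (algebraMap (ZMod p) k) σ = 1 := by
    rw [h3, map_mul, map_mul, h1, mul_one, Sel.rho_mul_inv]
  ext i j
  apply (algebraMap (ZMod p) k).injective
  have h5 := congrFun (congrFun h4 i) j
  rw [extW_apply] at h5
  rw [h5, Matrix.one_apply, Matrix.one_apply]
  split_ifs
  · rw [map_one]
  · rw [_root_.map_zero]

/-- **The residual data exist.** -/
theorem exists_nData (h : ResW W p ρ) (hΔ : W.Δ ≠ 0) (hss : W.IsSemistableModel)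
    (hp35 : p = 3 ∨ p = 5)
    (hsplit : ∀ σ, ∃ α β : k, (extW ρ (algebraMap (ZMod p) k) σ).trace = α + β ∧
      (extW ρ (algebraMap (ZMod p) k) σ).det = α * β)
    {r₀ : ℕ} (hr : r₀.Prime) (hrp : r₀ ≠ p) (hrg : W.IsGoodPrimeFor r₀) (hr1 : (r₀ : k) ≠ 1)
    (hrt : ∀ A : ValuationSubring Ω, A.LiesOverPrime r₀ → ∀ Φ : 𝒢, A.IsFrobeniusAt Φ r₀ →
        (extW ρ (algebraMap (ZMod p) k) Φ).trace ^ 2 ≠ ((r₀ : k) + 1) ^ 2) :
    ∃ (t : ℕ) (q : Fin t → ℕ) (ty : Fin t → Ty) (S₀ Un : Finset ℕ),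
      NData W p r₀ ρ k q ty S₀ Un := by
  classical
  have hp2 : p ≠ 2 := by rcases hp35 with h | h <;> omega
  set κ := algebraMap (ZMod p) k with hκ
  set P := (badF W).erase p with hP
  have hmemP : ∀ l, l ∈ P ↔ (l.Prime ∧ ¬ W.IsGoodPrimeFor l) ∧ l ≠ p := fun l => by
    rw [hP, Finset.mem_erase, mem_badF hΔ, and_comm]
  set Q := P.filter (fun l => Unr ρ l) with hQ
  set U := P.filter (fun l => ¬ Unr ρ l) with hU
  have hmemQ : ∀ l, l ∈ Q ↔ (l.Prime ∧ ¬ W.IsGoodPrimeFor l) ∧ l ≠ p ∧ Unr ρ l := fun l => by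
    rw [hQ, Finset.mem_filter, hmemP, and_assoc]
  have hmemU : ∀ l, l ∈ U ↔ (l.Prime ∧ ¬ W.IsGoodPrimeFor l) ∧ l ≠ p ∧ ¬ Unr ρ l := fun l => by
    rw [hU, Finset.mem_filter, hmemP, and_assoc]
  let t := Q.card
  let q : Fin t → ℕ := fun j => Q.equivFin.symm j
  have hq : ∀ j, q j ∈ Q := fun j => (Q.equivFin.symm j).2
  have hq' : ∀ l ∈ Q, ∃ j, q j = l := fun l hl => ⟨Q.equivFin ⟨l, hl⟩, by
    change ((Q.equivFin.symm (Q.equivFin ⟨l, hl⟩) : Q) : ℕ) = l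
    rw [Equiv.symm_apply_apply]⟩
  have hqinj : Function.Injective q := fun i j hij =>
    Q.equivFin.symm.injective (Subtype.ext hij)
  let Sc : Fin t → Prop := fun j => ∃ A : ValuationSubring Ω, A.LiesOverPrime (q j) ∧
    ∃ Φ, A.IsFrobeniusAt Φ (q j) ∧ ∃ a : k, extW ρ κ Φ = a • (1 : M2 k)
  let ty : Fin t → Ty := fun j => if Sc j then Ty.sc else Ty.ns
  have hty : ∀ j, ty j = Ty.sc → Sc j := fun j hj => by
    by_contra hn
    have : ty j = Ty.ns := if_neg hn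
    rw [this] at hj
    exact Ty.noConfusion hj
  have hty' : ∀ j, ty j = Ty.ns → ¬ Sc j := fun j hj hn => by
    have : ty j = Ty.sc := if_pos hn
    rw [this] at hj
    exact Ty.noConfusion hj
  set S₀ := insert p (insert r₀ (badF W)) with hS₀
  have hmemS : ∀ l, l ∈ S₀ ↔ l = p ∨ l = r₀ ∨ (l.Prime ∧ ¬ W.IsGoodPrimeFor l) := fun l => by
    rw [hS₀, Finset.mem_insert, Finset.mem_insert, mem_badF hΔ]
  have hqI : ∀ j, ∀ A : ValuationSubring Ω, A.LiesOverPrime (q j) →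
      ∀ σ ∈ A.inertiaSubgroupIn ℚ, extW ρ κ σ = 1 := fun j A hA σ hσ => by
    rw [ext_map', ((hmemQ _).1 (hq j)).2.2 A hA σ hσ, map_one]
  have hlc := ext_lc h κ
  refine ⟨t, q, ty, S₀, U, ⟨?_, hmemS, fun l => ⟨?_, fun hl => hq' l ((hmemQ l).2 hl)⟩, hmemU,
    fun j hj A hA Φ hΦ hn => hty' j hj ⟨A, hA, Φ, hΦ, hn⟩⟩⟩
  · haveI : CharP k p := charP_of_injective_algebraMap (algebraMap (ZMod p) k).injective p
    refine ⟨?_, ext_conj h κ, h.noLine hss hp35 κ, hsplit, hqinj, fun j => ?_, hqI,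
      fun j hj A hA Φ hΦ => ?_, fun v hv => ?_, fun v hv hvp hvq hvU => ?_⟩
    · refine resH_ext h κ hp2 rfl (fun v hv => ?_) ((hmemS p).2 (Or.inl rfl)) fun l hl hlS =>
        Or.inl ?_
      · rcases (hmemS v).1 hv with rfl | rfl | hv
        · exact hp.out
        · exact hr
        · exact hv.1
      · by_contra hn
        exact hlS ((hmemS l).2 (Or.inr (Or.inr ⟨hl, hn⟩)))
    · obtain ⟨h1, h2, h3⟩ := (hmemQ _).1 (hq j)
      exact ⟨(hmemS _).2 (Or.inr (Or.inr h1)), h2, fun h4 => ((hmemU _).1 h4).2.2 h3⟩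
    · obtain ⟨B, hB, Ψ, hΨ, a, ha⟩ := hty j hj
      exact scalar_all hlc ((hmemQ _).1 (hq j)).1.1 hB hA hΨ (hqI j B hB) ha
        hΦ.mem_decompositionSubgroup
    · obtain ⟨h1, h2, h3⟩ := (hmemU v).1 hv
      exact ⟨(hmemS _).2 (Or.inr (Or.inr h1)), h2, fun A hA =>
        ⟨fun σ hσ => ext_unip h κ hss h1.1 h2 hA hσ, not_unr_ext h1.1 h3 hA⟩⟩
    · intro A hA
      have hv' : v = r₀ := by
        rcases (hmemS v).1 hv with h1 | h1 | h1
        · exact absurd h1 hvp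
        · exact h1
        · exfalso
          by_cases hu : Unr ρ v
          · obtain ⟨j, hj⟩ := hq' v ((hmemQ v).2 ⟨h1, hvp, hu⟩)
            exact hvq j hj.symm
          · exact hvU ((hmemU v).2 ⟨h1, hvp, hu⟩)
      subst hv'
      obtain ⟨Φ, hΦ⟩ := exists_isFrobeniusAt A hr hA
      exact H0_aux h κ hr hrp hr1 hA hΦ (hrt A hA Φ hΦ)
  · rintro ⟨j, rfl⟩
    exact (hmemQ _).1 (hq j)

end

end Fermat.Agent.ZG
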