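import Fermat.Agent.ZG.Main3
import Fermat.Agent.JT.Joint

/-!
# Images of the Galois data under ring maps; relations in the joint ring
-/

set_option autoImplicit false
set_option linter.unusedSectionVars false
set_option linter.style.haveILetI false

noncomputable section

namespace Fermat.Agent.ZG

open Matrix IsLocalRing Fermat.Agent.GalRep Fermat.Agent.TW Fermat.Agent.Places Fermat.Agent.Flat
open Fermat.Agent.Cheb Fermat.Agent.Sel Fermat.Agent.StR Fermat.Agent.TWG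
open Fermat.Agent.LC (OrdB RO Up ordL mul2)

local notation "Ω" => AlgebraicClosure ℚ

local notation "𝒢" => (AlgebraicClosure ℚ) ≃ₐ[ℚ] (AlgebraicClosure ℚ)

section alg

variable {A B : Type} [CommRing A] [CommRing B]

theorem map_mulM (x : A →+* B) (X Z : Matrix (Fin 2) (Fin 2) A) :
    (X * Z).map x = X.map x * Z.map x :=
  map_mul (x.mapMatrix : Matrix (Fin 2) (Fin 2) A →+* _) X Z

theorem map_oneM (x : A →+* B) : (1 : Matrix (Fin 2) (Fin 2) A).map x = 1 :=
  map_one (x.mapMatrix : Matrix (Fin 2) (Fin 2) A →+* _)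

theorem map_subM (x : A →+* B) (X Z : Matrix (Fin 2) (Fin 2) A) :
    (X - Z).map x = X.map x - Z.map x :=
  map_sub (x.mapMatrix : Matrix (Fin 2) (Fin 2) A →+* _) X Z

theorem map_smulM (x : A →+* B) (a : A) (X : Matrix (Fin 2) (Fin 2) A) :
    (a • X).map x = x a • X.map x := by
  ext i j
  rw [Matrix.map_apply, Matrix.smul_apply, Matrix.smul_apply, Matrix.map_apply, smul_eq_mul,
    smul_eq_mul, map_mul]

theorem map_traceM (x : A →+* B) (X : Matrix (Fin 2) (Fin 2) A) :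
    (X.map x).trace = x X.trace := by
  rw [Matrix.trace_fin_two, Matrix.trace_fin_two, map_add]
  rfl

theorem map_detM (x : A →+* B) (X : Matrix (Fin 2) (Fin 2) A) :
    (X.map x).det = x X.det := (RingHom.map_det x X).symm

/-- the Galois data at a non-minimal prime can be pushed forward -/
theorem _root_.Fermat.Agent.StR.QD.mapR [IsLocalRing A] [IsLocalRing B] {ty : Ty} {q : ℕ} {ε : ℤ}
    {Φ N : Matrix (Fin 2) (Fin 2) A} (h : QD ty q ε Φ N) (π : A →+* B)
    (hπ : ∀ a ∈ maximalIdeal A, π a ∈ maximalIdeal B) : QD ty q ε (Φ.map π) (N.map π) where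
  detΦ := by rw [map_detM, h.detΦ, map_natCast]
  trN := by rw [map_traceM, h.trN, map_zero]
  sqN := by
    rw [← map_mulM, h.sqN]
    ext i j
    exact map_zero π
  comm := by
    rw [← map_mulM, h.comm, map_smulM, map_natCast, map_mulM]
  hN a b := hπ _ (h.hN a b)
  hΦ ht a b := by
    have e : Φ.map π - (ε : B) • (1 : Matrix (Fin 2) (Fin 2) B) =
        (Φ - (ε : A) • (1 : Matrix (Fin 2) (Fin 2) A)).map π := by
      rw [map_subM, map_smulM, map_intCast, map_oneM]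
    rw [e]
    exact hπ _ (h.hΦ ht a b)
  hτ ht := by
    obtain ⟨h1, h2⟩ := h.hτ ht
    have e : (Φ.map π).trace - ε * (q + 1) = π (Φ.trace - ε * (q + 1)) := by
      rw [map_traceM, map_sub, map_mul, map_intCast, map_add, map_natCast, map_one]
    refine ⟨?_, ?_⟩
    · rw [e]
      exact hπ _ h1
    · rw [map_traceM]
      conv_lhs => rw [h2]
      ext i j
      fin_cases i <;> fin_cases j
      · exact map_zero π
      · change π (-(q : A)) = -(q : B)
        rw [map_neg, map_natCast]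
      · exact map_one π
      · rfl

theorem conj_aux {R : Type} [Ring R] {P Pi X Y C : R} (h : P * Pi = 1) (hC : C * P = P * C) :
    Pi * X * P * (Pi * Y * P - C) = Pi * (X * (Y - C)) * P := by
  have e1 : Pi * X * P * (Pi * Y * P) = Pi * X * (P * Pi) * Y * P := by simp only [mul_assoc]
  rw [mul_sub, e1, h, mul_one, mul_sub, mul_sub, sub_mul]
  congr 1
  · simp only [mul_assoc]
  · simp only [mul_assoc]
    rw [hC]

/-- the trace of a Frobenius of Steinberg type -/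
theorem trace_of_rel [IsDomain B] {M : Matrix (Fin 2) (Fin 2) B} {e : ℤ} {q : ℕ}
    (hdet : M.det = q) (hq : (q : B) ≠ 0) (he : e = 1 ∨ e = -1)
    (hrel : (M - ((e : B) * q) • (1 : Matrix (Fin 2) (Fin 2) B)) *
      (M - (e : B) • (1 : Matrix (Fin 2) (Fin 2) B)) = 0) : M.trace = e * (q + 1) := by
  have he2 : (e : B) * e = 1 := by
    rcases he with rfl | rfl <;> norm_num
  have a00 := congrFun (congrFun hrel 0) 0
  have a01 := congrFun (congrFun hrel 0) 1
  have a10 := congrFun (congrFun hrel 1) 0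
  have a11 := congrFun (congrFun hrel 1) 1
  simp only [Matrix.mul_apply, Fin.sum_univ_two, Matrix.sub_apply, Matrix.smul_apply, smul_eq_mul,
    Matrix.one_apply_eq, ne_eq, zero_ne_one, not_false_eq_true, Matrix.one_apply_ne, one_ne_zero,
    mul_one, mul_zero, sub_zero, Matrix.zero_apply] at a00 a01 a10 a11
  rw [Matrix.det_fin_two] at hdet
  rw [Matrix.trace_fin_two, ← sub_eq_zero]
  -- `(tr M - e (q + 1)) M = 0`
  have b00 : (M 0 0 + M 1 1 - e * (q + 1)) * M 0 0 = 0 := by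
    linear_combination a00 + hdet - (q : B) * he2
  have b01 : (M 0 0 + M 1 1 - e * (q + 1)) * M 0 1 = 0 := by
    linear_combination a01
  have b10 : (M 0 0 + M 1 1 - e * (q + 1)) * M 1 0 = 0 := by
    linear_combination a10
  have b11 : (M 0 0 + M 1 1 - e * (q + 1)) * M 1 1 = 0 := by
    linear_combination a11 + hdet - (q : B) * he2
  by_contra hne
  have c00 := (mul_eq_zero.1 b00).resolve_left hne
  have c01 := (mul_eq_zero.1 b01).resolve_left hne
  apply hq
  rw [← hdet, c00, c01, zero_mul, zero_mul, sub_zero]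

/-- `T = ψ + p ψ⁻¹` -/
theorem T_mem {ψ ψi : B} (h : ψ * ψi = 1) (a : B) :
    (ψ + a * ψi) ^ 2 - (a + 1) ^ 2 ∈ Ideal.span {ψ ^ 2 - 1} := by
  rw [Ideal.mem_span_singleton]
  exact ⟨1 - a ^ 2 * ψi ^ 2, by linear_combination (2 * a + a ^ 2 * (ψ * ψi + 1)) * h⟩

end alg

section joint

variable {O T Y : Type} [CommRing O] [IsLocalRing O] [IsNoetherianRing O]
  [IsAdicComplete (maximalIdeal O) O] [CommRing T] [Algebra O T] [AddCommGroup Y] [Module O Y]
  [Module.Finite O Y] [Module.Free O Y] [Nontrivial Y] {p : ℕ} [hp : Fact p.Prime]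
  {hpO : (p : O) ∈ maximalIdeal O} {S : Set ℕ} {t : GQ → ResidueField O}
  {ψ : T →ₐ[O] Module.End O Y} {θ : T →ₐ[O] ResidueField O} {ρ : GQ →* Module.End O Y}
  {χ : T →ₐ[O] O} {ρW : GQ →* Matrix (Fin 2) (Fin 2) O}
  {h : HG hpO S t ψ θ ρ} (D : JT.PtD hpO S ψ θ ρ χ ρW)
  {φ₁ : (JT.joint h D).TT →ₐ[O] h.TT} {φ₂ : (JT.joint h D).TT →ₐ[O] O}

/-- the joint trace ring injects into the product -/
theorem joint_inj
    (h1 : ∀ (a : (JT.joint h D).TT) (y : Y × (Fin 2 → O)), (a • y).1 = φ₁ a • y.1)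
    (h2 : ∀ (a : (JT.joint h D).TT) (y : Y × (Fin 2 → O)), (a • y).2 = φ₂ a • y.2)
    {a b : (JT.joint h D).TT} (e1 : φ₁ a = φ₁ b) (e2 : φ₂ a = φ₂ b) : a = b := by
  rw [← sub_eq_zero]
  refine BB.faithful _ fun y => ?_
  refine Prod.ext ?_ ?_
  · refine (h1 (a - b) y).trans ?_
    rw [map_sub, e1, sub_self, zero_smul]
    rfl
  · refine (h2 (a - b) y).trans ?_
    rw [map_sub, e2, sub_self, zero_smul]
    rfl

/-- equality of matrices over the joint ring -/
theorem joint_mat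
    (h1 : ∀ (a : (JT.joint h D).TT) (y : Y × (Fin 2 → O)), (a • y).1 = φ₁ a • y.1)
    (h2 : ∀ (a : (JT.joint h D).TT) (y : Y × (Fin 2 → O)), (a • y).2 = φ₂ a • y.2)
    {M M' : Matrix (Fin 2) (Fin 2) (JT.joint h D).TT} (e1 : M.map φ₁ = M'.map φ₁)
    (e2 : M.map φ₂ = M'.map φ₂) : M = M' := by
  ext i j
  exact joint_inj D h1 h2 (congrFun (congrFun e1 i) j) (congrFun (congrFun e2 i) j)

section rel

variable [Invertible (2 : O)] {g₀ k₀ : GQ} (hgk : HG.IrrAt t g₀ k₀)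

/-- **Relations over the joint ring.** -/
theorem joint_rel
    (h1 : ∀ (a : (JT.joint h D).TT) (y : Y × (Fin 2 → O)), (a • y).1 = φ₁ a • y.1)
    (h2 : ∀ (a : (JT.joint h D).TT) (y : Y × (Fin 2 → O)), (a • y).2 = φ₂ a • y.2)
    (t1 : ∀ g, φ₁ ((JT.joint h D).tt g) = h.tt g)
    (t2 : ∀ g, φ₂ ((JT.joint h D).tt g) = (ρW g).trace)
    (hc : ρW complexConjugation = !![1, 0; 0, -1]) (h01 : ρW g₀ 0 1 = 1) {a b : O} {σ τ : GQ}
    (r1 : (h.R hgk σ - algebraMap O h.TT a • (1 : Matrix (Fin 2) (Fin 2) h.TT)) *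
      (h.R hgk τ - algebraMap O h.TT b • (1 : Matrix (Fin 2) (Fin 2) h.TT)) = 0)
    (r2 : (ρW σ - a • (1 : Matrix (Fin 2) (Fin 2) O)) *
      (ρW τ - b • (1 : Matrix (Fin 2) (Fin 2) O)) = 0) :
    ((JT.joint h D).R hgk σ - algebraMap O (JT.joint h D).TT a •
        (1 : Matrix (Fin 2) (Fin 2) (JT.joint h D).TT)) *
      ((JT.joint h D).R hgk τ - algebraMap O (JT.joint h D).TT b •
        (1 : Matrix (Fin 2) (Fin 2) (JT.joint h D).TT)) = 0 := by
  have g1 : ∀ g, ((JT.joint h D).R hgk g).map φ₁.toRingHom = h.R hgk g :=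
    JT.R_map (JT.joint h D) hgk h φ₁ t1
  have g2 : ∀ g, ((JT.joint h D).R hgk g).map φ₂.toRingHom = ρW g :=
    JT.R_map_of (JT.joint h D) hgk φ₂ ρW t2 hc h01
  have c1 : ∀ a : O, φ₁.toRingHom (algebraMap O (JT.joint h D).TT a) = algebraMap O h.TT a :=
    fun a => φ₁.commutes a
  have c2 : ∀ a : O, φ₂.toRingHom (algebraMap O (JT.joint h D).TT a) = a :=
    fun a => φ₂.commutes a
  have z1 : (0 : Matrix (Fin 2) (Fin 2) (JT.joint h D).TT).map φ₁.toRingHom = 0 := by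
    ext i j
    exact map_zero φ₁
  have z2 : (0 : Matrix (Fin 2) (Fin 2) (JT.joint h D).TT).map φ₂.toRingHom = 0 := by
    ext i j
    exact map_zero φ₂
  refine joint_mat D (φ₁ := φ₁) (φ₂ := φ₂) h1 h2 ?_ ?_
  · refine Eq.trans ?_ z1.symm
    refine (map_mulM φ₁.toRingHom _ _).trans ?_
    rw [map_subM, map_subM, map_smulM, map_smulM, map_oneM, g1, g1, c1, c1]
    exact r1
  · refine Eq.trans ?_ z2.symm
    refine (map_mulM φ₂.toRingHom _ _).trans ?_
    rw [map_subM, map_subM, map_smulM, map_smulM, map_oneM, g2, g2, c2, c2]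
    exact r2

/-- unramifiedness over the joint ring -/
theorem joint_one
    (h1 : ∀ (a : (JT.joint h D).TT) (y : Y × (Fin 2 → O)), (a • y).1 = φ₁ a • y.1)
    (h2 : ∀ (a : (JT.joint h D).TT) (y : Y × (Fin 2 → O)), (a • y).2 = φ₂ a • y.2)
    (t1 : ∀ g, φ₁ ((JT.joint h D).tt g) = h.tt g)
    (t2 : ∀ g, φ₂ ((JT.joint h D).tt g) = (ρW g).trace)
    (hc : ρW complexConjugation = !![1, 0; 0, -1]) (h01 : ρW g₀ 0 1 = 1) {σ : GQ}
    (r1 : h.R hgk σ = 1) (r2 : ρW σ = 1) : (JT.joint h D).R hgk σ = 1 := by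
  have g1 : ∀ g, ((JT.joint h D).R hgk g).map φ₁.toRingHom = h.R hgk g :=
    JT.R_map (JT.joint h D) hgk h φ₁ t1
  have g2 : ∀ g, ((JT.joint h D).R hgk g).map φ₂.toRingHom = ρW g :=
    JT.R_map_of (JT.joint h D) hgk φ₂ ρW t2 hc h01
  refine joint_mat D (φ₁ := φ₁) (φ₂ := φ₂) h1 h2 ?_ ?_
  · exact ((g1 σ).trans r1).trans (map_oneM φ₁.toRingHom).symm
  · exact ((g2 σ).trans r2).trans (map_oneM φ₂.toRingHom).symm

end rel

end joint

section img

variable {O T Y : Type} [CommRing O] [IsLocalRing O] [IsNoetherianRing O]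
  [IsAdicComplete (maximalIdeal O) O] [CommRing T] [Algebra O T] [AddCommGroup Y] [Module O Y]
  [Module.Finite O Y] [Module.Free O Y] [Nontrivial Y] {p : ℕ} [hp : Fact p.Prime]
  {hpO : (p : O) ∈ maximalIdeal O} {S : Set ℕ} {ρb : GQ →* M2 (ResidueField O)}
  {ψ : T →ₐ[O] Module.End O Y} {θ : T →ₐ[O] ResidueField O} {ρ : GQ →* Module.End O Y}
  {h : HG hpO S (fun g => (ρb g).trace) ψ θ ρ} [Invertible (2 : O)] {g₀ k₀ : GQ}
  {hgk : HG.IrrAt (fun g => (ρb g).trace) g₀ k₀}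
  {t : ℕ} {q : Fin t → ℕ} {ty : Fin t → Ty} {ε : Fin t → ℤ}
    {A₀ : ℕ → ValuationSubring Ω} {Φ : Fin t → GQ} {v : Fin t → Fin 2 → O}
    {σ₀ : Fin t → GQ} {Qj : Fin t → Matrix (Fin 2) (Fin 2) h.TT}
  {B : Type} [CommRing B] (x : h.TT →+* B)

/-- the logarithm of inertia is killed if the image is unramified -/
theorem map_NJ {j : Fin t} (h1 : (h.R hgk (σ₀ j)).map x = 1) (a b : Fin 2) :
    x (NJ h hgk ty Φ v σ₀ Qj j a b) = 0 := by
  have h2 : (NJ h hgk ty Φ v σ₀ Qj j).map x = 0 := by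
    rw [NJ, map_mulM, map_mulM, map_subM, h1, map_oneM, sub_self, mul_zero, zero_mul]
  exact congrFun (congrFun h2 a) b

/-- the frame is invertible -/
theorem FrD.inv' (F : FrD h hgk q ty A₀ Φ v σ₀ Qj) (j : Fin t) :
    Qj j * fr (ty j) (v j) (h.R hgk (Φ j)) = 1 := mul_eq_one_comm.1 (F.hQ j)

/-- the trace of Frobenius -/
theorem trace_PhiJ (F : FrD h hgk q ty A₀ Φ v σ₀ Qj) (j : Fin t) :
    (PhiJ h hgk ty Φ v Qj j).trace = (h.R hgk (Φ j)).trace := by
  rw [PhiJ, Matrix.mul_assoc, Matrix.trace_mul_comm, Matrix.mul_assoc, F.hQ j, Matrix.mul_one]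

theorem map_trace_PhiJ (F : FrD h hgk q ty A₀ Φ v σ₀ Qj) (j : Fin t)
    {M : Matrix (Fin 2) (Fin 2) B} (hM : (h.R hgk (Φ j)).map x = M) :
    x (PhiJ h hgk ty Φ v Qj j).trace = M.trace := by
  rw [trace_PhiJ F, ← hM, map_traceM]

/-- the Steinberg relation -/
theorem map_rel_J (F : FrD h hgk q ty A₀ Φ v σ₀ Qj) (j : Fin t) (e : ℤ)
    (hrel : ((h.R hgk (σ₀ j)).map x - 1) *
      ((h.R hgk (Φ j)).map x - (e : B) • (1 : Matrix (Fin 2) (Fin 2) B)) = 0) :
    (NJ h hgk ty Φ v σ₀ Qj j * (PhiJ h hgk ty Φ v Qj j -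
      (e : h.TT) • (1 : Matrix (Fin 2) (Fin 2) h.TT))).map x = 0 := by
  have e1 : NJ h hgk ty Φ v σ₀ Qj j * (PhiJ h hgk ty Φ v Qj j -
      (e : h.TT) • (1 : Matrix (Fin 2) (Fin 2) h.TT)) =
      Qj j * ((h.R hgk (σ₀ j) - 1) * (h.R hgk (Φ j) -
        (e : h.TT) • (1 : Matrix (Fin 2) (Fin 2) h.TT))) * fr (ty j) (v j) (h.R hgk (Φ j)) := by
    exact conj_aux (F.hQ j) (by rw [Matrix.smul_mul, Matrix.mul_smul, Matrix.one_mul,
      Matrix.mul_one])
  rw [e1, map_mulM, map_mulM, map_mulM, map_subM, map_subM, map_smulM, map_oneM, map_intCast, hrel,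
    mul_zero, zero_mul]

/-- the value of the quotient character at a point -/
theorem OrdR.map_psi [Algebra O B] [Algebra (ZMod p) (ResidueField O)] (hp2 : p ≠ 2)
    {A : ValuationSubring Ω} {Q Qi : Matrix (Fin 2) (Fin 2) h.TT} (H : OrdR h hgk A Q Qi)
    (hA : A.LiesOverPrime p) {Φp : 𝒢} (x : h.TT →ₐ[O] B) {c : B}
    (hrel : ∀ σ ∈ A.inertiaSubgroupIn ℚ,
      ((h.R hgk σ).map x - algebraMap O B (cycO hpO σ) • (1 : Matrix (Fin 2) (Fin 2) B)) *
        ((h.R hgk Φp).map x - c • 1) = 0) : x ((Qi * h.R hgk Φp * Q) 1 1) = c := by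
  obtain ⟨τ, hτ, hne⟩ := LC.exists_cyc_ne_one hp2 hA
  have hau : IsUnit (algebraMap O h.TT (cycO hpO τ) - 1) := by
    by_contra hnu
    have h1 : algebraMap O h.TT (cycO hpO τ) - 1 ∈ maximalIdeal h.TT :=
      (IsLocalRing.mem_maximalIdeal _).2 hnu
    rw [← h.theta_eq_zero, map_sub, map_one, AlgHom.commutes, sub_eq_zero] at h1
    apply hne
    apply (algebraMap (ZMod p) (ResidueField O)).injective
    rw [map_one, ← residue_cycO hpO]
    exact h1
  obtain ⟨b, hb⟩ := (hau.map x).exists_left_inv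
  rw [map_sub, AlgHom.commutes, map_one] at hb
  have hmm : ∀ X Z : Matrix (Fin 2) (Fin 2) h.TT, (X * Z).map x = X.map x * Z.map x :=
    map_mulM x.toRingHom
  have hQ : Q.map x * Qi.map x = 1 := by rw [← hmm, H.inv]; exact map_oneM x.toRingHom
  have hQ' : Qi.map x * Q.map x = 1 := mul_eq_one_comm.1 hQ
  have hN : ∀ σ, (Qi * h.R hgk σ * Q).map x = Qi.map x * (h.R hgk σ).map x * Q.map x := fun σ => by
    rw [hmm, hmm]
  have h1 : ((Qi * h.R hgk τ * Q).map x -
      algebraMap O B (cycO hpO τ) • (1 : Matrix (Fin 2) (Fin 2) B)) *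
        ((Qi * h.R hgk Φp * Q).map x - c • 1) = 0 := by
    have e1 : ∀ (a : B) (X : Matrix (Fin 2) (Fin 2) B), Qi.map x * X * Q.map x - a • 1 =
        Qi.map x * (X - a • 1) * Q.map x := fun a X => by
      rw [mul_sub, sub_mul, Matrix.mul_smul, Matrix.mul_one, Matrix.smul_mul, hQ']
    rw [hN, hN, e1, e1, conj_mul_conj hQ, hrel τ hτ, mul_zero, zero_mul]
  have h2 := congrFun (congrFun h1 1) 1
  rw [Matrix.mul_apply, Fin.sum_univ_two, Matrix.sub_apply, Matrix.sub_apply, Matrix.sub_apply,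
    Matrix.sub_apply, Matrix.map_apply, Matrix.map_apply, Matrix.map_apply, Matrix.map_apply,
    H.low τ (LC.ine_le_dec A hτ), H.ine τ hτ] at h2
  simp only [map_zero, map_one, Matrix.smul_apply, Matrix.one_apply_eq, ne_eq, one_ne_zero,
    not_false_eq_true, Matrix.one_apply_ne, smul_eq_mul, mul_zero, sub_zero, zero_mul, zero_add,
    mul_one, Matrix.zero_apply] at h2
  linear_combination -b * h2 - (x ((Qi * h.R hgk Φp * Q) 1 1) - c) * hb

/-- the parameter `u` vanishes at a point which is ordinary up to a quadratic twist -/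
theorem OrdR.map_u [Algebra O B] [Algebra (ZMod p) (ResidueField O)] (hp2 : p ≠ 2)
    {A : ValuationSubring Ω} {Q Qi : Matrix (Fin 2) (Fin 2) h.TT} (H : OrdR h hgk A Q Qi)
    (hA : A.LiesOverPrime p) {Φp : 𝒢} (x : h.TT →ₐ[O] B) {c : B} (hc : c ^ 2 = 1)
    (hrel : ∀ σ ∈ A.inertiaSubgroupIn ℚ,
      ((h.R hgk σ).map x - algebraMap O B (cycO hpO σ) • (1 : Matrix (Fin 2) (Fin 2) B)) *
        ((h.R hgk Φp).map x - c • 1) = 0) : x ((Qi * h.R hgk Φp * Q) 1 1 ^ 2 - 1) = 0 := by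
  rw [map_sub, map_pow, H.map_psi hp2 hA x hrel, hc, map_one, sub_self]

end img

end Fermat.Agent.ZG
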