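import Fermat.Agent.JT.PtY
import Fermat.Agent.Sel.E2C
import Fermat.Agent.E2Y.Main
import Fermat.Agent.TW.NoOcc

/-!
# Inertia on the Taylor–Wiles levels
-/

set_option autoImplicit false
set_option linter.unusedSectionVars false
set_option linter.style.haveILetI false

noncomputable section

namespace Fermat.Agent.ZG

open Matrix IsLocalRing Fermat.Agent.GalRep Fermat.Agent.TW Fermat.Agent.Places Fermat.Agent.Flat
open Fermat.Agent.Cheb Fermat.Agent.Sel Fermat.Agent.KumG Fermat.Agent.E2Y Fermat.Agent.SSH Fermat.Agent.Cov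

local notation "Ω" => AlgebraicClosure ℚ

local notation "𝒢" => (AlgebraicClosure ℚ) ≃ₐ[ℚ] (AlgebraicClosure ℚ)

variable {O : Type} [CommRing O] [IsLocalRing O] [IsNoetherianRing O]
  [IsAdicComplete (maximalIdeal O) O] {p : ℕ} [hp : Fact p.Prime]
  (hpO : (p : O) ∈ maximalIdeal O) (ι : AlgebraicClosure ℚ →+* ℂ)

section aux

variable {q M : ℕ} [hq : Fact q.Prime] [NeZero M]
  {H : Subgroup (ZMod M)ˣ} [hH : Fact ((-1 : (ZMod M)ˣ) ∈ H)] {S : Set ℕ}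
  (hNS : ∀ l, l.Prime → l ∣ q * M → l ∈ S) (e : TS O S)
  {A : ValuationSubring (AlgebraicClosure ℚ)}

theorem rhoY_unip_aux (hpq : p ≠ q) (hA : A.LiesOverPrime q) (hqM : ¬ q ∣ M) (hM3 : 3 ≤ M)
    (hodd : Odd (Fintype.card (DG (q * M) (HM (dvd_mul_left M q) H)))) {σ : GQ}
    (hσ : σ ∈ A.inertiaSubgroupIn ℚ) (y : YH (HM (dvd_mul_left M q) H) hNS e) :
    rhoY hpO ι (HM (dvd_mul_left M q) H) hNS e σ (rhoY hpO ι (HM (dvd_mul_left M q) H) hNS e σ y) -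
      rhoY hpO ι (HM (dvd_mul_left M q) H) hNS e σ y -
      rhoY hpO ι (HM (dvd_mul_left M q) H) hNS e σ y + y = 0 := by
  have h1 := LinearMap.congr_fun (rhoT_unip (O := O) hpO ι hpq hqM hM3 hodd hA hσ hσ)
    (y : XH O (q * M) (HM (dvd_mul_left M q) H))
  rw [Module.End.mul_apply, LinearMap.sub_apply, LinearMap.sub_apply, map_sub,
    Module.End.one_apply, Module.End.one_apply] at h1
  apply Subtype.ext
  rw [← sub_add] at h1
  exact h1

end aux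

theorem rhoY_unip {N q M : ℕ} [NeZero N] [NeZero M] (hN : N = q * M) (hq : q.Prime) (hpq : p ≠ q)
    (hqM : ¬ q ∣ M) (hM3 : 3 ≤ M) (hMN : M ∣ N) {H : Subgroup (ZMod N)ˣ}
    [hH : Fact ((-1 : (ZMod N)ˣ) ∈ H)] (hker : (ZMod.unitsMap hMN).ker ≤ H)
    (hodd : Odd (Fintype.card (DG N H))) {S : Set ℕ} (hNS : ∀ l, l.Prime → l ∣ N → l ∈ S)
    (e : TS O S) {A : ValuationSubring Ω} (hA : A.LiesOverPrime q) {σ : GQ}
    (hσ : σ ∈ A.inertiaSubgroupIn ℚ) (y : YH H hNS e) :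
    rhoY hpO ι H hNS e σ (rhoY hpO ι H hNS e σ y) - rhoY hpO ι H hNS e σ y -
      rhoY hpO ι H hNS e σ y + y = 0 := by
  subst hN
  haveI : NeZero q := ⟨hq.ne_zero⟩
  obtain ⟨H', rfl⟩ := exists_HM hker
  haveI : Fact ((-1 : (ZMod M)ˣ) ∈ H') := ⟨neg_one_mem_of_HM hH.out⟩
  haveI : Fact q.Prime := ⟨hq⟩
  exact rhoY_unip_aux hpO ι hNS e hpq hA hqM hM3 hodd hσ y

section lev

variable {O : Type} [CommRing O] [IsDomain O] [IsLocalRing O] [IsNoetherianRing O]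
  [IsAdicComplete (maximalIdeal O) O] {p : ℕ} [hp : Fact p.Prime]
  {hpO : (p : O) ∈ maximalIdeal O} {ι : AlgebraicClosure ℚ →+* ℂ}
  [Invertible (2 : O)] {ρb : GQ →* M2 (ResidueField O)} {g₀ k₀ : GQ}
  {hgk : HG.IrrAt (fun g => (ρb g).trace) g₀ k₀} {N : ℕ} [NeZero N]
  {S : Set ℕ} {hNS : ∀ l, l.Prime → l ∣ N → l ∈ S} {θ : TS O S →ₐ[O] ResidueField O}
  {r : ℕ} {v : Fin r → ℕ} {Av : Fin r → ValuationSubring Ω} {m c : Fin r → ℕ} {e : TS O S} {B : ℕ}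

/-- the Taylor–Wiles levels are unramified outside the level and `p` -/
theorem lev_unr (X : JT.Lev0 hpO ι hgk hNS θ v Av m c e B) {l : ℕ} (hl : l.Prime)
    (hlN : ¬ l ∣ N) (hlp : l ≠ p) {A : ValuationSubring Ω} (hA : A.LiesOverPrime l) {σ : 𝒢}
    (hσ : σ ∈ A.inertiaSubgroupIn ℚ) :
    haveI := X.hH; haveI := X.nt; haveI := X.fr
    X.hg.R hgk σ = 1 := by
  haveI := X.hH
  haveI := X.nt
  haveI := X.fr
  exact R_eq_one X.hg hgk (rhoY_inertia ι hpO hl hlN hlp hA hσ)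

/-- inertia acts unipotently at the primes dividing the level exactly once -/
theorem lev_unip (hp2 : p ≠ 2) (X : JT.Lev0 hpO ι hgk hNS θ v Av m c e B) {l M : ℕ} (hl : l.Prime)
    (hlp : l ≠ p) (hN : N = l * M) (hlM : ¬ l ∣ M) (hM3 : 3 ≤ M) (hv : ∀ i, v i ∣ M)
    {A : ValuationSubring Ω} (hA : A.LiesOverPrime l) {σ : 𝒢}
    (hσ : σ ∈ A.inertiaSubgroupIn ℚ) :
    haveI := X.hH; haveI := X.nt; haveI := X.fr
    (X.hg.R hgk σ - 1) * (X.hg.R hgk σ - 1) = 0 := by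
  haveI := X.hH
  haveI := X.nt
  haveI := X.fr
  haveI : NeZero M := ⟨by omega⟩
  have hMN : M ∣ N := hN ▸ dvd_mul_left M l
  exact R_sq_zero X.hg hgk fun y => rhoY_unip hpO ι hN hl (Ne.symm hlp) hlM hM3 hMN
    (ker_le_HQ X.hvN c hMN hv) (odd_card hp2 X.hΔ) hNS e hA hσ y

end lev

end Fermat.Agent.ZG
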