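import Fermat.Agent.ZG.NumW
import Fermat.Agent.ZG.LvY
import Fermat.Agent.WPt.Ro

/-!
# The local data of a semistable curve at the non-minimal primes, over the joint rings
-/

set_option autoImplicit false
set_option linter.unusedSectionVars false
set_option linter.style.haveILetI false

noncomputable section

namespace Fermat.Agent.ZG

open Matrix IsLocalRing Fermat.Agent.GalRep Fermat.Agent.TW Fermat.Agent.Places Fermat.Agent.Flat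
open Fermat.Agent.Cheb Fermat.Agent.Sel Fermat.Agent.StR Fermat.Agent.TWG
open Fermat.Agent.ImW Fermat.Agent.WM
open Fermat.Agent.LC (OrdB RO Up ordL mul2)

local notation "Ω" => AlgebraicClosure ℚ

local notation "𝒢" => (AlgebraicClosure ℚ) ≃ₐ[ℚ] (AlgebraicClosure ℚ)

theorem exists_places : ∃ A₀ : ℕ → ValuationSubring Ω, ∀ l, l.Prime → (A₀ l).LiesOverPrime l := by
  choose A₀' hA₀' using fun v : {v : ℕ // v.Prime} => exists_liesOverPrime (AlgebraicClosure ℚ) v.2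
  classical
  refine ⟨fun v => if hv : v.Prime then A₀' ⟨v, hv⟩ else ⊤, fun v hv => ?_⟩
  change (if hv : v.Prime then A₀' ⟨v, hv⟩ else ⊤).LiesOverPrime v
  rw [dif_pos hv]
  exact hA₀' ⟨v, hv⟩

variable {O : Type} [CommRing O] [IsDomain O] [CharZero O] [IsLocalRing O] [IsNoetherianRing O]
  [IsAdicComplete (maximalIdeal O) O] {p : ℕ} [hp : Fact p.Prime]
  {hpO : (p : O) ∈ maximalIdeal O} [Algebra (ZMod p) (ResidueField O)]
  {W : WeierstrassCurve ℤ} {r₀ : ℕ} {ρ : 𝒢 →* M2 (ZMod p)}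
  {t : ℕ} {q : Fin t → ℕ} {ty : Fin t → Ty} {S₀ Un : Finset ℕ} {g₀ k₀ : 𝒢}
  {ρW : 𝒢 →* M2 O}

/-- The data at the non-minimal primes. -/
structure SDat (W : WeierstrassCurve ℤ) (p r₀ : ℕ) [hp : Fact p.Prime] (ρ : 𝒢 →* M2 (ZMod p))
    [Algebra (ZMod p) (ResidueField O)] {t : ℕ} (q : Fin t → ℕ) (ty : Fin t → Ty)
    (S₀ Un : Finset ℕ) (ρW : 𝒢 →* M2 O) (ε : Fin t → ℤ) (A₀ : ℕ → ValuationSubring Ω)
    (Φ : Fin t → 𝒢) (v : Fin t → Fin 2 → O) : Prop where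
  nd : NData W p r₀ ρ (ResidueField O) q ty S₀ Un
  lies : ∀ l : ℕ, l.Prime → (A₀ l).LiesOverPrime l
  frob : ∀ j, (A₀ (q j)).IsFrobeniusAt (Φ j) (q j)
  heps : ∀ j, ε j = 1 ∨ ε j = -1
  tr : ∀ j, (ρW (Φ j)).trace = (ε j : O) * ((q j : O) + 1)
  rel : ∀ j, ∀ σ ∈ (A₀ (q j)).inertiaSubgroupIn ℚ,
    (ρW σ - 1) * (ρW (Φ j) - (ε j : O) • (1 : M2 O)) = 0
  sq : ∀ l : ℕ, l.Prime → ¬ W.IsGoodPrimeFor l → l ≠ p → ∀ A : ValuationSubring Ω,
    A.LiesOverPrime l → ∀ σ ∈ A.inertiaSubgroupIn ℚ, (ρW σ - 1) * (ρW σ - 1) = 0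
  hv : ∀ j, ty j = Ty.ns →
    (fr Ty.ns (v j) (extW ρ (algebraMap (ZMod p) (ResidueField O)) (Φ j))).det ≠ 0

/-- **Existence of the data at the non-minimal primes.** -/
theorem exists_sDat (hss : W.IsSemistableModel)
    (nd : NData W p r₀ ρ (ResidueField O) q ty S₀ Un)
    (hW : WPt.WRep W p hpO ρ (algebraMap (ZMod p) (ResidueField O)) g₀ ρW) :
    ∃ ε A₀ Φ v, SDat W p r₀ ρ q ty S₀ Un ρW ε A₀ Φ v := by
  obtain ⟨A₀, hA₀⟩ := exists_places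
  have hq : ∀ j, ((q j).Prime ∧ ¬ W.IsGoodPrimeFor (q j)) ∧ q j ≠ p ∧ Unr ρ (q j) := fun j =>
    (nd.memq (q j)).1 ⟨j, rfl⟩
  have hbad : ∀ l : ℕ, ¬ W.IsGoodPrimeFor l → (l : ℤ) ∣ W.Δ := fun l hl => not_not.1 hl
  have h1 : ∀ j, ∃ Φ : 𝒢, (A₀ (q j)).IsFrobeniusAt Φ (q j) := fun j =>
    exists_isFrobeniusAt _ (hq j).1.1 (hA₀ _ (hq j).1.1)
  choose Φ hΦ using h1
  have h2 : ∀ j, ∃ ε : ℤˣ, ∀ A : ValuationSubring Ω, A.LiesOverPrime (q j) →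
      ∀ Φ : 𝒢, A.IsFrobeniusAt Φ (q j) → (ρW Φ).trace = WPt.sg O ε * ((q j : O) + 1) ∧
        ∀ σ ∈ A.inertiaSubgroupIn ℚ, (ρW σ - 1) * (ρW Φ - WPt.sg O ε • (1 : M2 O)) = 0 ∧
          (ρW Φ - (WPt.sg O ε * (q j : O)) • (1 : M2 O)) * (ρW σ - 1) = 0 := fun j =>
    hW.steinberg (hq j).1.1 (hq j).2.1 (hbad _ (hq j).1.2) (hss _ (hq j).1.1 (hbad _ (hq j).1.2))
  choose ε hε using h2
  have h3 : ∀ j, ∃ v : Fin 2 → O, ty j = Ty.ns →
      (fr Ty.ns v (extW ρ (algebraMap (ZMod p) (ResidueField O)) (Φ j))).det ≠ 0 := fun j => by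
    by_cases hj : ty j = Ty.ns
    · obtain ⟨v, hv⟩ := exists_vec (O := O) (extW ρ (algebraMap (ZMod p) (ResidueField O)) (Φ j))
        (nd.ns j hj _ (hA₀ _ (hq j).1.1) _ (hΦ j))
      exact ⟨v, fun _ => hv⟩
    · exact ⟨0, fun h => absurd h hj⟩
  choose v hv using h3
  refine ⟨fun j => ((ε j : ℤˣ) : ℤ), A₀, Φ, v, nd, hA₀, hΦ, fun j => ?_, fun j =>
    (hε j _ (hA₀ _ (hq j).1.1) _ (hΦ j)).1, fun j σ hσ =>
    ((hε j _ (hA₀ _ (hq j).1.1) _ (hΦ j)).2 σ hσ).1, fun l hl hlg hlp A hA σ hσ => ?_, hv⟩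
  · rcases Int.units_eq_one_or (ε j) with h | h
    · left; simp [h]
    · right; simp [h]
  · obtain ⟨χ, ε', hχ⟩ := hW.mult l hl (hbad l hlg) (hss l hl (hbad l hlg))
    obtain ⟨h4, h5, h6⟩ := hχ A hA
    have h7 := h6 σ (LC.ine_le_dec A hσ) σ (LC.ine_le_dec A hσ)
    rwa [h4 σ hσ, cycO_inertia hpO hl hlp hA hσ, WPt.sg_one, mul_one, one_smul] at h7

namespace SDat

variable {ε : Fin t → ℤ} {A₀ : ℕ → ValuationSubring Ω} {Φ : Fin t → 𝒢} {v : Fin t → Fin 2 → O}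
  (D : SDat W p r₀ ρ q ty S₀ Un ρW ε A₀ Φ v)

include D

theorem hq (j : Fin t) : ((q j).Prime ∧ ¬ W.IsGoodPrimeFor (q j)) ∧ q j ≠ p ∧ Unr ρ (q j) :=
  (D.nd.memq (q j)).1 ⟨j, rfl⟩

/-- the residual trace of Frobenius -/
theorem res_tr (hW : WPt.WRep W p hpO ρ (algebraMap (ZMod p) (ResidueField O)) g₀ ρW)
    (j : Fin t) : (extW ρ (algebraMap (ZMod p) (ResidueField O)) (Φ j)).trace =
      (ε j : ResidueField O) * ((q j : ResidueField O) + 1) := by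
  rw [← hW.res, map_traceM, D.tr, map_mul, map_intCast, map_add, map_natCast, map_one]

variable {S : Set ℕ} {T Y : Type} [CommRing T] [Algebra O T] [AddCommGroup Y] [Module O Y]
  [Module.Finite O Y] [Module.Free O Y] [Nontrivial Y] [Invertible (2 : O)]
  {ψ : T →ₐ[O] Module.End O Y} {θ : T →ₐ[O] ResidueField O} {ρY : GQ →* Module.End O Y}
  {hgk : HG.IrrAt (fun g => (extW ρ (algebraMap (ZMod p) (ResidueField O)) g).trace) g₀ k₀}

/-- the hypotheses at the non-minimal primes, for every module -/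
theorem nmH (hW : WPt.WRep W p hpO ρ (algebraMap (ZMod p) (ResidueField O)) g₀ ρW)
    (h : HG hpO S (fun g => (extW ρ (algebraMap (ZMod p) (ResidueField O)) g).trace) ψ θ ρY)
    (hsq : ∀ j, ∀ σ ∈ (A₀ (q j)).inertiaSubgroupIn ℚ,
      (h.R hgk σ - 1) * (h.R hgk σ - 1) = 0) : NmH h hgk q ty ε A₀ Φ v where
  prime j := ⟨(D.hq j).1.1, (D.hq j).2.1⟩
  lies j := D.lies _ (D.hq j).1.1
  frob := D.frob
  heps := D.heps
  hI j := D.nd.num.hqI j _ (D.lies _ (D.hq j).1.1)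
  htr j := D.res_tr hW j
  hsc j hj := D.nd.num.hqs j hj _ (D.lies _ (D.hq j).1.1) _ (D.frob j)
  hv := D.hv
  hsq := hsq

/-- the residual representation of a module -/
theorem hred (hW : WPt.WRep W p hpO ρ (algebraMap (ZMod p) (ResidueField O)) g₀ ρW)
    (h : HG hpO S (fun g => (extW ρ (algebraMap (ZMod p) (ResidueField O)) g).trace) ψ θ ρY) :
    redR (h.R hgk) h.theta.toRingHom = extW ρ (algebraMap (ZMod p) (ResidueField O)) := by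
  refine redR_eq h hgk ?_ ?_
  · rw [← hW.res, hW.conj]
    ext i j
    fin_cases i <;> fin_cases j <;> simp
  · rw [← hW.res, Matrix.map_apply, hW.g0, map_one]

/-- **The hypotheses for a module, from its inertia.** -/
theorem lvH {ϖ : O} (hmax : maximalIdeal O = Ideal.span {ϖ})
    (hW : WPt.WRep W p hpO ρ (algebraMap (ZMod p) (ResidueField O)) g₀ ρW)
    (h : HG hpO S (fun g => (extW ρ (algebraMap (ZMod p) (ResidueField O)) g).trace) ψ θ ρY)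
    {Sf : Finset ℕ}
    (hunr : ∀ l : ℕ, l.Prime → l ∉ Sf → ∀ A : ValuationSubring Ω, A.LiesOverPrime l →
      ∀ σ ∈ A.inertiaSubgroupIn ℚ, h.R hgk σ = 1)
    (hsq : ∀ l : ℕ, l.Prime → ¬ W.IsGoodPrimeFor l → l ≠ p → ∀ A : ValuationSubring Ω,
      A.LiesOverPrime l → ∀ σ ∈ A.inertiaSubgroupIn ℚ, (h.R hgk σ - 1) * (h.R hgk σ - 1) = 0) :
    LvH h hgk ϖ q ty ε A₀ Φ v S₀ Un Sf where
  hmax := hmax
  hred := D.hred hW h
  hN := D.nd.num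
  H := D.nmH hW h fun j => hsq _ (D.hq j).1.1 (D.hq j).1.2 (D.hq j).2.1 _
    (D.lies _ (D.hq j).1.1)
  hunr := hunr
  hUn l hl := by
    obtain ⟨h1, h2, h3⟩ := (D.nd.memU l).1 hl
    exact hsq l h1.1 h1.2 h2 _ (D.lies l h1.1)

variable {χ : T →ₐ[O] O}

/-- **The hypotheses for the joint module.** -/
theorem lvH_joint {ϖ : O} (hmax : maximalIdeal O = Ideal.span {ϖ})
    (hW : WPt.WRep W p hpO ρ (algebraMap (ZMod p) (ResidueField O)) g₀ ρW)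
    (h : HG hpO S (fun g => (extW ρ (algebraMap (ZMod p) (ResidueField O)) g).trace) ψ θ ρY)
    (P : JT.PtD hpO S ψ θ ρY χ ρW) {Sf : Finset ℕ}
    (hSf : ∀ l : ℕ, l.Prime → l ∉ Sf → W.IsGoodPrimeFor l ∧ l ≠ p)
    (hunr : ∀ l : ℕ, l.Prime → l ∉ Sf → ∀ A : ValuationSubring Ω, A.LiesOverPrime l →
      ∀ σ ∈ A.inertiaSubgroupIn ℚ, h.R hgk σ = 1)
    (hsq : ∀ l : ℕ, l.Prime → ¬ W.IsGoodPrimeFor l → l ≠ p → ∀ A : ValuationSubring Ω,
      A.LiesOverPrime l → ∀ σ ∈ A.inertiaSubgroupIn ℚ, (h.R hgk σ - 1) * (h.R hgk σ - 1) = 0) :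
    LvH (JT.joint h P) hgk ϖ q ty ε A₀ Φ v S₀ Un Sf := by
  obtain ⟨φ₁, t1, h1⟩ := JT.exists_pr1 h P
  obtain ⟨φ₂, t2, h2⟩ := JT.exists_pr2 h P
  refine D.lvH hmax hW (JT.joint h P) (fun l hl hlS A hA σ hσ => ?_)
    (fun l hl hlg hlp A hA σ hσ => ?_)
  · exact joint_one P hgk h1 h2 t1 t2 hW.conj hW.g0 (hunr l hl hlS A hA σ hσ)
      (hW.unr l hl (hSf l hl hlS).1 (hSf l hl hlS).2 A hA σ hσ)
  · have h3 := joint_rel P hgk h1 h2 t1 t2 hW.conj hW.g0 (a := 1) (b := 1) (σ := σ) (τ := σ)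
      (by rw [map_one, one_smul]; exact hsq l hl hlg hlp A hA σ hσ)
      (by rw [one_smul]; exact D.sq l hl hlg hlp A hA σ hσ)
    rw [map_one, one_smul] at h3
    exact h3

section pts

omit [IsDomain O] [CharZero O] D

/-- the `joint ring → O` map on the representation -/
theorem map2
    (h : HG hpO S (fun g => (extW ρ (algebraMap (ZMod p) (ResidueField O)) g).trace) ψ θ ρY)
    (P : JT.PtD hpO S ψ θ ρY χ ρW)
    (hW : WPt.WRep W p hpO ρ (algebraMap (ZMod p) (ResidueField O)) g₀ ρW)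
    {x : (JT.joint h P).TT →ₐ[O] O}
    (t2 : ∀ g, x ((JT.joint h P).tt g) = (ρW g).trace) (σ : 𝒢) :
    ((JT.joint h P).R hgk σ).map x = ρW σ :=
  JT.R_map_of (JT.joint h P) hgk x ρW t2 hW.conj hW.g0 σ

end pts

variable {σ₀ : Fin t → GQ}
  (h : HG hpO S (fun g => (extW ρ (algebraMap (ZMod p) (ResidueField O)) g).trace) ψ θ ρY)
  (P : JT.PtD hpO S ψ θ ρY χ ρW) {Qj : Fin t → Matrix (Fin 2) (Fin 2) (JT.joint h P).TT}

/-- (hxΦ) -/
theorem x_tr (hW : WPt.WRep W p hpO ρ (algebraMap (ZMod p) (ResidueField O)) g₀ ρW)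
    {x : (JT.joint h P).TT →ₐ[O] O} (t2 : ∀ g, x ((JT.joint h P).tt g) = (ρW g).trace)
    (F : FrD (JT.joint h P) hgk q ty A₀ Φ v σ₀ Qj) (j : Fin t) :
    x (PhiJ (JT.joint h P) hgk ty Φ v Qj j).trace = (ε j : O) * ((q j : O) + 1) := by
  rw [← D.tr j]
  exact map_trace_PhiJ x.toRingHom F j (map2 h P hW t2 (Φ j))

/-- (hxN) -/
theorem x_rel (hW : WPt.WRep W p hpO ρ (algebraMap (ZMod p) (ResidueField O)) g₀ ρW)
    {x : (JT.joint h P).TT →ₐ[O] O} (t2 : ∀ g, x ((JT.joint h P).tt g) = (ρW g).trace)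
    (F : FrD (JT.joint h P) hgk q ty A₀ Φ v σ₀ Qj) (j : Fin t) :
    (NJ (JT.joint h P) hgk ty Φ v σ₀ Qj j * (PhiJ (JT.joint h P) hgk ty Φ v Qj j -
      (ε j : (JT.joint h P).TT) • (1 : Matrix (Fin 2) (Fin 2) (JT.joint h P).TT))).map x = 0 := by
  refine map_rel_J x.toRingHom F j (ε j) ?_
  have e1 : ((JT.joint h P).R hgk (σ₀ j)).map x.toRingHom = ρW (σ₀ j) := map2 h P hW t2 _
  have e2 : ((JT.joint h P).R hgk (Φ j)).map x.toRingHom = ρW (Φ j) := map2 h P hW t2 _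
  rw [e1, e2]
  exact D.rel j _ (F.hσ j)

/-- (hNM) the image in an unramified level -/
theorem map_N {T' Y' : Type} [CommRing T'] [Algebra O T'] [AddCommGroup Y'] [Module O Y']
    [Module.Finite O Y'] [Module.Free O Y'] [Nontrivial Y'] {S' : Set ℕ}
    {ψ' : T' →ₐ[O] Module.End O Y'} {θ' : T' →ₐ[O] ResidueField O} {ρ' : GQ →* Module.End O Y'}
    {h' : HG hpO S' (fun g => (extW ρ (algebraMap (ZMod p) (ResidueField O)) g).trace) ψ' θ' ρ'}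
    {x : (JT.joint h P).TT →ₐ[O] h'.TT} (t2 : ∀ g, x ((JT.joint h P).tt g) = h'.tt g)
    (F : FrD (JT.joint h P) hgk q ty A₀ Φ v σ₀ Qj) (j : Fin t)
    (hunr : ∀ σ ∈ (A₀ (q j)).inertiaSubgroupIn ℚ, h'.R hgk σ = 1) (a b : Fin 2) :
    x (NJ (JT.joint h P) hgk ty Φ v σ₀ Qj j a b) = 0 :=
  map_NJ x.toRingHom ((JT.R_map (JT.joint h P) hgk h' x t2 (σ₀ j)).trans (hunr _ (F.hσ j))) a b

omit D in
/-- the ordinary relation over the joint ring -/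
theorem hord_joint (hss : W.IsSemistableModel) (hbad : (p : ℤ) ∣ W.Δ)
    (hW : WPt.WRep W p hpO ρ (algebraMap (ZMod p) (ResidueField O)) g₀ ρW)
    {A : ValuationSubring Ω} (hA : A.LiesOverPrime p)
    (hord : ∀ σ ∈ A.inertiaSubgroupIn ℚ, ∀ τ ∈ A.inertiaSubgroupIn ℚ,
      (h.R hgk τ - algebraMap O h.TT (cycO hpO τ) • (1 : Matrix (Fin 2) (Fin 2) h.TT)) *
        (h.R hgk σ - 1) = 0) :
    ∀ σ ∈ A.inertiaSubgroupIn ℚ, ∀ τ ∈ A.inertiaSubgroupIn ℚ,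
      ((JT.joint h P).R hgk τ - algebraMap O (JT.joint h P).TT (cycO hpO τ) •
        (1 : Matrix (Fin 2) (Fin 2) (JT.joint h P).TT)) * ((JT.joint h P).R hgk σ - 1) = 0 := by
  obtain ⟨φ₁, t1, h1⟩ := JT.exists_pr1 h P
  obtain ⟨φ₂, t2, h2⟩ := JT.exists_pr2 h P
  obtain ⟨χ, ε', hχ⟩ := hW.mult p hp.out hbad (hss p hp.out hbad)
  obtain ⟨h4, h5, h6⟩ := hχ A hA
  intro σ hσ τ hτ
  have h3 := joint_rel P hgk h1 h2 t1 t2 hW.conj hW.g0 (a := cycO hpO τ) (b := 1) (σ := τ) (τ := σ)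
    (by rw [map_one, one_smul]; exact hord σ hσ τ hτ)
    (by
      have h7 := h6 τ (LC.ine_le_dec A hτ) σ (LC.ine_le_dec A hσ)
      rwa [h4 σ hσ, h4 τ hτ, WPt.sg_one, one_mul] at h7)
  rw [map_one, one_smul] at h3
  exact h3

omit D in
/-- the quotient character at the point of the curve -/
theorem x_psi (hp2 : p ≠ 2) (hss : W.IsSemistableModel) (hbad : (p : ℤ) ∣ W.Δ)
    (hW : WPt.WRep W p hpO ρ (algebraMap (ZMod p) (ResidueField O)) g₀ ρW)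
    {A : ValuationSubring Ω} (hA : A.LiesOverPrime p)
    {x : (JT.joint h P).TT →ₐ[O] O} (t2 : ∀ g, x ((JT.joint h P).tt g) = (ρW g).trace)
    {Q Qi : Matrix (Fin 2) (Fin 2) (JT.joint h P).TT} (HO : OrdR (JT.joint h P) hgk A Q Qi)
    {Φp : 𝒢} (hΦ : A.IsFrobeniusAt Φp p) :
    x ((Qi * (JT.joint h P).R hgk Φp * Q) 1 1 ^ 2 - 1) = 0 := by
  obtain ⟨χ, ε', hχ⟩ := hW.mult p hp.out hbad (hss p hp.out hbad)
  obtain ⟨h4, h5, h6⟩ := hχ A hA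
  refine HO.map_u hp2 hA x (c := WPt.sg O ε') (by rw [pow_two, WPt.sg_sq]) fun σ hσ => ?_
  have e1 : ((JT.joint h P).R hgk σ).map x = ρW σ := map2 h P hW t2 _
  have e2 : ((JT.joint h P).R hgk Φp).map x = ρW Φp := map2 h P hW t2 _
  have h7 := h6 σ (LC.ine_le_dec A hσ) Φp hΦ.mem_decompositionSubgroup
  rw [h4 σ hσ, h5 Φp hΦ, WPt.sg_one, one_mul] at h7
  rw [e1, e2]
  exact h7

omit D in
/-- the strict condition over the joint ring -/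
theorem u_joint (hp2 : p ≠ 2) (hss : W.IsSemistableModel) (hbad : (p : ℤ) ∣ W.Δ)
    (hW : WPt.WRep W p hpO ρ (algebraMap (ZMod p) (ResidueField O)) g₀ ρW)
    {A : ValuationSubring Ω} (hA : A.LiesOverPrime p) {Φp : 𝒢} (hΦ : A.IsFrobeniusAt Φp p)
    (hu : ∀ Q Qi, OrdR h hgk A Q Qi → (Qi * h.R hgk Φp * Q) 1 1 ^ 2 = 1)
    {Q Qi : Matrix (Fin 2) (Fin 2) (JT.joint h P).TT} (HO : OrdR (JT.joint h P) hgk A Q Qi) :
    (Qi * (JT.joint h P).R hgk Φp * Q) 1 1 ^ 2 = 1 := by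
  obtain ⟨φ₁, t1, h1⟩ := JT.exists_pr1 h P
  obtain ⟨φ₂, t2, h2⟩ := JT.exists_pr2 h P
  rw [← sub_eq_zero]
  refine joint_inj P h1 h2 ?_ ?_
  · rw [map_zero, map_sub, map_pow, map_one, sub_eq_zero]
    have e1 := hu _ _ (ordR_map φ₁ t1 HO)
    have e2 : Qi.map φ₁ * h.R hgk Φp * Q.map φ₁ = (Qi * (JT.joint h P).R hgk Φp * Q).map φ₁ := by
      have e3 : ((JT.joint h P).R hgk Φp).map φ₁ = h.R hgk Φp := map_R φ₁ t1 Φp
      rw [← e3]
      exact ((map_mulM φ₁.toRingHom _ _).trans (congrArg (· * Q.map φ₁.toRingHom)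
        (map_mulM φ₁.toRingHom _ _))).symm
    rw [e2] at e1
    exact e1
  · rw [map_zero]
    exact x_psi h P hp2 hss hbad hW hA t2 HO hΦ

end SDat

end Fermat.Agent.ZG
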