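import Fermat.Agent.ZG.P2

/-!
# The ordinary local condition at `p` without condition on the unramified quotient
-/

set_option autoImplicit false
set_option linter.unusedSectionVars false
set_option linter.style.haveILetI false

noncomputable section

namespace Fermat.Agent.ZG

open Matrix IsLocalRing Fermat.Agent.GalRep Fermat.Agent.TW Fermat.Agent.Places Fermat.Agent.Flat
open Fermat.Agent.Cheb Fermat.Agent.Sel Fermat.Agent.StR Fermat.Agent.TWG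
open Fermat.Agent.LC (OrdB RO Up ordL mul2)

local notation "Ω" => AlgebraicClosure ℚ

local notation "𝒢" => (AlgebraicClosure ℚ) ≃ₐ[ℚ] (AlgebraicClosure ℚ)

section res

variable {k : Type} [Field k] {ρ : 𝒢 →* M2 k} {p : ℕ} [hp : Fact p.Prime] [Algebra (ZMod p) k]

/-- the ordinary normal form -/
structure NF (ρ : 𝒢 →* M2 k) (A : ValuationSubring Ω) (Q Qi : M2 k)
    (c : A.decompositionSubgroup ℚ → sl k) (X : sl k) : Prop where
  low : ∀ σ : A.decompositionSubgroup ℚ,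
    (Qi * ((c σ : M2 k) - (ρ (σ : 𝒢) * X * ρ (σ : 𝒢)⁻¹ - X)) * Q) 1 0 = 0
  ine : ∀ σ : A.decompositionSubgroup ℚ, (σ : 𝒢) ∈ A.inertiaSubgroupIn ℚ →
    (Qi * ((c σ : M2 k) - (ρ (σ : 𝒢) * X * ρ (σ : 𝒢)⁻¹ - X)) * Q) 0 0 = 0

variable {A : ValuationSubring Ω} {Q Qi : M2 k} {c d : A.decompositionSubgroup ℚ → sl k}
  {X Y : sl k}

theorem NF.comb (hc : NF ρ A Q Qi c X) (hd : NF ρ A Q Qi d Y) (s : k) :
    NF ρ A Q Qi (c + s • d) (X + s • Y) := by
  have key : ∀ σ : A.decompositionSubgroup ℚ,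
      Qi * (((c + s • d) σ : M2 k) - (ρ (σ : 𝒢) * ((X + s • Y : sl k) : M2 k) * ρ (σ : 𝒢)⁻¹ -
        ((X + s • Y : sl k) : M2 k))) * Q =
      Qi * ((c σ : M2 k) - (ρ (σ : 𝒢) * X * ρ (σ : 𝒢)⁻¹ - X)) * Q +
      s • (Qi * ((d σ : M2 k) - (ρ (σ : 𝒢) * Y * ρ (σ : 𝒢)⁻¹ - Y)) * Q) := by
    intro σ
    change Qi * ((c σ : M2 k) + s • (d σ : M2 k) - (ρ (σ : 𝒢) * ((X : M2 k) + s • (Y : M2 k)) *
      ρ (σ : 𝒢)⁻¹ - ((X : M2 k) + s • (Y : M2 k)))) * Q = _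
    rw [← smul_mul_assoc, ← mul_smul_comm, ← add_mul, ← mul_add]
    congr 2
    rw [mul_add, add_mul, mul_smul_comm, smul_mul_assoc, smul_sub, smul_sub]
    abel
  constructor
  · intro σ
    rw [key, Matrix.add_apply, Matrix.smul_apply, hc.low, hd.low, smul_zero, add_zero]
  · intro σ hσ
    rw [key, Matrix.add_apply, Matrix.smul_apply, hc.ine σ hσ, hd.ine σ hσ, smul_zero, add_zero]

theorem NF.cob (X : sl k) : NF ρ A Q Qi (fun σ => adR ρ (σ : 𝒢) X - X) X := by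
  have key : ∀ σ : A.decompositionSubgroup ℚ,
      (((fun σ : A.decompositionSubgroup ℚ => adR ρ (σ : 𝒢) X - X) σ : M2 k) -
        (ρ (σ : 𝒢) * X * ρ (σ : 𝒢)⁻¹ - X)) = 0 := fun σ => sub_self _
  constructor
  · intro σ
    rw [key, mul_zero, zero_mul]
    rfl
  · intro σ _
    rw [key, mul_zero, zero_mul]
    rfl

theorem NF.change (hc : NF ρ A Q Qi c X) {Q' Qi' : M2 k} (h : Q * Qi = 1)
    (h1 : (Qi * Q') 1 0 = 0) (h2 : (Qi' * Q) 1 0 = 0) : NF ρ A Q' Qi' c X := by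
  have e1 : ∀ Y : M2 k, Qi' * Y * Q' = (Qi' * Q) * (Qi * Y * Q) * (Qi * Q') := fun Y => by
    calc Qi' * Y * Q' = Qi' * (Q * Qi) * Y * (Q * Qi) * Q' := by rw [h, mul_one, mul_one]
      _ = _ := by simp only [mul_assoc]
  constructor
  · intro σ
    rw [e1]
    exact (LC.tri_conj h2 h1 (hc.low σ)).1
  · intro σ hσ
    rw [e1, (LC.tri_conj h2 h1 (hc.low σ)).2, hc.ine σ hσ, mul_zero, zero_mul]

variable (ρ p) in
/-- the ordinary condition -/
def ordW (A : ValuationSubring Ω) : Submodule k (A.decompositionSubgroup ℚ → sl k) where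
  carrier := {c | c ∈ Z1 (adR ρ) (A.decompositionSubgroup ℚ) ∧ ∀ Q Qi, OrdB ρ p A Q Qi →
    ∃ X : sl k, NF ρ A Q Qi c X}
  zero_mem' := ⟨Submodule.zero_mem _, fun Q Qi _ => ⟨0, by
    have h1 : (0 : A.decompositionSubgroup ℚ → sl k) =
        fun σ : A.decompositionSubgroup ℚ => adR ρ (σ : 𝒢) 0 - 0 := by
      funext σ
      rw [map_zero, sub_self]
      rfl
    rw [h1]
    exact NF.cob 0⟩⟩
  add_mem' := fun {c d} hc hd => ⟨Submodule.add_mem _ hc.1 hd.1, fun Q Qi h => by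
    obtain ⟨X, hX⟩ := hc.2 Q Qi h
    obtain ⟨Y, hY⟩ := hd.2 Q Qi h
    have h1 := hX.comb hY 1
    rw [one_smul, one_smul] at h1
    exact ⟨_, h1⟩⟩
  smul_mem' := fun t c hc => ⟨Submodule.smul_mem _ t hc.1, fun Q Qi h => by
    obtain ⟨X, hX⟩ := hc.2 Q Qi h
    have h0 : NF ρ A Q Qi (0 : A.decompositionSubgroup ℚ → sl k) 0 := by
      have h1 : (0 : A.decompositionSubgroup ℚ → sl k) =
          fun σ : A.decompositionSubgroup ℚ => adR ρ (σ : 𝒢) 0 - 0 := by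
        funext σ
        rw [map_zero, sub_self]
        rfl
      rw [h1]
      exact NF.cob 0
    have h1 := h0.comb hX t
    rw [zero_add, zero_add] at h1
    exact ⟨_, h1⟩⟩

theorem ordW_le_Z1 (A : ValuationSubring Ω) : ordW ρ p A ≤ Z1 (adR ρ) _ := fun _ hc => hc.1

theorem B1_le_ordW (hlc : ∃ F : IntermediateField ℚ Ω, FiniteDimensional ℚ F ∧
      ∀ σ : 𝒢, (∀ x ∈ F, σ x = x) → ρ σ = 1) (A : ValuationSubring Ω) :
    B1 (adR ρ) _ ≤ ordW ρ p A := by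
  intro c hc
  refine ⟨B1_le_Z1 ρ hlc _ hc, fun Q Qi _ => ?_⟩
  obtain ⟨X, rfl⟩ := hc
  exact ⟨X, NF.cob X⟩

/-- vanishing at Frobenius -/
theorem NF.ordL (hp2 : p ≠ 2) (hA : A.LiesOverPrime p)
    (hlc : ∃ F : IntermediateField ℚ Ω, FiniteDimensional ℚ F ∧
      ∀ σ : 𝒢, (∀ x ∈ F, σ x = x) → ρ σ = 1) (h : OrdB ρ p A Q Qi)
    (hcZ : c ∈ Z1 (adR ρ) (A.decompositionSubgroup ℚ)) (hc : NF ρ A Q Qi c X) {Φ : 𝒢}
    (hΦ : A.IsFrobeniusAt Φ p) (hΦD : Φ ∈ A.decompositionSubgroup ℚ)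
    (h0 : (Qi * ((c ⟨Φ, hΦD⟩ : M2 k) - (ρ Φ * X * ρ Φ⁻¹ - X)) * Q) 0 0 = 0) :
    c ∈ LC.ordL ρ p A := by
  set δ : A.decompositionSubgroup ℚ → sl k := fun σ => adR ρ (σ : 𝒢) X - X with hδ
  set d : A.decompositionSubgroup ℚ → sl k := c - δ with hd
  have hdM : ∀ σ, (d σ : M2 k) = (c σ : M2 k) - (ρ (σ : 𝒢) * X * ρ (σ : 𝒢)⁻¹ - X) := fun σ => rfl
  have hdZ : d ∈ Z1 (adR ρ) (A.decompositionSubgroup ℚ) :=
    Submodule.sub_mem _ hcZ (B1_le_Z1 ρ hlc _ ⟨X, rfl⟩)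
  have hadd : ∀ σ τ : A.decompositionSubgroup ℚ, (Qi * (d (σ * τ) : M2 k) * Q) 0 0 =
      (Qi * (d σ : M2 k) * Q) 0 0 + (Qi * (d τ : M2 k) * Q) 0 0 := by
    intro σ τ
    have e1 := congrArg Subtype.val (hdZ.1 σ τ)
    change (d (σ * τ) : M2 k) = (d σ : M2 k) + ρ (σ : 𝒢) * (d τ : M2 k) * ρ (σ : 𝒢)⁻¹ at e1
    rw [e1, mul_add, add_mul, Matrix.add_apply]
    congr 1
    have e2 : Qi * (ρ (σ : 𝒢) * (d τ : M2 k) * ρ (σ : 𝒢)⁻¹) * Q =
        (Qi * ρ (σ : 𝒢) * Q) * (Qi * (d τ : M2 k) * Q) * (Qi * ρ (σ : 𝒢)⁻¹ * Q) := by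
      calc Qi * (ρ (σ : 𝒢) * (d τ : M2 k) * ρ (σ : 𝒢)⁻¹) * Q =
            Qi * ρ (σ : 𝒢) * 1 * (d τ : M2 k) * 1 * ρ (σ : 𝒢)⁻¹ * Q := by
            simp only [mul_one, mul_assoc]
        _ = _ := by rw [← h.inv]; simp only [mul_assoc]
    have e3 : (Qi * (d τ : M2 k) * Q) 1 0 = 0 := hc.low τ
    rw [e2, (LC.tri_conj (h.low _ σ.2) (h.low _ (inv_mem σ.2)) e3).2]
    have e4 := congrFun (congrFun (h.conj σ.2) 0) 0
    rw [LC.mul2, h.low _ (inv_mem σ.2), mul_zero, add_zero, Matrix.one_apply_eq] at e4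
    rw [mul_right_comm, e4, one_mul]
  have hone : (Qi * (d 1 : M2 k) * Q) 0 0 = 0 := by
    have e1 := hadd 1 1
    rw [mul_one] at e1
    exact left_eq_add.1 e1
  have hpow : ∀ i : ℕ, (Qi * (d (⟨Φ, hΦD⟩ ^ i) : M2 k) * Q) 0 0 = 0 := by
    intro i
    induction i with
    | zero => rw [pow_zero]; exact hone
    | succ i ih =>
      rw [pow_succ, hadd, ih, zero_add]
      exact h0
  have hall : ∀ σ : A.decompositionSubgroup ℚ, (Qi * (d σ : M2 k) * Q) 0 0 = 0 := by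
    intro g
    obtain ⟨F, hF, h1⟩ := hdZ.2
    obtain ⟨i, τ, hτ, hi⟩ := exists_dec hp.out hA hΦ g.2 F
    have hτD := LC.ine_le_dec A hτ
    have e3 : g = (⟨Φ, hΦD⟩ ^ i * ⟨τ, hτD⟩) * ((⟨Φ, hΦD⟩ ^ i * ⟨τ, hτD⟩)⁻¹ * g) := by group
    have e4 : d ((⟨Φ, hΦD⟩ ^ i * ⟨τ, hτD⟩)⁻¹ * g) = 0 := h1 _ fun x hx => by
      change ((Φ ^ i * τ)⁻¹ * (g : 𝒢)) x = x
      rw [AlgEquiv.mul_apply, hi x hx]
      exact (Φ ^ i * τ).symm_apply_apply x
    rw [e3, hadd, e4, hadd, hpow]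
    have e5 : (Qi * (d ⟨τ, hτD⟩ : M2 k) * Q) 0 0 = 0 := hc.ine ⟨τ, hτD⟩ hτ
    rw [e5]
    simp
  refine ⟨hcZ, fun Q' Qi' hB' => ⟨X, fun σ => ?_⟩⟩
  have hup : Up Q Qi ((c σ : M2 k) - (ρ (σ : 𝒢) * X * ρ (σ : 𝒢)⁻¹ - X)) := ⟨hc.low σ, hall σ⟩
  refine hup.change ?_ h.inv (h.uniq hp2 hA hB') (hB'.uniq hp2 hA h)
  rw [Matrix.trace_sub, Matrix.trace_sub, sl_trace, Matrix.trace_mul_comm, ← mul_assoc,
    Sel.rho_inv_mul, one_mul, sub_self, sub_zero]

/-- **the dimension** -/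
theorem finrank_ordW [Finite k] {S : Finset ℕ} (h : ResH p ρ S) (hO : RO ρ p)
    {A : ValuationSubring Ω} (hA : A.LiesOverPrime p) :
    FiniteDimensional k (ordW ρ p A) ∧ Module.finrank k (ordW ρ p A) ≤ 5 := by
  obtain ⟨h1, h2⟩ := LC.dimO h hO hA
  obtain ⟨Q, Qi, hQ⟩ := hO A hA
  obtain ⟨Φ, hΦ⟩ := exists_isFrobeniusAt A hp.out hA
  have hΦD : Φ ∈ A.decompositionSubgroup ℚ := hΦ.mem_decompositionSubgroup
  have key : ∃ c₁ : A.decompositionSubgroup ℚ → sl k,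
      ordW ρ p A ≤ LC.ordL ρ p A ⊔ Submodule.span k {c₁} := by
    by_cases hex : ∃ c₁ ∈ ordW ρ p A, ∃ X₁ : sl k, NF ρ A Q Qi c₁ X₁ ∧
        (Qi * ((c₁ ⟨Φ, hΦD⟩ : M2 k) - (ρ Φ * X₁ * ρ Φ⁻¹ - X₁)) * Q) 0 0 ≠ 0
    · obtain ⟨c₁, hc₁, X₁, hX₁, hne⟩ := hex
      refine ⟨c₁, fun c hc => ?_⟩
      obtain ⟨X, hX⟩ := hc.2 Q Qi hQ
      set a := (Qi * ((c ⟨Φ, hΦD⟩ : M2 k) - (ρ Φ * X * ρ Φ⁻¹ - X)) * Q) 0 0 with ha
      set a₁ := (Qi * ((c₁ ⟨Φ, hΦD⟩ : M2 k) - (ρ Φ * X₁ * ρ Φ⁻¹ - X₁)) * Q) 0 0 with ha₁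
      have h3 := hX.comb hX₁ (-(a / a₁))
      have h4 : c + (-(a / a₁)) • c₁ ∈ LC.ordL ρ p A := by
        refine NF.ordL h.odd hA h.lc hQ (Submodule.add_mem _ hc.1 (Submodule.smul_mem _ _ hc₁.1))
          h3 hΦ hΦD ?_
        have e1 : Qi * (((c + (-(a / a₁)) • c₁) ⟨Φ, hΦD⟩ : M2 k) -
            (ρ Φ * ((X + (-(a / a₁)) • X₁ : sl k) : M2 k) * ρ Φ⁻¹ -
              ((X + (-(a / a₁)) • X₁ : sl k) : M2 k))) * Q =
            Qi * ((c ⟨Φ, hΦD⟩ : M2 k) - (ρ Φ * X * ρ Φ⁻¹ - X)) * Q +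
            (-(a / a₁)) • (Qi * ((c₁ ⟨Φ, hΦD⟩ : M2 k) - (ρ Φ * X₁ * ρ Φ⁻¹ - X₁)) * Q) := by
          change Qi * ((c ⟨Φ, hΦD⟩ : M2 k) + (-(a / a₁)) • (c₁ ⟨Φ, hΦD⟩ : M2 k) -
            (ρ Φ * ((X : M2 k) + (-(a / a₁)) • (X₁ : M2 k)) *
            ρ Φ⁻¹ - ((X : M2 k) + (-(a / a₁)) • (X₁ : M2 k)))) * Q = _
          rw [← smul_mul_assoc, ← mul_smul_comm, ← add_mul, ← mul_add]
          congr 2
          rw [mul_add, add_mul, mul_smul_comm, smul_mul_assoc, smul_sub, smul_sub]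
          abel
        rw [e1, Matrix.add_apply, Matrix.smul_apply, ← ha, ← ha₁, smul_eq_mul, neg_mul,
          div_mul_cancel₀ _ hne, add_neg_cancel]
      have h5 : c = (c + (-(a / a₁)) • c₁) + (a / a₁) • c₁ := by
        rw [add_assoc, ← add_smul, neg_add_cancel, zero_smul, add_zero]
      rw [h5]
      exact Submodule.add_mem_sup h4 (Submodule.smul_mem _ _ (Submodule.mem_span_singleton_self _))
    · push Not at hex
      refine ⟨0, le_trans (fun c hc => ?_) le_sup_left⟩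
      obtain ⟨X, hX⟩ := hc.2 Q Qi hQ
      exact NF.ordL h.odd hA h.lc hQ hc.1 hX hΦ hΦD (hex c hc X hX)
  obtain ⟨c₁, hle⟩ := key
  haveI := h1
  refine ⟨Submodule.finiteDimensional_of_le hle, (Submodule.finrank_mono hle).trans
    ((Submodule.finrank_add_le_finrank_add_finrank _ _).trans ?_)⟩
  have h4 : Module.finrank k (Submodule.span k {c₁}) ≤ 1 := by
    have := finrank_span_le_card (R := k) ({c₁} : Set (A.decompositionSubgroup ℚ → sl k))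
    simpa using this
  omega

end res

variable {O T Y : Type} [CommRing O] [IsDomain O] [IsLocalRing O] [IsNoetherianRing O]
  [IsAdicComplete (maximalIdeal O) O] [CommRing T] [Algebra O T] [AddCommGroup Y] [Module O Y]
  [Module.Finite O Y] [Module.Free O Y] [Nontrivial Y] {p : ℕ} [hp : Fact p.Prime]
  {hpO : (p : O) ∈ maximalIdeal O} {S : Set ℕ} {ρb : GQ →* M2 (ResidueField O)}
  {ψ : T →ₐ[O] Module.End O Y} {θ : T →ₐ[O] ResidueField O} {ρ : GQ →* Module.End O Y}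
  {h : HG hpO S (fun g => (ρb g).trace) ψ θ ρ} [Invertible (2 : O)] {g₀ k₀ : GQ}
  {hgk : HG.IrrAt (fun g => (ρb g).trace) g₀ k₀}

omit [IsDomain O] in
/-- a residual basis with quotient character of order at most two -/
theorem OrdR.ordB_of_RO [Algebra (ZMod p) (ResidueField O)] (hp2 : p ≠ 2)
    {A : ValuationSubring Ω} {Q Qi : Matrix (Fin 2) (Fin 2) h.TT} (H : OrdR h hgk A Q Qi)
    (hA : A.LiesOverPrime p) (hred : redR (h.R hgk) h.theta.toRingHom = ρb) (hO : RO ρb p) :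
    OrdB ρb p A (Q.map h.theta) (Qi.map h.theta) := by
  obtain ⟨Φ, hΦ⟩ := exists_isFrobeniusAt A hp.out hA
  have hΦD : Φ ∈ A.decompositionSubgroup ℚ := hΦ.mem_decompositionSubgroup
  obtain ⟨Q', Qi', hB⟩ := hO A hA
  refine H.ordB hA hred hΦ ?_
  have hmm : ∀ X Y : Matrix (Fin 2) (Fin 2) h.TT,
      (X * Y).map h.theta = X.map h.theta * Y.map h.theta := fun X Y =>
    map_mul (h.theta.toRingHom.mapMatrix : Matrix (Fin 2) (Fin 2) h.TT →+* _) X Y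
  have hN : ∀ σ, Qi.map h.theta * ρb σ * Q.map h.theta = (Qi * h.R hgk σ * Q).map h.theta := by
    intro σ
    have h1 : ρb σ = (h.R hgk σ).map h.theta := (DFunLike.congr_fun hred σ).symm
    rw [hmm, hmm, h1]
  have hq : Q.map h.theta * Qi.map h.theta = 1 := by
    rw [← hmm, H.inv]
    exact map_one (h.theta.toRingHom.mapMatrix : Matrix (Fin 2) (Fin 2) h.TT →+* _)
  have hq' : Qi.map h.theta * Q.map h.theta = 1 := by rw [mul_eq_one_comm]; exact hq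
  set M := Qi.map h.theta * Q' with hM
  have hMi : M * (Qi' * Q.map h.theta) = 1 := by
    calc M * (Qi' * Q.map h.theta) = Qi.map h.theta * (Q' * Qi') * Q.map h.theta := by
          rw [hM]; simp only [mul_assoc]
      _ = 1 := by rw [hB.inv, mul_one, hq']
  have hint : ∀ σ, (Qi.map h.theta * ρb σ * Q.map h.theta) * M = M * (Qi' * ρb σ * Q') := by
    intro σ
    calc (Qi.map h.theta * ρb σ * Q.map h.theta) * M =
          Qi.map h.theta * ρb σ * (Q.map h.theta * Qi.map h.theta) * Q' := by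
          rw [hM]; simp only [mul_assoc]
      _ = Qi.map h.theta * (Q' * Qi') * ρb σ * Q' := by rw [hq, hB.inv, mul_one, mul_one]
      _ = _ := by rw [hM]; simp only [mul_assoc]
  -- `M` is upper triangular
  obtain ⟨τ, hτ, hne⟩ := LC.exists_cyc_ne_one hp2 hA
  have hτD := LC.ine_le_dec A hτ
  have h10 : M 1 0 = 0 := by
    have e1 := congrFun (congrFun (hint τ) 1) 0
    rw [LC.mul2 _ M, LC.mul2 M, hN, Matrix.map_apply, Matrix.map_apply, H.low τ hτD, H.ine τ hτ,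
      map_zero, map_one, zero_mul, zero_add, one_mul, hB.low τ hτD, mul_zero, add_zero,
      hB.diag τ hτD, hB.ine τ hτ, mul_one] at e1
    have e2 : M 1 0 * (algebraMap (ZMod p) (ResidueField O) (cyc p τ) - 1) = 0 := by
      linear_combination -e1
    refine (mul_eq_zero.1 e2).resolve_right fun h0 => hne ?_
    apply (algebraMap (ZMod p) (ResidueField O)).injective
    rw [map_one]
    exact sub_eq_zero.1 h0
  have h11 : M 1 1 ≠ 0 := by
    intro h0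
    have e1 := congrFun (congrFun hMi 1) 1
    rw [LC.mul2, h10, h0, zero_mul, zero_mul, add_zero, Matrix.one_apply_eq] at e1
    exact zero_ne_one e1
  have e1 := congrFun (congrFun (hint Φ) 1) 1
  rw [LC.mul2 _ M, LC.mul2 M, hN, Matrix.map_apply, Matrix.map_apply, H.low Φ hΦD, map_zero, zero_mul,
    zero_add, h10, zero_mul, zero_add, mul_comm] at e1
  have e2 := mul_left_cancel₀ h11 e1
  -- the determinant
  have e3 : (Qi' * ρb Φ * Q') 1 1 ^ 2 = 1 := by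
    have f1 := congrArg h.theta (H.det_eq hΦD)
    rw [map_mul, AlgHom.commutes, e2] at f1
    have f2 : algebraMap (ZMod p) (ResidueField O) (cyc p Φ) =
        h.theta ((Qi * h.R hgk Φ * Q) 0 0) * (Qi' * ρb Φ * Q') 1 1 := by
      rw [f1, ← residue_cycO hpO]
      rfl
    have f3 := congrArg Matrix.det (hint Φ)
    rw [Matrix.det_mul _ M, Matrix.det_mul M, mul_comm M.det] at f3
    have f4 : M.det ≠ 0 := by
      intro h0
      have := congrArg Matrix.det hMi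
      rw [Matrix.det_mul, h0, zero_mul, Matrix.det_one] at this
      exact zero_ne_one this
    have f5 := mul_right_cancel₀ f4 f3
    rw [Matrix.det_fin_two, Matrix.det_fin_two, hN, Matrix.map_apply, Matrix.map_apply,
      Matrix.map_apply, Matrix.map_apply, H.low Φ hΦD, map_zero, mul_zero, sub_zero,
      hB.low Φ hΦD, mul_zero, sub_zero, hB.diag Φ hΦD, e2] at f5
    have f6 : (Qi' * ρb Φ * Q') 1 1 ≠ 0 := by
      rw [← e2]; exact H.theta11_ne hΦD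
    have f7 := mul_right_cancel₀ f6 f5
    -- `N00 = cyc * d` and `cyc = N00 * d`
    rw [f7] at f2
    have f8 : algebraMap (ZMod p) (ResidueField O) (cyc p Φ) ≠ 0 := by
      intro h0
      rw [h0, zero_mul] at f7
      rw [f7, zero_mul] at f1
      have f9 : IsUnit (cycO hpO Φ) := by
        refine IsUnit.of_mul_eq_one (cycO hpO Φ⁻¹) ?_
        rw [← map_mul, mul_inv_cancel, map_one]
      have f10 : algebraMap O (ResidueField O) (cycO hpO Φ) = 0 := f1.symm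
      exact (f9.map (algebraMap O (ResidueField O))).ne_zero f10
    apply mul_left_cancel₀ f8
    rw [mul_one]
    linear_combination -f2
  rw [← h.theta_eq_zero, map_sub, map_pow, map_one, e2, e3, sub_self]

omit [IsDomain O] in
/-- **the tangent cocycles are ordinary** -/
theorem OrdR.mem_ordW [Algebra (ZMod p) (ResidueField O)] {A : ValuationSubring Ω}
    {Q Qi : Matrix (Fin 2) (Fin 2) h.TT} (H : OrdR h hgk A Q Qi)
    (hA : A.LiesOverPrime p) (hp2 : p ≠ 2) (h2k : (2 : ResidueField O) ≠ 0)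
    (hred : redR (h.R hgk) h.theta.toRingHom = ρb) (hO : RO ρb p)
    {I : Ideal h.TT} {D : h.TT → ResidueField O}
    (hD : IsDer h.theta.toRingHom (Set.range (algebraMap O h.TT)) I D) (hpI : (p : h.TT) ∈ I) :
    (fun σ : A.decompositionSubgroup ℚ => cS h hgk hD σ) ∈ ordW ρb p A := by
  have hB := H.ordB_of_RO hp2 hA hred hO
  refine ⟨⟨fun σ τ => cS_mul h hgk hD hred σ τ, ?_⟩, fun Q' Qi' hB' => ?_⟩
  · obtain ⟨F, hF, h2⟩ := cD_lc h hgk hD hpI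
    exact ⟨F, hF, fun σ hσ => Subtype.ext (h2 σ hσ)⟩
  obtain ⟨X, hX⟩ := exists_sl h2k (-(Q.map D * Qi.map h.theta)) (g := (1 : M2 _))
    (gi := 1) (mul_one 1)
  have hXσ : ∀ σ, (cS h hgk hD σ : M2 (ResidueField O)) - (ρb σ * X * ρb σ⁻¹ - X) =
        Q.map h.theta * (Qi * h.R hgk σ * Q).map D * Qi.map h.theta * ρb σ⁻¹ := by
    intro σ
    rw [hX _ _ (Sel.rho_mul_inv (ρ := ρb) σ)]
    change cD (h.R hgk) h.theta.toRingHom D σ - _ = _
    rw [cD_conj' hD H.inv σ, hred]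
    have e1 : Q.map h.theta.toRingHom = Q.map h.theta := rfl
    have e2 : Qi.map h.theta.toRingHom = Qi.map h.theta := rfl
    rw [e1, e2, mul_neg, neg_mul]
    abel
  refine ⟨X, NF.change ?_ hB.inv (hB.uniq hp2 hA hB') (hB'.uniq hp2 hA hB)⟩
  have hiq : Qi.map h.theta * Q.map h.theta = 1 := hB.inv'
  have e5 : ∀ σ : 𝒢, Qi.map h.theta * (Q.map h.theta * (Qi * h.R hgk σ * Q).map D *
      Qi.map h.theta * ρb σ⁻¹) * Q.map h.theta =
      (Qi * h.R hgk σ * Q).map D * (Qi.map h.theta * ρb σ⁻¹ * Q.map h.theta) := by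
    intro σ
    calc Qi.map h.theta * (Q.map h.theta * (Qi * h.R hgk σ * Q).map D * Qi.map h.theta * ρb σ⁻¹) *
        Q.map h.theta = (Qi.map h.theta * Q.map h.theta) * (Qi * h.R hgk σ * Q).map D *
          (Qi.map h.theta * ρb σ⁻¹ * Q.map h.theta) := by simp only [mul_assoc]
      _ = _ := by rw [hiq, one_mul]
  constructor
  · intro σ
    rw [hXσ, e5, LC.mul2, Matrix.map_apply, H.low _ σ.2, hD.zero, hB.low _ (inv_mem σ.2)]
    ring
  · intro σ hσ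
    rw [hXσ, e5, LC.mul2, hB.low _ (inv_mem σ.2), mul_zero, add_zero, Matrix.map_apply]
    have e6 : (Qi * h.R hgk (σ : 𝒢) * Q) 0 0 = algebraMap O h.TT (cycO hpO (σ : 𝒢)) := by
      have := H.det_eq σ.2
      rwa [H.ine _ hσ, mul_one] at this
    rw [e6, hD.zeroO _ ⟨_, rfl⟩, zero_mul]

end Fermat.Agent.ZG
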