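import Fermat.Agent.ZG.Three
import Fermat.Agent.ZG.OW
import Fermat.Agent.LC.Flat
import Fermat.Agent.CFT.GW25

/-!
# Generators of the trace rings in the three cases
-/

set_option autoImplicit false
set_option linter.unusedSectionVars false
set_option linter.style.haveILetI false

noncomputable section

namespace Fermat.Agent.ZG

open Matrix IsLocalRing Fermat.Agent.GalRep Fermat.Agent.TW Fermat.Agent.Places Fermat.Agent.Flat
open Fermat.Agent.Cheb Fermat.Agent.Sel Fermat.Agent.StR Fermat.Agent.TWG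
open Fermat.Agent.LC (OrdB RO Up ordL mul2)

local notation "Ω" => AlgebraicClosure ℚ

local notation "𝒢" => (AlgebraicClosure ℚ) ≃ₐ[ℚ] (AlgebraicClosure ℚ)

section num

variable {k : Type} [Field k] {p : ℕ} [hp : Fact p.Prime] [Algebra (ZMod p) k] [Finite k]
  [CharP k p] {ρ : 𝒢 →* M2 k} {S₀ : Finset ℕ} {t : ℕ} {q : Fin t → ℕ} {ty : Fin t → Ty}
  {Un : Finset ℕ} {A₀ : ℕ → ValuationSubring Ω}

/-- **Taylor–Wiles primes, flat case.** -/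
theorem num_flat (h : NumH p ρ S₀ q ty Un) (hA₀ : ∀ v ∈ S₀, (A₀ v).LiesOverPrime v)
    (hfl : FlC (A₀ p) (hA₀ p h.mem) (Fin 2 → k) (fun σ v => endV ρ σ v)) :
    ∃ r g : ℕ, g + ∑ j, (ty j).dl = r ∧ ∀ n, 1 ≤ n → ∀ S' : Set ℕ, S'.Finite →
      Nonempty (TWn p ρ S₀ A₀ (flatL ρ p) q Un r g n S') := by
  obtain ⟨r, g, h1, h2⟩ := sel_num (m := 4) (CFT.gw h.odd) (CFT.locPerpTop h.odd)
    (CFT.locDim h.odd) h (fun A _ => B1_le_flatL ρ A) (fun A _ => flatL_le_Z1 ρ h.lc A) A₀ hA₀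
    (LC.flatL_bound4 ρ h.toResH (hA₀ p h.mem) (fun σ => by
      obtain ⟨α, β, h3, h4⟩ := h.split σ
      exact ⟨α, β, h3.symm, h4.symm⟩) hfl).2
  exact ⟨r, g, by omega, h2⟩

/-- **Taylor–Wiles primes, strict ordinary case.** -/
theorem num_ord (h : NumH p ρ S₀ q ty Un) (hA₀ : ∀ v ∈ S₀, (A₀ v).LiesOverPrime v)
    (hO : RO ρ p) :
    ∃ r g : ℕ, g + ∑ j, (ty j).dl = r ∧ ∀ n, 1 ≤ n → ∀ S' : Set ℕ, S'.Finite →
      Nonempty (TWn p ρ S₀ A₀ (ordL ρ p) q Un r g n S') := by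
  obtain ⟨r, g, h1, h2⟩ := sel_num (m := 4) (CFT.gw h.odd) (CFT.locPerpTop h.odd)
    (CFT.locDim h.odd) h (fun A _ => LC.B1_le_ordL ρ p h.lc A)
    (fun A _ => LC.ordL_le_Z1 ρ p A) A₀ hA₀ (LC.dimO h.toResH hO (hA₀ p h.mem)).2
  exact ⟨r, g, by omega, h2⟩

/-- **Taylor–Wiles primes, peu ramifiée case.** -/
theorem num_three (h : NumH p ρ S₀ q ty Un) (hA₀ : ∀ v ∈ S₀, (A₀ v).LiesOverPrime v)
    (hO : RO ρ p) (hfl : FlC (A₀ p) (hA₀ p h.mem) (Fin 2 → k) (fun σ v => endV ρ σ v)) :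
    ∃ ζ P σ₁, Det (A₀ p) p ζ P σ₁ ∧ ρ σ₁ = 1 ∧
    ∃ r g : ℕ, g + 1 + ∑ j, (ty j).dl = r ∧ ∀ n, 1 ≤ n → ∀ S' : Set ℕ, S'.Finite →
      Nonempty (TWn p ρ S₀ A₀ (L0 p ρ σ₁) q Un r g n S') := by
  have hA := hA₀ p h.mem
  obtain ⟨ζ, P, σ₁, hd⟩ := exists_det hA
  obtain ⟨Q, Qi, hB⟩ := hO (A₀ p) hA
  have h1 := hd.rho_one hfl h.det h.lc hB
  refine ⟨ζ, P, σ₁, hd, h1, ?_⟩
  obtain ⟨r, g, h3, h2⟩ := sel_num (m := 3) (CFT.gw h.odd) (CFT.locPerpTop h.odd)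
    (CFT.locDim h.odd) h (fun A _ => B1_le_L0 h.lc h1 A)
    (fun A _ => L0_le_Z1 σ₁ A) A₀ hA₀
    (finrank_L0 h.odd h.lc hA hB hd.hζ hd.hP hd.nm.1 hd.mv h1)
  exact ⟨r, g, by omega, h2⟩

end num

variable {O : Type} [CommRing O] [IsDomain O] [IsLocalRing O] [IsNoetherianRing O]
  [IsAdicComplete (maximalIdeal O) O] {p : ℕ} [hp : Fact p.Prime]
  {hpO : (p : O) ∈ maximalIdeal O} {ρb : GQ →* M2 (ResidueField O)} [Invertible (2 : O)]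
  {g₀ k₀ : GQ} {hgk : HG.IrrAt (fun g => (ρb g).trace) g₀ k₀}
  {T' Y' : Type} [CommRing T'] [Algebra O T'] [AddCommGroup Y'] [Module O Y']
  [Module.Finite O Y'] [Module.Free O Y'] [Nontrivial Y'] {S' : Set ℕ}
  {ψ' : T' →ₐ[O] Module.End O Y'} {θ' : T' →ₐ[O] ResidueField O} {ρ' : GQ →* Module.End O Y'}
  {h' : HG hpO S' (fun g => (ρb g).trace) ψ' θ' ρ'}
  {T Y : Type} [CommRing T] [Algebra O T] [AddCommGroup Y] [Module O Y]
  [Module.Finite O Y] [Module.Free O Y] [Nontrivial Y] {S : Set ℕ}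
  {ψ : T →ₐ[O] Module.End O Y} {θ : T →ₐ[O] ResidueField O} {ρ : GQ →* Module.End O Y}
  {h : HG hpO S (fun g => (ρb g).trace) ψ θ ρ}
  {t : ℕ} {q : Fin t → ℕ} {ty : Fin t → Ty} {ε : Fin t → ℤ}
    {A₀ : ℕ → ValuationSubring Ω} {Φ : Fin t → GQ} {v : Fin t → Fin 2 → O}
    {σ₀ : Fin t → GQ} {Qj : Fin t → Matrix (Fin 2) (Fin 2) h'.TT} {ϖ : O}
    [Finite (ResidueField O)] [Algebra (ZMod p) (ResidueField O)] {S₀ Un : Finset ℕ}
    {r g n : ℕ} {Sx : Set ℕ}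

theorem pI_of (hmax : maximalIdeal O = Ideal.span {ϖ}) {B : Type} [CommRing B] [Algebra O B]
    (hpO : (p : O) ∈ maximalIdeal O) {I : Ideal B} (h : algebraMap O B ϖ ∈ I) : (p : B) ∈ I := by
  obtain ⟨c, hc⟩ := Ideal.mem_span_singleton'.1 (by rw [← hmax]; exact hpO :
    (p : O) ∈ Ideal.span {ϖ})
  rw [← map_natCast (algebraMap O B), ← hc, map_mul]
  exact I.mul_mem_left _ h

/-- The common hypotheses at a level. -/
structure LvH (h' : HG hpO S' (fun g => (ρb g).trace) ψ' θ' ρ')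
    (hgk : HG.IrrAt (fun g => (ρb g).trace) g₀ k₀) (ϖ : O) (q : Fin t → ℕ) (ty : Fin t → Ty)
    (ε : Fin t → ℤ) (A₀ : ℕ → ValuationSubring Ω) (Φ : Fin t → GQ) (v : Fin t → Fin 2 → O)
    (S₀ Un Sf : Finset ℕ) : Prop where
  hmax : maximalIdeal O = Ideal.span {ϖ}
  hred : redR (h'.R hgk) h'.theta.toRingHom = ρb
  hN : NumH p ρb S₀ q ty Un
  H : NmH h' hgk q ty ε A₀ Φ v
  hunr : ∀ l : ℕ, l.Prime → l ∉ Sf → ∀ A : ValuationSubring Ω, A.LiesOverPrime l →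
      ∀ σ ∈ A.inertiaSubgroupIn ℚ, h'.R hgk σ = 1
  hUn : ∀ l ∈ Un, ∀ σ ∈ (A₀ l).inertiaSubgroupIn ℚ, (h'.R hgk σ - 1) * (h'.R hgk σ - 1) = 0

/-- the parameters at the non-minimal primes -/
def parS {t : ℕ} (q : Fin t → ℕ) (ty : Fin t → Ty) (ε : Fin t → ℤ) {B : Type} [CommRing B]
    (Φ N : Fin t → Matrix (Fin 2) (Fin 2) B) : Set B :=
  {x | ∃ j, x ∈ par (ty j) (q j) (ε j) (Φ j) (N j)}

theorem gen_aux2 {A : Type} [CommRing A] {c : A} {Z W U M M2 : Ideal A}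
    (h1 : M ≤ Z ⊔ (Ideal.span {c} ⊔ W ⊔ U ⊔ M2)) : M ≤ Ideal.span {c} ⊔ (Z ⊔ W) ⊔ U ⊔ M2 := by
  refine h1.trans (sup_le ?_ (sup_le (sup_le (sup_le ?_ ?_) ?_) ?_))
  · exact ((le_sup_left.trans le_sup_right).trans le_sup_left).trans le_sup_left
  · exact (le_sup_left.trans le_sup_left).trans le_sup_left
  · exact ((le_sup_right.trans le_sup_right).trans le_sup_left).trans le_sup_left
  · exact le_sup_right.trans le_sup_left
  · exact le_sup_right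

section gen

variable (L : LvH h' hgk ϖ q ty ε A₀ Φ v S₀ Un (∅ : Finset ℕ))

end gen

/-- **Generators, general local condition.** -/
theorem gen_of {Lp : ∀ A : ValuationSubring Ω, Submodule (ResidueField O)
      (A.decompositionSubgroup ℚ → sl (ResidueField O))}
    (X : TWn p ρb S₀ A₀ Lp q Un r g n Sx)
    (L : LvH h' hgk ϖ q ty ε A₀ Φ v S₀ Un X.S) (F : FrD h' hgk q ty A₀ Φ v σ₀ Qj)
    (hp1 : ∀ A : ValuationSubring Ω, A.LiesOverPrime p → B1 (adR ρb) _ ≤ Lp A)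
    {W : Set h'.TT} (hW : ∀ x ∈ W, x ∈ maximalIdeal h'.TT)
    (hlp : ∀ (D : h'.TT → ResidueField O)
      (hD : IsDer h'.theta.toRingHom (Set.range (algebraMap O h'.TT))
        (Ipar h' hgk ϖ q ty ε Φ v σ₀ Qj W) D),
      (fun σ : (A₀ p).decompositionSubgroup ℚ => cS h' hgk hD σ) ∈ Lp (A₀ p)) :
    ∃ z : Fin g → h'.TT, (∀ i, z i ∈ maximalIdeal h'.TT) ∧
      maximalIdeal h'.TT ≤ Ideal.span {algebraMap O h'.TT ϖ} ⊔
        (Ideal.span (Set.range z) ⊔ Ideal.span W) ⊔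
        Ideal.span (parS q ty ε (PhiJ h' hgk ty Φ v Qj) (NJ h' hgk ty Φ v σ₀ Qj)) ⊔
        maximalIdeal h'.TT ^ 2 := by
  haveI := X.fd
  obtain ⟨z, hz1, hz2⟩ := exists_gen h' hgk L.hmax L.hred L.hN
    (fun v hv => (X.mem v).2 (Or.inl hv)) L.H F L.hunr L.hUn X.lies X.ach0 hp1 X.le hW hlp
  exact ⟨z, hz1, gen_aux2 hz2⟩

/-- **Generators, flat case.** -/
theorem gen_flat (X : TWn p ρb S₀ A₀ (flatL ρb p) q Un r g n Sx)
    (L : LvH h' hgk ϖ q ty ε A₀ Φ v S₀ Un X.S) (F : FrD h' hgk q ty A₀ Φ v σ₀ Qj)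
    (hflat : ∀ (J : Ideal h'.TT) (D : h'.TT → ResidueField O)
      (hD : IsDer h'.theta.toRingHom (Set.range (algebraMap O h'.TT)) J D), (p : h'.TT) ∈ J →
      (fun σ : (A₀ p).decompositionSubgroup ℚ => cS h' hgk hD σ) ∈ flatS ρb p (A₀ p)) :
    ∃ z : Fin g → h'.TT, (∀ i, z i ∈ maximalIdeal h'.TT) ∧
      maximalIdeal h'.TT ≤ Ideal.span {algebraMap O h'.TT ϖ} ⊔ Ideal.span (Set.range z) ⊔
        Ideal.span (parS q ty ε (PhiJ h' hgk ty Φ v Qj) (NJ h' hgk ty Φ v σ₀ Qj)) ⊔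
        maximalIdeal h'.TT ^ 2 := by
  obtain ⟨z, hz1, hz2⟩ := gen_of X L F (fun A _ => B1_le_flatL ρb A) (W := ∅)
    (fun x hx => absurd hx (Set.notMem_empty x)) (fun D hD =>
      le_sup_right (a := B1 (adR ρb) _) (Submodule.subset_span
        (hflat _ D hD (pI_of L.hmax hpO (mem_Ipar_pi h' hgk)))))
  rw [Ideal.span_empty, sup_bot_eq] at hz2
  exact ⟨z, hz1, hz2⟩

/-- **Generators, strict ordinary case.** -/
theorem gen_ord (X : TWn p ρb S₀ A₀ (ordL ρb p) q Un r g n Sx)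
    (L : LvH h' hgk ϖ q ty ε A₀ Φ v S₀ Un X.S) (F : FrD h' hgk q ty A₀ Φ v σ₀ Qj)
    (hA : (A₀ p).LiesOverPrime p) {Q Qi : Matrix (Fin 2) (Fin 2) h'.TT}
    (HO : OrdR h' hgk (A₀ p) Q Qi) {Φp : 𝒢} (hΦ : (A₀ p).IsFrobeniusAt Φp p)
    (hu : (Qi * h'.R hgk Φp * Q) 1 1 ^ 2 = 1) :
    ∃ z : Fin g → h'.TT, (∀ i, z i ∈ maximalIdeal h'.TT) ∧
      maximalIdeal h'.TT ≤ Ideal.span {algebraMap O h'.TT ϖ} ⊔ Ideal.span (Set.range z) ⊔
        Ideal.span (parS q ty ε (PhiJ h' hgk ty Φ v Qj) (NJ h' hgk ty Φ v σ₀ Qj)) ⊔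
        maximalIdeal h'.TT ^ 2 := by
  obtain ⟨z, hz1, hz2⟩ := gen_of X L F (fun A _ => LC.B1_le_ordL ρb p L.hN.lc A) (W := ∅)
    (fun x hx => absurd hx (Set.notMem_empty x)) (fun D hD => by
      have hIm : Ipar h' hgk ϖ q ty ε Φ v σ₀ Qj ∅ ≤ maximalIdeal h'.TT := by
        refine sup_le (sup_le (sup_le ?_ ?_) ?_) (Ideal.pow_le_self (by norm_num))
        · rw [Ideal.span_singleton_le_iff_mem, ← h'.theta_eq_zero, AlgHom.commutes]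
          change residue O ϖ = 0
          rw [IsLocalRing.residue_eq_zero_iff, L.hmax]
          exact Ideal.mem_span_singleton_self _
        · rw [Ideal.span_empty]; exact bot_le
        · refine Ideal.span_le.2 ?_
          rintro x ⟨j, hx⟩
          exact par_le (L.H.qd F L.hred L.hN.two j) hx
      exact HO.mem_ordL hD hA L.hN.odd (pI_of L.hmax hpO (mem_Ipar_pi h' hgk)) hIm L.hN.two hΦ
        L.hred (by rw [hu, sub_self]; exact Ideal.zero_mem _))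
  rw [Ideal.span_empty, sup_bot_eq] at hz2
  exact ⟨z, hz1, hz2⟩

end Fermat.Agent.ZG
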