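import Fermat.Agent.ZG.Main

/-!
# Generators of the trace rings in the peu ramifiée case
-/

set_option autoImplicit false
set_option linter.unusedSectionVars false
set_option linter.style.haveILetI false

noncomputable section

namespace Fermat.Agent.ZG

open Matrix IsLocalRing Fermat.Agent.GalRep Fermat.Agent.TW Fermat.Agent.Places Fermat.Agent.Flat
open Fermat.Agent.Cheb Fermat.Agent.Sel Fermat.Agent.StR Fermat.Agent.TWG
open Fermat.Agent.LC (OrdB RO Up ordL mul2)

local notation "Ω" => AlgebraicClosure ℚ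

local notation "𝒢" => (AlgebraicClosure ℚ) ≃ₐ[ℚ] (AlgebraicClosure ℚ)

variable {O : Type} [CommRing O] [IsDomain O] [IsLocalRing O] [IsNoetherianRing O]
  [IsAdicComplete (maximalIdeal O) O] {p : ℕ} [hp : Fact p.Prime]
  {hpO : (p : O) ∈ maximalIdeal O} {ρb : GQ →* M2 (ResidueField O)} [Invertible (2 : O)]
  {g₀ k₀ : GQ} {hgk : HG.IrrAt (fun g => (ρb g).trace) g₀ k₀}
  {T' Y' : Type} [CommRing T'] [Algebra O T'] [AddCommGroup Y'] [Module O Y']
  [Module.Finite O Y'] [Module.Free O Y'] [Nontrivial Y'] {S' : Set ℕ}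
  {ψ' : T' →ₐ[O] Module.End O Y'} {θ' : T' →ₐ[O] ResidueField O} {ρ' : GQ →* Module.End O Y'}
  {h' : HG hpO S' (fun g => (ρb g).trace) ψ' θ' ρ'}
  {T Y : Type} [CommRing T] [Algebra O T] [AddCommGroup Y] [Module O Y]
  [Module.Finite O Y] [Module.Free O Y] [Nontrivial Y] {S : Set ℕ}
  {ψ : T →ₐ[O] Module.End O Y} {θ : T →ₐ[O] ResidueField O} {ρ : GQ →* Module.End O Y}
  {h : HG hpO S (fun g => (ρb g).trace) ψ θ ρ}
  {t : ℕ} {q : Fin t → ℕ} {ty : Fin t → Ty} {ε : Fin t → ℤ}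
    {A₀ : ℕ → ValuationSubring Ω} {Φ : Fin t → GQ} {v : Fin t → Fin 2 → O}
    {σ₀ : Fin t → GQ} {Qj : Fin t → Matrix (Fin 2) (Fin 2) h'.TT} {ϖ : O}
    [Finite (ResidueField O)] [Algebra (ZMod p) (ResidueField O)] {S₀ Un : Finset ℕ}
    {r g n : ℕ} {Sx : Set ℕ}

omit [IsDomain O] [Finite (ResidueField O)] in
/-- the parameter `u` is in the maximal ideal -/
theorem OrdR.u_mem (hp2 : p ≠ 2)
    {A : ValuationSubring Ω} {Q Qi : Matrix (Fin 2) (Fin 2) h.TT} (H : OrdR h hgk A Q Qi)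
    (hA : A.LiesOverPrime p) (hred : redR (h.R hgk) h.theta.toRingHom = ρb) (hO : RO ρb p)
    {Φ : 𝒢} (hΦ : A.IsFrobeniusAt Φ p) :
    (Qi * h.R hgk Φ * Q) 1 1 ^ 2 - 1 ∈ maximalIdeal h.TT := by
  have hΦD : Φ ∈ A.decompositionSubgroup ℚ := hΦ.mem_decompositionSubgroup
  have hB := H.ordB_of_RO hp2 hA hred hO
  have hmm : ∀ X Y : Matrix (Fin 2) (Fin 2) h.TT,
      (X * Y).map h.theta = X.map h.theta * Y.map h.theta := fun X Y =>
    map_mul (h.theta.toRingHom.mapMatrix : Matrix (Fin 2) (Fin 2) h.TT →+* _) X Y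
  have hN : Qi.map h.theta * ρb Φ * Q.map h.theta = (Qi * h.R hgk Φ * Q).map h.theta := by
    have h1 : ρb Φ = (h.R hgk Φ).map h.theta := (DFunLike.congr_fun hred Φ).symm
    rw [hmm, hmm, h1]
  have e1 := hB.diag Φ hΦD
  rw [hN, Matrix.map_apply, Matrix.map_apply] at e1
  have e2 := congrArg h.theta (H.det_eq hΦD)
  rw [map_mul, AlgHom.commutes, e1] at e2
  have e3 : algebraMap O (ResidueField O) (cycO hpO Φ) =
      algebraMap (ZMod p) (ResidueField O) (cyc p Φ) := residue_cycO hpO Φ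
  rw [e3] at e2
  have e4 : algebraMap (ZMod p) (ResidueField O) (cyc p Φ) ≠ 0 := by
    rw [← e3]
    have f9 : IsUnit (cycO hpO Φ) := by
      refine IsUnit.of_mul_eq_one (cycO hpO Φ⁻¹) ?_
      rw [← map_mul, mul_inv_cancel, map_one]
    exact (f9.map (algebraMap O (ResidueField O))).ne_zero
  rw [← h.theta_eq_zero, map_sub, map_pow, map_one, sub_eq_zero]
  apply mul_left_cancel₀ e4
  linear_combination e2

/-- elements of the maximal ideal killed by a derivation -/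
def kerD {B : Type} [CommRing B] [IsLocalRing B] {k : Type} [Field k] {π : B →+* k}
    (hπ : RingHom.ker π = maximalIdeal B) {OO : Set B} {I : Ideal B} {D : B → k}
    (hD : IsDer π OO I D) : Ideal B where
  carrier := {x | x ∈ maximalIdeal B ∧ D x = 0}
  zero_mem' := ⟨Ideal.zero_mem _, hD.zero⟩
  add_mem' := fun {a b} ha hb => ⟨Ideal.add_mem _ ha.1 hb.1, by rw [hD.add, ha.2, hb.2, add_zero]⟩
  smul_mem' := fun a b hb => ⟨Ideal.mul_mem_left _ _ hb.1, by
    have h1 : π b = 0 := by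
      have := hb.1
      rwa [← hπ, RingHom.mem_ker] at this
    rw [smul_eq_mul, hD.mul, hb.2, h1, mul_zero, zero_mul, add_zero]⟩

set_option maxHeartbeats 1000000 in
/-- **Generators, peu ramifiée case.** `h'` is the ordinary world of level `N`, `h` the flat world
of level `N / p`. -/
theorem gen_three {ζ P : Ω} {σ₁ : 𝒢} (hd : Det (A₀ p) p ζ P σ₁) (h1 : ρb σ₁ = 1)
    (X : TWn p ρb S₀ A₀ (L0 p ρb σ₁) q Un r g n Sx)
    (L : LvH h' hgk ϖ q ty ε A₀ Φ v S₀ Un X.S) (F : FrD h' hgk q ty A₀ Φ v σ₀ Qj)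
    (hA : (A₀ p).LiesOverPrime p) {Q Qi : Matrix (Fin 2) (Fin 2) h'.TT}
    (HO : OrdR h' hgk (A₀ p) Q Qi) {Φp : 𝒢} (hΦ : (A₀ p).IsFrobeniusAt Φp p) (hO : RO ρb p)
    (π : h'.TT →ₐ[O] h.TT) (hπ : ∀ g, π (h'.tt g) = h.tt g)
    (hflat : ∀ (J : Ideal h.TT) (D : h.TT → ResidueField O)
      (hD : IsDer h.theta.toRingHom (Set.range (algebraMap O h.TT)) J D), (p : h.TT) ∈ J →
      (fun σ : (A₀ p).decompositionSubgroup ℚ => cS h hgk hD σ) ∈ flatS ρb p (A₀ p)) :
    (Qi * h'.R hgk Φp * Q) 1 1 ^ 2 - 1 ∈ maximalIdeal h'.TT ∧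
    (Qi * h'.R hgk σ₁ * Q) 0 1 ∈ maximalIdeal h'.TT ∧
    ∃ z : Fin g → h'.TT, (∀ i, z i ∈ maximalIdeal h'.TT) ∧
      maximalIdeal h'.TT ≤ Ideal.span {algebraMap O h'.TT ϖ} ⊔
        Ideal.span (Set.range (Fin.cons ((Qi * h'.R hgk Φp * Q) 1 1 ^ 2 - 1) z :
          Fin (g + 1) → h'.TT)) ⊔ Ideal.span {(Qi * h'.R hgk σ₁ * Q) 0 1} ⊔
        Ideal.span (parS q ty ε (PhiJ h' hgk ty Φ v Qj) (NJ h' hgk ty Φ v σ₀ Qj)) ⊔
        maximalIdeal h'.TT ^ 2 ∧
      maximalIdeal h.TT ≤ Ideal.span {algebraMap O h.TT ϖ} ⊔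
        Ideal.span (Set.range fun i => π ((Fin.cons ((Qi * h'.R hgk Φp * Q) 1 1 ^ 2 - 1) z :
          Fin (g + 1) → h'.TT) i)) ⊔
        Ideal.span (parS q ty ε (fun j => (PhiJ h' hgk ty Φ v Qj j).map π)
          (fun j => (NJ h' hgk ty Φ v σ₀ Qj j).map π)) ⊔ maximalIdeal h.TT ^ 2 := by
  set u := (Qi * h'.R hgk Φp * Q) 1 1 ^ 2 - 1 with hu
  set w := (Qi * h'.R hgk σ₁ * Q) 0 1 with hw
  have hp2 := L.hN.odd
  have h2k := L.hN.two
  have hum : u ∈ maximalIdeal h'.TT := HO.u_mem hp2 hA L.hred hO hΦ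
  have hwm : w ∈ maximalIdeal h'.TT := HO.w_mem L.hred h1
  have hϖm : algebraMap O h'.TT ϖ ∈ maximalIdeal h'.TT := by
    rw [← h'.theta_eq_zero, AlgHom.commutes]
    change residue O ϖ = 0
    rw [IsLocalRing.residue_eq_zero_iff, L.hmax]
    exact Ideal.mem_span_singleton_self _
  have hW : ∀ x ∈ ({u, w} : Set h'.TT), x ∈ maximalIdeal h'.TT := by
    rintro x (rfl | hx)
    · exact hum
    · rw [Set.mem_singleton_iff] at hx
      rw [hx]; exact hwm
  have hIm : Ipar h' hgk ϖ q ty ε Φ v σ₀ Qj {u, w} ≤ maximalIdeal h'.TT := by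
    refine sup_le (sup_le (sup_le ?_ ?_) ?_) (Ideal.pow_le_self (by norm_num))
    · exact (Ideal.span_singleton_le_iff_mem _).2 hϖm
    · exact Ideal.span_le.2 hW
    · refine Ideal.span_le.2 ?_
      rintro x ⟨j, hx⟩
      exact par_le (L.H.qd F L.hred L.hN.two j) hx
  obtain ⟨z, hz1, hz2⟩ := gen_of X L F (fun A _ => B1_le_L0 L.hN.lc h1 A) (W := {u, w}) hW
    (fun D hD => by
      have hpI : (p : h'.TT) ∈ Ipar h' hgk ϖ q ty ε Φ v σ₀ Qj {u, w} :=
        pI_of L.hmax hpO (mem_Ipar_pi h' hgk)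
      have huI : (Qi * h'.R hgk Φp * Q) 1 1 ^ 2 - 1 ∈ Ipar h' hgk ϖ q ty ε Φ v σ₀ Qj {u, w} :=
        mem_Ipar_W h' hgk (Or.inl rfl)
      refine ⟨HO.mem_ordL hD hA hp2 hpI hIm h2k hΦ L.hred huI, fun hσ => ?_⟩
      exact (HO.cS_sigma hA hD hpI h2k hΦ L.hred huI hd.nm.1 h1).2
        (hD.zeroI _ (mem_Ipar_W h' hgk (Or.inr rfl))))
  have hgen' : maximalIdeal h'.TT ≤ Ideal.span {algebraMap O h'.TT ϖ} ⊔
        Ideal.span (Set.range (Fin.cons u z : Fin (g + 1) → h'.TT)) ⊔ Ideal.span {w} ⊔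
        Ideal.span (parS q ty ε (PhiJ h' hgk ty Φ v Qj) (NJ h' hgk ty Φ v σ₀ Qj)) ⊔
        maximalIdeal h'.TT ^ 2 := by
    refine hz2.trans (sup_le (sup_le (sup_le ?_ (sup_le ?_ ?_)) ?_) ?_)
    · exact ((le_sup_left.trans le_sup_left).trans le_sup_left).trans le_sup_left
    · refine (Ideal.span_mono ?_).trans
        (((le_sup_right.trans le_sup_left).trans le_sup_left).trans le_sup_left)
      rintro _ ⟨i, rfl⟩
      exact ⟨i.succ, rfl⟩
    · refine Ideal.span_le.2 ?_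
      rintro x (rfl | hx)
      · exact (((le_sup_right.trans le_sup_left).trans le_sup_left).trans le_sup_left :
          Ideal.span (Set.range (Fin.cons u z : Fin (g + 1) → h'.TT)) ≤ _)
          (Ideal.subset_span ⟨0, rfl⟩)
      · rw [Set.mem_singleton_iff] at hx
        rw [hx]
        exact ((le_sup_right.trans le_sup_left).trans le_sup_left : Ideal.span {w} ≤ _)
          (Ideal.subset_span rfl)
    · exact le_sup_right.trans le_sup_left
    · exact le_sup_right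
  refine ⟨hum, hwm, z, hz1, hgen', ?_⟩
  -- the flat world
  set J : Ideal h.TT := Ideal.span {algebraMap O h.TT ϖ} ⊔
        Ideal.span (Set.range fun i => π ((Fin.cons u z : Fin (g + 1) → h'.TT) i)) ⊔
        Ideal.span (parS q ty ε (fun j => (PhiJ h' hgk ty Φ v Qj j).map π)
          (fun j => (NJ h' hgk ty Φ v σ₀ Qj j).map π)) ⊔ maximalIdeal h.TT ^ 2 with hJ
  have hπm : ∀ x ∈ maximalIdeal h'.TT, π x ∈ maximalIdeal h.TT := by
    intro x hx
    rw [← h.theta_eq_zero, theta_comp π, h'.theta_eq_zero]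
    exact hx
  have hJϖ : algebraMap O h.TT ϖ ∈ J :=
    ((le_sup_left.trans le_sup_left).trans le_sup_left :
      Ideal.span {algebraMap O h.TT ϖ} ≤ J) (Ideal.mem_span_singleton_self _)
  have hJz : ∀ i, π ((Fin.cons u z : Fin (g + 1) → h'.TT) i) ∈ J := fun i =>
    ((le_sup_right.trans le_sup_left).trans le_sup_left : Ideal.span (Set.range fun i =>
      π ((Fin.cons u z : Fin (g + 1) → h'.TT) i)) ≤ J) (Ideal.subset_span ⟨i, rfl⟩)
  have hJpar : ∀ x ∈ parS q ty ε (PhiJ h' hgk ty Φ v Qj) (NJ h' hgk ty Φ v σ₀ Qj), π x ∈ J := by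
    rintro x ⟨j, hx⟩
    exact (le_sup_right.trans le_sup_left : Ideal.span (parS q ty ε
      (fun j => (PhiJ h' hgk ty Φ v Qj j).map π) (fun j => (NJ h' hgk ty Φ v σ₀ Qj j).map π)) ≤ J)
      (Ideal.subset_span ⟨j, par_map π.toRingHom hx⟩)
  have hJm : J ≤ maximalIdeal h.TT := by
    refine sup_le (sup_le (sup_le ?_ ?_) ?_) (Ideal.pow_le_self (by norm_num))
    · rw [Ideal.span_singleton_le_iff_mem, ← AlgHom.commutes π]
      exact hπm _ hϖm
    · refine Ideal.span_le.2 ?_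
      rintro _ ⟨i, rfl⟩
      refine hπm _ ?_
      refine Fin.cases ?_ (fun j => ?_) i
      · exact hum
      · exact hz1 j
    · refine Ideal.span_le.2 ?_
      rintro x ⟨j, hx⟩
      -- every element of the image is the image of a parameter
      have hqd := L.H.qd F L.hred L.hN.two j
      have hN : ∀ a b, (NJ h' hgk ty Φ v σ₀ Qj j).map π a b ∈ maximalIdeal h.TT := fun a b =>
        hπm _ (hqd.hN a b)
      have hsm : ∀ a b, ((PhiJ h' hgk ty Φ v Qj j).map π -
          (ε j : h.TT) • (1 : Matrix (Fin 2) (Fin 2) h.TT)) a b =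
          π ((PhiJ h' hgk ty Φ v Qj j - (ε j : h'.TT) • (1 : Matrix (Fin 2) (Fin 2) h'.TT)) a b) := by
        intro a b
        rw [Matrix.sub_apply, Matrix.sub_apply, map_sub, Matrix.smul_apply, Matrix.smul_apply,
          smul_eq_mul, smul_eq_mul, map_mul, map_intCast, Matrix.map_apply, Matrix.one_apply,
          Matrix.one_apply]
        split_ifs
        · rw [map_one]
        · rw [map_zero]
      revert hx
      rcases htj : ty j with _ | _
      · rintro (⟨a, b, rfl⟩ | ⟨a, b, rfl⟩)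
        · exact hN a b
        · rw [hsm]
          exact hπm _ (hqd.hΦ htj a b)
      · rintro (⟨a, b, rfl⟩ | hx)
        · exact hN a b
        · rw [Set.mem_singleton_iff] at hx
          have e1 : x = π ((PhiJ h' hgk ty Φ v Qj j).trace - ε j * (q j + 1)) := by
            rw [hx, map_sub, map_mul, map_intCast, map_add, map_natCast, map_one,
              Matrix.trace_fin_two, Matrix.trace_fin_two, map_add]
            rfl
          rw [e1]
          exact hπm _ (hqd.hτ htj).1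
  have hpJ : (p : h.TT) ∈ J := pI_of L.hmax hpO hJϖ
  have hred : redR (h.R hgk) h.theta.toRingHom = ρb := by
    refine MonoidHom.ext fun σ => ?_
    refine Eq.trans ?_ (DFunLike.congr_fun L.hred σ)
    ext i j
    rw [redR_apply, redR_apply, Matrix.map_apply, Matrix.map_apply, ← map_R π hπ σ,
      Matrix.map_apply]
    exact theta_comp π _
  have HO2 := ordR_map π hπ HO
  have hmm : ∀ X Z : Matrix (Fin 2) (Fin 2) h'.TT, (X * Z).map π = X.map π * Z.map π := fun X Z =>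
    map_mul (π.toRingHom.mapMatrix : Matrix (Fin 2) (Fin 2) h'.TT →+* _) X Z
  have hent : ∀ σ, Qi.map π * h.R hgk σ * Q.map π = (Qi * h'.R hgk σ * Q).map π := fun σ => by
    rw [hmm, hmm, map_R π hπ]
  have hu2 : (Qi.map π * h.R hgk Φp * Q.map π) 1 1 ^ 2 - 1 ∈ J := by
    rw [hent, Matrix.map_apply]
    have e1 := hJz 0
    have e2 : π ((Fin.cons u z : Fin (g + 1) → h'.TT) 0) = π ((Qi * h'.R hgk Φp * Q) 1 1) ^ 2 - 1 := by
      change π u = _
      rw [hu, map_sub, map_pow, map_one]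
    rw [← e2]
    exact e1
  have hker : RingHom.ker h'.theta.toRingHom = maximalIdeal h'.TT := ker_theta h'
  -- every derivation vanishes
  have hD0 : ∀ D : h.TT → ResidueField O,
      IsDer h.theta.toRingHom (Set.range (algebraMap O h.TT)) J D → ∀ x, D x = 0 := by
    intro D hD
    have hD' := isDer_comp π hD (I := (⊥ : Ideal h'.TT)) (fun x hx => by
      rw [Ideal.mem_bot] at hx
      rw [hx, map_zero]
      exact hD.zero)
    have hc1 : (fun σ : (A₀ p).decompositionSubgroup ℚ => cS h hgk hD σ) ∈ ordL ρb p (A₀ p) :=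
      HO2.mem_ordL hD hA hp2 hpJ hJm h2k hΦ hred hu2
    obtain ⟨Qb, Qbi, hB⟩ := hO (A₀ p) hA
    have hc2 := hd.flat_zero h1 L.hN.det L.hN.lc hB hc1 (hflat J D hD hpJ)
    have hσD := LC.ine_le_dec (A₀ p) hd.nm.1
    have hc3 : cS h hgk hD σ₁ = 0 := hc2.2 hσD
    have hw0 := (HO2.cS_sigma hA hD hpJ h2k hΦ hred hu2 hd.nm.1 h1).1 hc3
    have hw1 : D (π w) = 0 := by
      rw [hent, Matrix.map_apply] at hw0
      exact hw0
    have hle : maximalIdeal h'.TT ≤ kerD hker hD' := by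
      refine hgen'.trans (sup_le (sup_le (sup_le (sup_le ?_ ?_) ?_) ?_) ?_)
      · refine (Ideal.span_singleton_le_iff_mem _).2 ⟨hϖm, ?_⟩
        change D (π (algebraMap O h'.TT ϖ)) = 0
        rw [AlgHom.commutes]
        exact hD.zeroO _ ⟨_, rfl⟩
      · refine Ideal.span_le.2 ?_
        rintro _ ⟨i, rfl⟩
        refine ⟨?_, hD.zeroI _ (hJz i)⟩
        refine Fin.cases ?_ (fun j => ?_) i
        · exact hum
        · exact hz1 j
      · exact (Ideal.span_singleton_le_iff_mem _).2 ⟨hwm, hw1⟩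
      · refine Ideal.span_le.2 ?_
        intro x hx
        refine ⟨?_, hD.zeroI _ (hJpar x hx)⟩
        obtain ⟨j, hx⟩ := hx
        exact par_le (L.H.qd F L.hred L.hN.two j) hx
      · rw [sq]
        refine Ideal.mul_le.2 fun a ha b hb => ⟨Ideal.mul_mem_left _ _ hb, ?_⟩
        have ea : h'.theta.toRingHom a = 0 := by rwa [← RingHom.mem_ker, hker]
        have eb : h'.theta.toRingHom b = 0 := by rwa [← RingHom.mem_ker, hker]
        have e := hD'.mul a b
        rw [ea, eb, zero_mul, zero_mul, add_zero] at e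
        exact e
    intro y
    obtain ⟨x, rfl⟩ := pi_surj π hπ y
    obtain ⟨a, ha⟩ := IsLocalRing.residue_surjective (h'.theta x)
    have h3 : x - algebraMap O h'.TT a ∈ maximalIdeal h'.TT := by
      rw [← h'.theta_eq_zero, map_sub, AlgHom.commutes, sub_eq_zero]
      exact ha.symm
    have h4 : D (π (x - algebraMap O h'.TT a)) = 0 := (hle h3).2
    have h5 := hD.add (π (x - algebraMap O h'.TT a)) (π (algebraMap O h'.TT a))
    rw [← map_add, sub_add_cancel, h4, zero_add, AlgHom.commutes] at h5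
    rw [h5]
    exact hD.zeroO _ ⟨_, rfl⟩
  obtain ⟨zz, -, hzz⟩ := exists_gens (h.R hgk) h.theta.toRingHom (ker_theta h)
    (algebraMap O h.TT).range
    (exists_O_theta h) J le_sup_right hJm (fun a ha h0 => by
      obtain ⟨b, hb, rfl⟩ := theta_O h ha h0
      rw [L.hmax] at hb
      obtain ⟨b', rfl⟩ := Ideal.mem_span_singleton.1 hb
      rw [map_mul]
      exact J.mul_mem_right _ hJϖ) (fun t => ⟨t, gen_TT h hgk t, by
      rw [sub_self]; exact J.zero_mem⟩) (g := 0) (⊥ : Submodule (ResidueField O) _) 0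
    (fun D hD => by
      rw [Submodule.mem_bot]
      funext σ
      have e1 : (h.R hgk σ).map D = 0 := by
        ext i j
        exact hD0 D hD _
      rw [cD, e1, zero_mul]
      rfl) (fun c _ => ⟨0, fun σ => by
        have e1 : (c : GQ → M2 (ResidueField O)) = 0 := (Submodule.mem_bot _).1 c.2
        rw [e1]
        simp⟩)
  rw [Set.range_eq_empty, Ideal.span_empty, bot_sup_eq] at hzz
  exact hzz

end Fermat.Agent.ZG
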