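import Fermat.Agent.ZG.LvW

/-!
# The quotient character at `p` in terms of traces
-/

set_option autoImplicit false
set_option linter.unusedSectionVars false
set_option linter.style.haveILetI false

noncomputable section

namespace Fermat.Agent.ZG

open Matrix IsLocalRing Fermat.Agent.GalRep Fermat.Agent.TW Fermat.Agent.Places Fermat.Agent.Flat
open Fermat.Agent.Cheb Fermat.Agent.Sel Fermat.Agent.StR Fermat.Agent.TWG

local notation "Ω" => AlgebraicClosure ℚ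

local notation "𝒢" => (AlgebraicClosure ℚ) ≃ₐ[ℚ] (AlgebraicClosure ℚ)

variable {O T Y : Type} [CommRing O] [IsLocalRing O] [IsNoetherianRing O]
  [IsAdicComplete (maximalIdeal O) O] [CommRing T] [Algebra O T] [AddCommGroup Y] [Module O Y]
  [Module.Finite O Y] [Module.Free O Y] [Nontrivial Y] {p : ℕ} [hp : Fact p.Prime]
  {hpO : (p : O) ∈ maximalIdeal O} {S : Set ℕ} {ρb : GQ →* M2 (ResidueField O)}
  {ψ : T →ₐ[O] Module.End O Y} {θ : T →ₐ[O] ResidueField O} {ρ : GQ →* Module.End O Y}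
  {h : HG hpO S (fun g => (ρb g).trace) ψ θ ρ} [Invertible (2 : O)] {g₀ k₀ : GQ}
  {hgk : HG.IrrAt (fun g => (ρb g).trace) g₀ k₀}

namespace OrdR

variable {A : ValuationSubring Ω} {Q Qi : Matrix (Fin 2) (Fin 2) h.TT}

/-- the trace in an adapted basis -/
theorem tt_eq (H : OrdR h hgk A Q Qi) (g : 𝒢) :
    h.tt g = (Qi * h.R hgk g * Q) 0 0 + (Qi * h.R hgk g * Q) 1 1 := by
  rw [← Matrix.trace_fin_two, Matrix.mul_assoc, Matrix.trace_mul_comm, Matrix.mul_assoc, H.inv,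
    Matrix.mul_one, h.R_trace]

/-- the first diagonal entry on inertia -/
theorem ine00 (H : OrdR h hgk A Q Qi) {τ : 𝒢} (hτ : τ ∈ A.inertiaSubgroupIn ℚ) :
    (Qi * h.R hgk τ * Q) 0 0 = algebraMap O h.TT (cycO hpO τ) := by
  have h1 := H.det_eq (LC.ine_le_dec A hτ)
  rwa [H.ine τ hτ, mul_one] at h1

/-- **The quotient character in terms of traces.** -/
theorem psi_eq (H : OrdR h hgk A Q Qi) {Φ τ : 𝒢} (hΦ : Φ ∈ A.decompositionSubgroup ℚ)
    (hτ : τ ∈ A.inertiaSubgroupIn ℚ) :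
    (1 - algebraMap O h.TT (cycO hpO τ)) * (Qi * h.R hgk Φ * Q) 1 1 =
      h.tt (Φ * τ) - algebraMap O h.TT (cycO hpO τ) * h.tt Φ := by
  have h1 : Qi * h.R hgk (Φ * τ) * Q = (Qi * h.R hgk Φ * Q) * (Qi * h.R hgk τ * Q) := by
    rw [map_mul, conj_mul_conj H.inv]
  have h2 : ∀ X Z : Matrix (Fin 2) (Fin 2) h.TT, (X * Z) 0 0 = X 0 0 * Z 0 0 + X 0 1 * Z 1 0 :=
    fun X Z => by rw [Matrix.mul_apply, Fin.sum_univ_two]
  have h3 : ∀ X Z : Matrix (Fin 2) (Fin 2) h.TT, (X * Z) 1 1 = X 1 0 * Z 0 1 + X 1 1 * Z 1 1 :=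
    fun X Z => by rw [Matrix.mul_apply, Fin.sum_univ_two]
  rw [H.tt_eq (Φ * τ), H.tt_eq Φ, h1, h2 (Qi * h.R hgk Φ * Q), h3 (Qi * h.R hgk Φ * Q), H.ine00 hτ,
    H.ine τ hτ, H.low Φ hΦ, H.low τ (LC.ine_le_dec A hτ)]
  ring

/-- the value of the quotient character, given an inverse of `1 - cyc τ` -/
theorem psi_eq' (H : OrdR h hgk A Q Qi) {Φ τ : 𝒢} (hΦ : Φ ∈ A.decompositionSubgroup ℚ)
    (hτ : τ ∈ A.inertiaSubgroupIn ℚ) {b : O} (hb : b * (1 - cycO hpO τ) = 1) :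
    (Qi * h.R hgk Φ * Q) 1 1 =
      algebraMap O h.TT b * (h.tt (Φ * τ) - algebraMap O h.TT (cycO hpO τ) * h.tt Φ) := by
  have h1 := congrArg (algebraMap O h.TT) hb
  rw [map_mul, map_sub, map_one] at h1
  rw [← H.psi_eq hΦ hτ, ← mul_assoc, h1, one_mul]

/-- the quotient character does not depend on the adapted basis -/
theorem psi_unique [Algebra (ZMod p) (ResidueField O)] (hp2 : p ≠ 2) (hA : A.LiesOverPrime p)
    (H : OrdR h hgk A Q Qi) {Q' Qi' : Matrix (Fin 2) (Fin 2) h.TT} (H' : OrdR h hgk A Q' Qi')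
    {Φ : 𝒢} (hΦ : Φ ∈ A.decompositionSubgroup ℚ) :
    (Qi * h.R hgk Φ * Q) 1 1 = (Qi' * h.R hgk Φ * Q') 1 1 := by
  obtain ⟨τ, hτ, hne⟩ := LC.exists_cyc_ne_one hp2 hA
  have hau : IsUnit (1 - cycO hpO τ) := by
    by_contra hnu
    have h1 := (IsLocalRing.residue_eq_zero_iff _).2 ((IsLocalRing.mem_maximalIdeal _).2 hnu)
    rw [map_sub, map_one, sub_eq_zero] at h1
    apply hne
    apply (algebraMap (ZMod p) (ResidueField O)).injective
    rw [map_one, ← residue_cycO hpO]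
    exact h1.symm
  obtain ⟨b, hb⟩ := hau.exists_left_inv
  rw [H.psi_eq' hΦ hτ hb, H'.psi_eq' hΦ hτ hb]

/-- an element `1 - cyc τ` with an inverse -/
theorem exists_tau (hpO : (p : O) ∈ maximalIdeal O) [Algebra (ZMod p) (ResidueField O)]
    (hp2 : p ≠ 2) (hA : A.LiesOverPrime p) :
    ∃ τ ∈ A.inertiaSubgroupIn ℚ, ∃ b : O, b * (1 - cycO hpO τ) = 1 := by
  obtain ⟨τ, hτ, hne⟩ := LC.exists_cyc_ne_one hp2 hA
  have hau : IsUnit (1 - cycO hpO τ) := by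
    by_contra hnu
    have h1 := (IsLocalRing.residue_eq_zero_iff _).2 ((IsLocalRing.mem_maximalIdeal _).2 hnu)
    rw [map_sub, map_one, sub_eq_zero] at h1
    apply hne
    apply (algebraMap (ZMod p) (ResidueField O)).injective
    rw [map_one, ← residue_cycO hpO]
    exact h1.symm
  obtain ⟨b, hb⟩ := hau.exists_left_inv
  exact ⟨τ, hτ, b, hb⟩

/-- the inverse of the quotient character -/
theorem psi_inv (H : OrdR h hgk A Q Qi) {Φ : 𝒢} (hΦ : Φ ∈ A.decompositionSubgroup ℚ) :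
    (Qi * h.R hgk Φ * Q) 1 1 * (Qi * h.R hgk Φ⁻¹ * Q) 1 1 = 1 := by
  rw [← H.mul11 hΦ, mul_inv_cancel, map_one, mul_one, H.inv', Matrix.one_apply_eq]

end OrdR

end Fermat.Agent.ZG
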