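import Fermat.Agent.ZG.Gen
import Fermat.Agent.LC.Ord2

/-!
# The ordinary structure of the trace ring representation at `p`
-/

set_option autoImplicit false
set_option linter.unusedSectionVars false
set_option linter.style.haveILetI false

noncomputable section

namespace Fermat.Agent.ZG

open Matrix IsLocalRing Fermat.Agent.GalRep Fermat.Agent.TW Fermat.Agent.Places Fermat.Agent.Flat
open Fermat.Agent.Cheb Fermat.Agent.Sel Fermat.Agent.StR Fermat.Agent.TWG
open Fermat.Agent.LC (OrdB RO Up ordL mul2)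

local notation "Ω" => AlgebraicClosure ℚ

local notation "𝒢" => (AlgebraicClosure ℚ) ≃ₐ[ℚ] (AlgebraicClosure ℚ)

section mat

variable {A : Type} [CommRing A] [IsLocalRing A]

/-- idempotents of trace one -/
theorem exists_idem_frame {e : Matrix (Fin 2) (Fin 2) A} (he : e * e = e) (ht : e.trace = 1) :
    ∃ Q Qi : Matrix (Fin 2) (Fin 2) A, Q * Qi = 1 ∧ Qi * e * Q = !![1, 0; 0, 0] := by
  have htr : e 0 0 + e 1 1 = 1 := by rw [← ht, Matrix.trace_fin_two]
  have e00 : e 0 0 * e 0 0 + e 0 1 * e 1 0 = e 0 0 := by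
    have := congrFun (congrFun he 0) 0
    rwa [Matrix.mul_apply, Fin.sum_univ_two] at this
  have hw : e 1 1 = 1 - e 0 0 := by linear_combination htr
  have key : ∀ Q : Matrix (Fin 2) (Fin 2) A, IsUnit Q.det → e * Q = Q * !![1, 0; 0, 0] →
      ∃ Q Qi : Matrix (Fin 2) (Fin 2) A, Q * Qi = 1 ∧ Qi * e * Q = !![1, 0; 0, 0] := by
    intro Q hQ h1
    refine ⟨Q, Q⁻¹, Matrix.mul_nonsing_inv _ hQ, ?_⟩
    rw [mul_assoc, h1, ← mul_assoc, Matrix.nonsing_inv_mul _ hQ, one_mul]
  rcases IsLocalRing.isUnit_or_isUnit_of_add_one htr with hu | hu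
  · refine key !![e 0 0, -e 0 1; e 1 0, e 0 0] ?_ ?_
    · rw [Matrix.det_fin_two]
      simp only [Matrix.of_apply, Matrix.cons_val', Matrix.cons_val_zero, Matrix.cons_val_one,
        Matrix.cons_val_fin_one]
      have : e 0 0 * e 0 0 - -e 0 1 * e 1 0 = e 0 0 := by linear_combination e00
      rw [this]
      exact hu
    · ext i j
      fin_cases i <;> fin_cases j <;>
        simp [Matrix.mul_apply, Fin.sum_univ_two, hw]
      · linear_combination e00
      · ring
      · ring
      · linear_combination -e00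
  · refine key !![e 0 1, e 1 1; e 1 1, -e 1 0] ?_ ?_
    · rw [Matrix.det_fin_two]
      simp only [Matrix.of_apply, Matrix.cons_val', Matrix.cons_val_zero, Matrix.cons_val_one,
        Matrix.cons_val_fin_one]
      have : e 0 1 * -e 1 0 - e 1 1 * e 1 1 = -e 1 1 := by
        rw [hw]; linear_combination -e00
      rw [this]
      exact hu.neg
    · ext i j
      fin_cases i <;> fin_cases j <;>
        simp [Matrix.mul_apply, Fin.sum_univ_two, hw]
      · ring
      · linear_combination -e00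
      · linear_combination e00
      · ring

end mat

variable {O T Y : Type} [CommRing O] [IsDomain O] [IsLocalRing O] [IsNoetherianRing O]
  [IsAdicComplete (maximalIdeal O) O] [CommRing T] [Algebra O T] [AddCommGroup Y] [Module O Y]
  [Module.Finite O Y] [Module.Free O Y] [Nontrivial Y] {p : ℕ} [hp : Fact p.Prime]
  {hpO : (p : O) ∈ maximalIdeal O} {S : Set ℕ} {ρb : GQ →* M2 (ResidueField O)}
  {ψ : T →ₐ[O] Module.End O Y} {θ : T →ₐ[O] ResidueField O} {ρ : GQ →* Module.End O Y}
  (h : HG hpO S (fun g => (ρb g).trace) ψ θ ρ) [Invertible (2 : O)] {g₀ k₀ : GQ}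
  (hgk : HG.IrrAt (fun g => (ρb g).trace) g₀ k₀)

omit [IsDomain O] in
/-- the reduction of the cyclotomic character -/
theorem residue_cycO {O : Type} [CommRing O] [IsLocalRing O] [IsNoetherianRing O]
    [IsAdicComplete (maximalIdeal O) O] {p : ℕ} [hp : Fact p.Prime]
    (hpO : (p : O) ∈ maximalIdeal O) [Algebra (ZMod p) (ResidueField O)] (g : GQ) :
    residue O (cycO hpO g) = algebraMap (ZMod p) (ResidueField O) (cyc p g) := by
  obtain ⟨z, hz⟩ := cycO_spec (O := O) hpO g 1
  have hpk : residue O (p : O) = 0 := by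
    rw [IsLocalRing.residue_eq_zero_iff]
    exact hpO
  have h1 : residue O ((p : O) ^ 1 * z) = 0 := by rw [pow_one, map_mul, hpk, zero_mul]
  rw [hz, map_add, h1, add_zero, map_natCast]
  have key : ∀ (m : ℕ) [NeZero m], m = p → (((cyc m g).val : ℕ) : ResidueField O) =
      algebraMap (ZMod p) (ResidueField O) (cyc p g) := by
    rintro m hm rfl
    rw [← map_natCast (algebraMap (ZMod m) (ResidueField O)), ZMod.natCast_zmod_val]
  exact key (p ^ 1) (pow_one p)

/-- an adapted basis at `p` -/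
structure OrdR (A : ValuationSubring Ω) (Q Qi : Matrix (Fin 2) (Fin 2) h.TT) : Prop where
  inv : Q * Qi = 1
  low : ∀ σ ∈ A.decompositionSubgroup ℚ, (Qi * h.R hgk σ * Q) 1 0 = 0
  ine : ∀ σ ∈ A.inertiaSubgroupIn ℚ, (Qi * h.R hgk σ * Q) 1 1 = 1

/-- conjugation by an element of the decomposition group preserves inertia -/
theorem conj_mem_ine {A : ValuationSubring Ω} {g σ : 𝒢} (hg : g ∈ A.decompositionSubgroup ℚ)
    (hσ : σ ∈ A.inertiaSubgroupIn ℚ) : g * σ * g⁻¹ ∈ A.inertiaSubgroupIn ℚ := by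
  have h1 : Pres A g⁻¹ := (mem_dec_pres).1 (inv_mem hg)
  have h2 := conj_inv_mem h1 hσ
  rwa [inv_inv] at h2

omit [IsDomain O] in
/-- **The ordinary structure.** -/
theorem exists_ordR [Algebra (ZMod p) (ResidueField O)] (hp2 : p ≠ 2) {A : ValuationSubring Ω}
    (hA : A.LiesOverPrime p)
    (hord : ∀ σ ∈ A.inertiaSubgroupIn ℚ, ∀ τ ∈ A.inertiaSubgroupIn ℚ,
      (h.R hgk τ - algebraMap O h.TT (cycO hpO τ) • (1 : Matrix (Fin 2) (Fin 2) h.TT)) *
        (h.R hgk σ - 1) = 0) : ∃ Q Qi, OrdR h hgk A Q Qi := by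
  obtain ⟨τ, hτ, hne⟩ := LC.exists_cyc_ne_one hp2 hA
  set a : h.TT := algebraMap O h.TT (cycO hpO τ) - 1 with ha
  have hau : IsUnit a := by
    by_contra hnu
    have h1 : a ∈ maximalIdeal h.TT := (IsLocalRing.mem_maximalIdeal _).2 hnu
    rw [← h.theta_eq_zero, ha, map_sub, map_one, AlgHom.commutes, sub_eq_zero] at h1
    apply hne
    apply (algebraMap (ZMod p) (ResidueField O)).injective
    rw [map_one, ← residue_cycO hpO]
    exact h1
  set X := h.R hgk τ with hX
  set c := algebraMap O h.TT (cycO hpO τ) with hc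
  have hca : c = a + 1 := by rw [ha]; ring
  have hXi : X * h.R hgk τ⁻¹ = 1 := by rw [hX, ← map_mul, mul_inv_cancel, map_one]
  have hXX : (X - 1) * (X - 1) = a • (X - 1) := by
    have h1 := hord τ hτ τ hτ
    rw [← hX, ← hc, hca, add_smul, one_smul, ← sub_sub, sub_right_comm, sub_mul, smul_mul_assoc,
      one_mul, sub_eq_zero] at h1
    exact h1
  have htr : X.trace = a + 2 := by
    have h1 := CH X
    rw [h.R_det, ← hc] at h1
    have h2 : X * X = (a + 2) • X - c • 1 := by
      have h3 : X * X = (X - 1) * (X - 1) + (2 : h.TT) • X - 1 := by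
        rw [two_smul]; noncomm_ring
      rw [h3, hXX, smul_sub, add_smul, hca, add_smul, one_smul]
      abel
    have h3 : (X.trace - (a + 2)) • X = 0 := by
      rw [sub_smul, sub_eq_zero]
      have h4 : X.trace • X - c • (1 : Matrix (Fin 2) (Fin 2) h.TT) = (a + 2) • X - c • 1 := by
        rw [← h2, h1]
      exact sub_left_injective h4
    have h4 : (X.trace - (a + 2)) • (1 : Matrix (Fin 2) (Fin 2) h.TT) = 0 := by
      rw [← hXi, ← smul_mul_assoc, h3, zero_mul]
    have h5 := congrFun (congrFun h4 0) 0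
    rw [Matrix.smul_apply, Matrix.one_apply_eq, smul_eq_mul, mul_one] at h5
    exact sub_eq_zero.1 h5
  obtain ⟨b, hb⟩ := hau.exists_left_inv
  obtain ⟨Q, Qi, hQ, he⟩ := exists_idem_frame (e := b • (X - 1)) (by
      rw [smul_mul_smul_comm, hXX, smul_smul]
      congr 1
      linear_combination b * hb) (by
      rw [Matrix.trace_smul, Matrix.trace_sub, htr, Matrix.trace_one, Fintype.card_fin]
      simp only [smul_eq_mul, Nat.cast_ofNat]
      linear_combination hb)
  have hQ' : Qi * Q = 1 := by rw [mul_eq_one_comm]; exact hQ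
  have hD : Qi * (X - 1) * Q = a • !![1, 0; 0, 0] := by
    rw [← he, mul_smul_comm, smul_mul_assoc, smul_smul, mul_comm a, hb, one_smul]
  -- the shape on inertia
  have hine : ∀ σ ∈ A.inertiaSubgroupIn ℚ, (Qi * (h.R hgk σ - 1) * Q) 1 0 = 0 ∧
      (Qi * (h.R hgk σ - 1) * Q) 1 1 = 0 := by
    intro σ hσ
    set M := Qi * (h.R hgk σ - 1) * Q with hM
    have h1 := hord σ hσ τ hτ
    rw [← hX, ← hc, hca, add_smul, one_smul, ← sub_sub, sub_right_comm] at h1
    have h2 : (Qi * ((X - 1) - a • (1 : Matrix (Fin 2) (Fin 2) h.TT)) * Q) * M = 0 := by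
      rw [hM, conj_mul_conj hQ, h1, mul_zero, zero_mul]
    have h3 : Qi * ((X - 1) - a • (1 : Matrix (Fin 2) (Fin 2) h.TT)) * Q =
        a • !![0, 0; 0, -1] := by
      rw [mul_sub, sub_mul, hD, mul_smul_comm, mul_one, smul_mul_assoc, hQ', ← smul_sub]
      congr 1
      ext i j
      fin_cases i <;> fin_cases j <;> simp
    rw [h3, smul_mul_assoc] at h2
    have h4 : !![0, 0; 0, (-1 : h.TT)] * M = 0 := by
      have h5 := congrArg (fun Z => b • Z) h2
      simp only [smul_smul, smul_zero] at h5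
      rwa [hb, one_smul] at h5
    have f0 := congrFun (congrFun h4 1) 0
    have f1 := congrFun (congrFun h4 1) 1
    rw [Matrix.mul_apply, Fin.sum_univ_two] at f0 f1
    simp at f0 f1
    exact ⟨f0, f1⟩
  have hone : ∀ σ, Qi * h.R hgk σ * Q = Qi * (h.R hgk σ - 1) * Q + 1 := fun σ => by
    rw [mul_sub, sub_mul, mul_one, hQ', sub_add_cancel]
  refine ⟨Q, Qi, hQ, fun g hg => ?_, fun σ hσ => ?_⟩
  · have h1 := hine _ (conj_mem_ine hg hτ)
    have h2 : (Qi * h.R hgk g * Q) * (Qi * (X - 1) * Q) =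
        (Qi * (h.R hgk (g * τ * g⁻¹) - 1) * Q) * (Qi * h.R hgk g * Q) := by
      rw [conj_mul_conj hQ, conj_mul_conj hQ]
      congr 2
      rw [mul_sub, sub_mul, mul_one, one_mul, hX, ← map_mul, ← map_mul, inv_mul_cancel_right]
    rw [hD, mul_smul_comm] at h2
    have h3 := congrFun (congrFun h2 1) 0
    rw [Matrix.smul_apply, Matrix.mul_apply, Matrix.mul_apply, Fin.sum_univ_two,
      Fin.sum_univ_two, h1.1, h1.2] at h3
    simp at h3
    rw [← one_mul ((Qi * h.R hgk g * Q) 1 0), ← hb, mul_assoc, h3, mul_zero]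
  · rw [hone, Matrix.add_apply, (hine σ hσ).2, zero_add, Matrix.one_apply_eq]

end Fermat.Agent.ZG
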