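import Fermat.Agent.ZG.L0

/-!
# Flat cocycles vanish at the detecting element
-/

set_option autoImplicit false
set_option linter.unusedSectionVars false
set_option linter.style.haveILetI false

noncomputable section

namespace Fermat.Agent.ZG

open Matrix IsLocalRing Fermat.Agent.GalRep Fermat.Agent.Places Fermat.Agent.Flat
open Fermat.Agent.Sel
open Fermat.Agent.LC (OrdB RO Up ordL mul2 cycR)

local notation "Ω" => AlgebraicClosure ℚ

local notation "𝒢" => (AlgebraicClosure ℚ) ≃ₐ[ℚ] (AlgebraicClosure ℚ)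

/-- The detecting element. -/
structure Det (A : ValuationSubring Ω) (p : ℕ) (ζ P : Ω) (σ₁ : 𝒢) : Prop where
  hζ : IsPrimitiveRoot ζ p
  hP : P ^ p = p
  nm : σ₁ ∈ NM A (M1 A ζ)
  un : ∀ y a : Ω, a ∈ A → a ∈ M1 A ζ → y ^ p = 1 + p * a → σ₁ y = y
  mv : σ₁ P ≠ P

variable {p : ℕ} [hp : Fact p.Prime]

theorem exists_det {A : ValuationSubring Ω} (hA : A.LiesOverPrime p) :
    ∃ ζ P σ₁, Det A p ζ P σ₁ := by
  haveI : NeZero p := ⟨hp.out.ne_zero⟩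
  obtain ⟨ζ, hζ⟩ := exists_zeta p
  obtain ⟨P, hP⟩ := IsAlgClosed.exists_pow_nat_eq (p : Ω) hp.out.pos
  obtain ⟨σ, h1, h2, h3⟩ := exists_sigma hζ hA hP
  exact ⟨ζ, P, σ, hζ, hP, h1, h2, h3⟩

variable {A : ValuationSubring Ω} {ζ P : Ω} {σ₁ : 𝒢}

theorem Det.zero_of_bdd (H : Det A p ζ P σ₁) {κ : 𝒢 → ZMod p} (h : Bdd A p ζ (M1 A ζ) κ) :
    κ σ₁ = 0 := by
  haveI : NeZero p := ⟨hp.out.ne_zero⟩
  obtain ⟨y, a, h1⟩ := h
  have h2 := h1.gal σ₁ H.nm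
  rw [H.un y a h1.aA h1.aM h1.pow] at h2
  apply zeta_val_inj H.hζ
  rw [ZMod.val_zero, pow_zero]
  exact (mul_right_cancel₀ h1.y0 (by rw [one_mul]; exact h2)).symm

theorem cyc_of_NM (hζ : IsPrimitiveRoot ζ p) {σ : 𝒢} (hσ : σ ζ = ζ) : cyc p σ = 1 := by
  haveI : NeZero p := ⟨hp.out.ne_zero⟩
  have h1 := apply_eq_pow_cyc p σ hζ.pow_eq_one
  rw [hσ] at h1
  haveI : Fact (1 < p) := ⟨hp.out.one_lt⟩
  apply zeta_val_inj hζ
  rw [← h1, ZMod.val_one, pow_one]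

theorem zeta_of_cyc (hζ : IsPrimitiveRoot ζ p) {σ : 𝒢} (hσ : cyc p σ = 1) : σ ζ = ζ := by
  haveI : NeZero p := ⟨hp.out.ne_zero⟩
  haveI : Fact (1 < p) := ⟨hp.out.one_lt⟩
  rw [apply_eq_pow_cyc p σ hζ.pow_eq_one, hσ, ZMod.val_one, pow_one]

variable {k : Type} [Field k] [Finite k] [Algebra (ZMod p) k] {ρ : 𝒢 →* M2 k}

theorem exists_tr : ∃ tr : k →+ ZMod p, tr ≠ 0 := by
  haveI : Module.Finite (ZMod p) k := Module.Finite.of_finite
  by_contra hcon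
  push Not at hcon
  have h1 : (1 : k) = 0 := by
    rw [← Module.forall_dual_apply_eq_zero_iff (ZMod p)]
    intro φ
    exact DFunLike.congr_fun (hcon φ.toAddMonoidHom) 1
  exact one_ne_zero h1

/-- the vanishing criterion -/
theorem Det.zero_of_flat (H : Det A p ζ P σ₁) {hA : A.LiesOverPrime p} {U : Type} [AddCommGroup U]
    {act : 𝒢 → U → U} (hfl : FlC A hA U act)
    (hdet : ∀ σ, (ρ σ).det = algebraMap (ZMod p) k (cyc p σ))
    (hact : ∀ σ ∈ A.inertiaSubgroupIn ℚ, (∀ u, act σ u = u) → ρ σ = 1) {b : 𝒢 → k}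
    (hb : ∀ σ ∈ A.inertiaSubgroupIn ℚ, ∀ τ ∈ A.inertiaSubgroupIn ℚ, cyc p σ = 1 → cyc p τ = 1 →
      b (σ * τ) = b σ + b τ)
    (hlc : ∃ F : IntermediateField ℚ Ω, FiniteDimensional ℚ F ∧
      ∀ σ ∈ A.inertiaSubgroupIn ℚ, (∀ x ∈ F, σ x = x) → b σ = 0)
    (hb0 : ∀ σ ∈ A.inertiaSubgroupIn ℚ, (∀ u, act σ u = u) → b σ = 0) : b σ₁ = 0 := by
  obtain ⟨tr, htr⟩ := exists_tr (p := p) (k := k)
  obtain ⟨t, ht⟩ : ∃ t : k, tr t ≠ 0 := by
    by_contra hcon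
    push Not at hcon
    exact htr (AddMonoidHom.ext hcon)
  by_contra hne
  obtain ⟨F, hF, hF0⟩ := hlc
  have hcyc : ∀ σ ∈ NM A (M1 A ζ), cyc p σ = 1 := fun σ hσ =>
    cyc_of_NM H.hζ (hσ.2 ζ zeta_mem_M1)
  have h1 : Bdd A p ζ (M1 A ζ) (fun σ => tr (t / b σ₁ * b σ)) := by
    refine Fermat.Agent.Flat.bdd_of_flat H.hζ hfl zeta_mem_M1 ?_ ?_ (F := F) ?_ ?_
    · intro σ hσ hu
      have h2 := hdet σ
      rw [hact σ hσ hu, Matrix.det_one] at h2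
      have h3 : cyc p σ = 1 := (algebraMap (ZMod p) k).injective (by rw [← h2, map_one])
      exact (mem_NM_M1 hσ (zeta_of_cyc H.hζ h3)).2
    · intro σ hσ τ hτ
      rw [hb σ hσ.1 τ hτ.1 (hcyc σ hσ) (hcyc τ hτ), mul_add, map_add]
    · intro σ hσ hx
      rw [hF0 σ hσ.1 hx, mul_zero, map_zero]
    · intro σ hσ hu
      rw [hb0 σ hσ hu, mul_zero, map_zero]
  have h2 := H.zero_of_bdd h1
  rw [div_mul_cancel₀ _ hne] at h2
  exact ht h2

/-- the residual representation is trivial at the detecting element -/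
theorem Det.rho_one (H : Det A p ζ P σ₁) {hA : A.LiesOverPrime p}
    (hfl : FlC A hA (Fin 2 → k) (fun σ v => endV ρ σ v))
    (hdet : ∀ σ, (ρ σ).det = algebraMap (ZMod p) k (cyc p σ))
    (hlc : ∃ F : IntermediateField ℚ Ω, FiniteDimensional ℚ F ∧
      ∀ σ : 𝒢, (∀ x ∈ F, σ x = x) → ρ σ = 1) {Q Qi : M2 k} (h : OrdB ρ p A Q Qi) :
    ρ σ₁ = 1 := by
  have hone : ∀ σ : 𝒢, (∀ u : Fin 2 → k, endV ρ σ u = u) → ρ σ = 1 := by
    intro σ hσ
    apply Matrix.toLin'.injective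
    refine LinearMap.ext fun u => ?_
    rw [Matrix.toLin'_one]
    exact hσ u
  set b : 𝒢 → k := fun σ => (Qi * ρ σ * Q) 0 1 with hb
  have hN : ∀ σ ∈ A.inertiaSubgroupIn ℚ, cyc p σ = 1 →
      Qi * ρ σ * Q = !![1, b σ; 0, 1] := by
    intro σ hσ hc
    have hσD := LC.ine_le_dec A hσ
    ext i j
    fin_cases i <;> fin_cases j
    · change (Qi * ρ σ * Q) 0 0 = 1
      rw [h.diag σ hσD, h.ine σ hσ, hc, map_one, mul_one]
    · rfl
    · exact h.low σ hσD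
    · exact h.ine σ hσ
  have h1 : b σ₁ = 0 := by
    refine H.zero_of_flat hfl hdet (fun σ _ hu => hone σ hu) (b := b) ?_ ?_ ?_
    · intro σ hσ τ hτ hcσ hcτ
      have e1 : Qi * ρ (σ * τ) * Q = (Qi * ρ σ * Q) * (Qi * ρ τ * Q) := by
        rw [map_mul]
        calc Qi * (ρ σ * ρ τ) * Q = Qi * ρ σ * 1 * ρ τ * Q := by rw [mul_one]; simp only [mul_assoc]
          _ = _ := by rw [← h.inv]; simp only [mul_assoc]
      change (Qi * ρ (σ * τ) * Q) 0 1 = b σ + b τ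
      rw [e1, hN σ hσ hcσ, hN τ hτ hcτ, mul2]
      simp
      ring
    · obtain ⟨F, hF, h2⟩ := hlc
      refine ⟨F, hF, fun σ _ hx => ?_⟩
      change (Qi * ρ σ * Q) 0 1 = 0
      rw [h2 σ hx, mul_one, h.inv']
      simp
    · intro σ _ hu
      change (Qi * ρ σ * Q) 0 1 = 0
      rw [hone σ hu, mul_one, h.inv']
      simp
  have h2 := hN σ₁ H.nm.1 (cyc_of_NM H.hζ (H.nm.2 ζ zeta_mem_M1))
  rw [h1] at h2
  have h3 : Qi * ρ σ₁ * Q = 1 := by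
    rw [h2]
    ext i j
    fin_cases i <;> fin_cases j <;> simp
  calc ρ σ₁ = (Q * Qi) * ρ σ₁ * (Q * Qi) := by rw [h.inv, one_mul, mul_one]
    _ = Q * (Qi * ρ σ₁ * Q) * Qi := by simp only [mul_assoc]
    _ = 1 := by rw [h3, mul_one, h.inv]

/-- **Flat strictly ordinary cocycles vanish at the detecting element.** -/
theorem Det.flat_zero (H : Det A p ζ P σ₁) (h1 : ρ σ₁ = 1)
    (hdet : ∀ σ, (ρ σ).det = algebraMap (ZMod p) k (cyc p σ))
    (hlc : ∃ F : IntermediateField ℚ Ω, FiniteDimensional ℚ F ∧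
      ∀ σ : 𝒢, (∀ x ∈ F, σ x = x) → ρ σ = 1) {Q Qi : M2 k} (h : OrdB ρ p A Q Qi)
    {c : A.decompositionSubgroup ℚ → sl k} (hc : c ∈ ordL ρ p A) (hcf : c ∈ flatS ρ p A) :
    c ∈ L0 p ρ σ₁ A := by
  refine ⟨hc, fun hD => ?_⟩
  obtain ⟨-, hA, c', hc', hfl⟩ := hcf
  obtain ⟨n0, f0, hn0, hsh⟩ := ordL_shape hlc h
  obtain ⟨y, hy, γ, hcy⟩ := hsh c hc
  have hσI := H.nm.1
  classical
  let b : 𝒢 → k := fun σ => if hσ : σ ∈ A.decompositionSubgroup ℚ then y ⟨σ, hσ⟩ else 0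
  have hbd : ∀ (σ : 𝒢) (hσ : σ ∈ A.decompositionSubgroup ℚ), b σ = y ⟨σ, hσ⟩ := fun σ hσ => by
    simp only [b]; rw [dif_pos hσ]
  have hact : ∀ σ : 𝒢, (∀ u, actE (endV ρ) (fun σ => Matrix.toLinAlgEquiv' (c' σ)) σ u = u) →
      ρ σ = 1 ∧ c' σ = 0 := by
    intro σ hu
    have e1 : ρ σ = 1 := by
      apply Matrix.toLin'.injective
      refine LinearMap.ext fun u => ?_
      rw [Matrix.toLin'_one]
      exact congrArg Prod.fst (hu (u, 0))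
    refine ⟨e1, ?_⟩
    apply Matrix.toLin'.injective
    refine LinearMap.ext fun u => ?_
    have e2 := congrArg Prod.snd (hu (u, 0))
    rw [actE] at e2
    simp only [map_zero, zero_add] at e2
    have e3 : endV ρ σ u = u := congrArg Prod.fst (hu (u, 0))
    rw [e3] at e2
    rw [map_zero]
    exact e2
  have h2 : b σ₁ = 0 := by
    refine H.zero_of_flat hfl hdet (fun σ _ hu => (hact σ hu).1) (b := b) ?_ ?_ ?_
    · intro σ hσ τ hτ hcσ hcτ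
      have hσD := LC.ine_le_dec A hσ
      have hτD := LC.ine_le_dec A hτ
      have e1 := hy.1 ⟨σ, hσD⟩ ⟨τ, hτD⟩
      rw [hbd σ hσD, hbd τ hτD, hbd (σ * τ) (mul_mem hσD hτD)]
      change y (⟨σ, hσD⟩ * ⟨τ, hτD⟩) = _
      rw [e1]
      change y ⟨σ, hσD⟩ + algebraMap (ZMod p) k (cyc p σ) * y ⟨τ, hτD⟩ = _
      rw [hcσ, map_one, one_mul]
    · obtain ⟨F, hF, h2⟩ := hy.2
      exact ⟨F, hF, fun σ hσ hx => by
        rw [hbd σ (LC.ine_le_dec A hσ)]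
        exact h2 _ hx⟩
    · intro σ hσ hu
      have hσD := LC.ine_le_dec A hσ
      obtain ⟨e1, e2⟩ := hact σ hu
      have e3 := hc' ⟨σ, hσD⟩
      change c' σ = _ at e3
      rw [e2] at e3
      have e4 : c ⟨σ, hσD⟩ = 0 := Subtype.ext e3.symm
      have e5 := hcy ⟨σ, hσD⟩
      rw [e4] at e5
      change 0 = y ⟨σ, hσD⟩ • n0 + γ • (adR ρ σ f0 - f0) at e5
      rw [adR_one' ρ e1, Module.End.one_apply, sub_self, smul_zero, add_zero] at e5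
      rw [hbd σ hσD]
      exact (smul_eq_zero.1 e5.symm).resolve_right hn0
  rw [hbd σ₁ hD] at h2
  rw [hcy, h2, zero_smul, zero_add]
  change γ • (adR ρ σ₁ f0 - f0) = 0
  rw [adR_one' ρ h1, Module.End.one_apply, sub_self, smul_zero]

end Fermat.Agent.ZG
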