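import Fermat.Agent.TWG.TWof
import Fermat.Agent.TWG.Asm
import Fermat.Agent.LC.Unip
import Fermat.Agent.Sel.LocA
import Fermat.Agent.StR.Iface

/-!
# Taylor–Wiles primes and the size of the Selmer group for the modularity lifting theorem
-/

set_option autoImplicit false
set_option linter.unusedSectionVars false
set_option linter.style.haveILetI false

noncomputable section

namespace Fermat.Agent.ZG

open Matrix IsLocalRing Fermat.Agent.GalRep Fermat.Agent.Places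
open Fermat.Agent.Sel Fermat.Agent.StR Fermat.Agent.TWG

local notation "Ω" => AlgebraicClosure ℚ

local notation "𝒢" => (AlgebraicClosure ℚ) ≃ₐ[ℚ] (AlgebraicClosure ℚ)

variable {k : Type} [Field k] {p : ℕ} [hp : Fact p.Prime] [Algebra (ZMod p) k] [Finite k]

theorem exists_lamk : ∃ lam : k →ₗ[ZMod p] ZMod p, lam ≠ 0 := by
  haveI : Module.Finite (ZMod p) k := Module.Finite.of_finite
  by_contra hcon
  push Not at hcon
  have h1 : (1 : k) = 0 := by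
    rw [← Module.forall_dual_apply_eq_zero_iff (ZMod p)]
    intro φ
    rw [hcon φ, LinearMap.zero_apply]
  exact one_ne_zero h1

/-- `B1` has dimension at most two if there are invariants -/
theorem finrank_B1_le_two {ρ : 𝒢 →* M2 k} {D : Subgroup 𝒢} {X : sl k} (hX0 : X ≠ 0)
    (hX : ∀ σ ∈ D, adR ρ σ X = X) : Module.finrank k (B1 (adR ρ) D) ≤ 2 := by
  haveI : FiniteDimensional k (sl k) := by
    apply FiniteDimensional.of_finrank_pos
    rw [finrank_sl]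
    norm_num
  set f : sl k →ₗ[k] (D → sl k) :=
    LinearMap.pi fun σ : D => (adR ρ σ - 1 : Module.End k (sl k)) with hf
  have h1 := LinearMap.finrank_range_add_finrank_ker f
  rw [finrank_sl] at h1
  have h3 : X ∈ LinearMap.ker f := by
    rw [LinearMap.mem_ker]
    funext σ
    change adR ρ (σ : 𝒢) X - X = 0
    rw [hX σ σ.2, sub_self]
  have h2 : Module.finrank k (LinearMap.ker f) ≠ 0 := by
    rw [ne_eq, Submodule.finrank_eq_zero]
    intro h4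
    rw [h4, Submodule.mem_bot] at h3
    exact hX0 h3
  change Module.finrank k (LinearMap.range f) ≤ 2
  omega

variable {ρ : 𝒢 →* M2 k}

/-- the coboundaries at an unramified prime -/
theorem finrank_B1_ur (hlc : ∃ F : IntermediateField ℚ Ω, FiniteDimensional ℚ F ∧
      ∀ σ : 𝒢, (∀ x ∈ F, σ x = x) → ρ σ = 1) (h2 : (2 : k) ≠ 0) {v : ℕ} (hv : v.Prime)
    {A : ValuationSubring Ω} (hA : A.LiesOverPrime v)
    (hI : ∀ σ ∈ A.inertiaSubgroupIn ℚ, ρ σ = 1) :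
    Module.finrank k (B1 (adR ρ) (A.decompositionSubgroup ℚ)) ≤ 2 := by
  obtain ⟨Φ, hΦ⟩ := exists_isFrobeniusAt A hv hA
  by_cases hs : ∃ a : k, ρ Φ = a • (1 : M2 k)
  · obtain ⟨a, ha⟩ := hs
    rw [B1_bot_of_scalar fun σ hσ => scalar_dec hlc hv hA hΦ hI ha hσ, finrank_bot]
    exact Nat.zero_le _
  · -- the trace zero part of Frobenius is invariant
    have hsc : ∀ g ∈ A.decompositionSubgroup ℚ, ρ g * ρ Φ = ρ Φ * ρ g := by
      intro g hg
      obtain ⟨F, hF, h1⟩ := hlc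
      obtain ⟨i, τ, hτ, hi⟩ := exists_dec hv hA hΦ hg F
      have e3 : g = (Φ ^ i * τ) * ((Φ ^ i * τ)⁻¹ * g) := by group
      have e4 : ρ ((Φ ^ i * τ)⁻¹ * g) = 1 := h1 _ fun x hx => by
        rw [AlgEquiv.mul_apply, hi x hx]
        exact (Φ ^ i * τ).symm_apply_apply x
      rw [e3, map_mul, e4, mul_one, map_mul, hI τ hτ, mul_one, map_pow, ← pow_succ, ← pow_succ']
    have htr : (hh (ρ Φ)).trace = 0 := trace_hh _
    refine finrank_B1_le_two (X := ⟨hh (ρ Φ), mem_sl.2 htr⟩) (fun h => hs ?_) fun σ hσ => ?_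
    · have h3 := scalar_of_hh (congrArg Subtype.val h)
      refine ⟨(ρ Φ).trace / 2, ?_⟩
      rw [div_eq_inv_mul, ← smul_smul, ← h3, smul_smul, inv_mul_cancel₀ h2, one_smul]
    · apply Subtype.ext
      rw [coe_adR]
      change ρ σ * hh (ρ Φ) * ρ σ⁻¹ = hh (ρ Φ)
      have h3 : ρ σ * hh (ρ Φ) = hh (ρ Φ) * ρ σ := by
        rw [hh, mul_sub, sub_mul, mul_smul_comm, smul_mul_assoc, hsc σ hσ, mul_smul_comm,
          smul_mul_assoc, mul_one, one_mul]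
      rw [h3, mul_assoc, rho_mul_inv (ρ := ρ), mul_one]

/-- The local conditions. -/
structure NumH (p : ℕ) [hp : Fact p.Prime] [Algebra (ZMod p) k] (ρ : 𝒢 →* M2 k) (S₀ : Finset ℕ)
    {t : ℕ} (q : Fin t → ℕ) (ty : Fin t → Ty) (Un : Finset ℕ) : Prop extends ResH p ρ S₀ where
  conj : ρ complexConjugation = !![1, 0; 0, -1]
  noline : NoLine ρ
  split : ∀ σ, ∃ α β, (ρ σ).trace = α + β ∧ (ρ σ).det = α * β
  inj : Function.Injective q
  hq : ∀ j, q j ∈ S₀ ∧ q j ≠ p ∧ q j ∉ Un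
  hqI : ∀ j, ∀ A : ValuationSubring Ω, A.LiesOverPrime (q j) →
    ∀ σ ∈ A.inertiaSubgroupIn ℚ, ρ σ = 1
  hqs : ∀ j, ty j = Ty.sc → ∀ A : ValuationSubring Ω, A.LiesOverPrime (q j) → ∀ Φ,
    A.IsFrobeniusAt Φ (q j) → ∃ a : k, ρ Φ = a • (1 : M2 k)
  hUn : ∀ v ∈ Un, v ∈ S₀ ∧ v ≠ p ∧ ∀ A : ValuationSubring Ω, A.LiesOverPrime v →
    (∀ σ ∈ A.inertiaSubgroupIn ℚ, (ρ σ - 1) * (ρ σ - 1) = 0) ∧
    ∃ σ ∈ A.inertiaSubgroupIn ℚ, ρ σ ≠ 1
  hax : ∀ v ∈ S₀, v ≠ p → (∀ j, v ≠ q j) → v ∉ Un → ∀ A : ValuationSubring Ω,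
    A.LiesOverPrime v → H0 (adT ρ) (A.decompositionSubgroup ℚ) = ⊥

open scoped Classical in
/-- the local conditions -/
def Lc (p : ℕ) [Fact p.Prime] [Algebra (ZMod p) k] (ρ : 𝒢 →* M2 k)
    (Lp : ∀ A : ValuationSubring Ω, Submodule k (A.decompositionSubgroup ℚ → sl k)) {t : ℕ}
    (q : Fin t → ℕ) (Un : Finset ℕ) (v : ℕ) (A : ValuationSubring Ω) :
    Submodule k (A.decompositionSubgroup ℚ → sl k) :=
  if v = p then Lp A else if ∃ j, q j = v then B1 (adR ρ) _ else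
    if v ∈ Un then LC.unipL ρ A else Z1 (adR ρ) _

section Lc

variable {Lp : ∀ A : ValuationSubring Ω, Submodule k (A.decompositionSubgroup ℚ → sl k)} {t : ℕ}
    {q : Fin t → ℕ} {Un : Finset ℕ} {v : ℕ} {A : ValuationSubring Ω} {S₀ : Finset ℕ}
    {ty : Fin t → Ty}

theorem Lc_p : Lc p ρ Lp q Un p A = Lp A := by rw [Lc, if_pos rfl]

theorem Lc_q (hv : v ≠ p) (h : ∃ j, q j = v) : Lc p ρ Lp q Un v A = B1 (adR ρ) _ := by
  rw [Lc, if_neg hv, if_pos h]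

theorem Lc_un (hv : v ≠ p) (h : ¬ ∃ j, q j = v) (hu : v ∈ Un) :
    Lc p ρ Lp q Un v A = LC.unipL ρ A := by
  rw [Lc, if_neg hv, if_neg h, if_pos hu]

theorem Lc_ax (hv : v ≠ p) (h : ¬ ∃ j, q j = v) (hu : v ∉ Un) :
    Lc p ρ Lp q Un v A = Z1 (adR ρ) _ := by
  rw [Lc, if_neg hv, if_neg h, if_neg hu]

theorem Lc_B1 (h : NumH p ρ S₀ q ty Un)
    (hp1 : ∀ A : ValuationSubring Ω, A.LiesOverPrime p → B1 (adR ρ) _ ≤ Lp A)
    (hA : A.LiesOverPrime v) : B1 (adR ρ) _ ≤ Lc p ρ Lp q Un v A := by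
  by_cases h1 : v = p
  · subst h1
    rw [Lc_p]
    exact hp1 A hA
  by_cases h2 : ∃ j, q j = v
  · rw [Lc_q h1 h2]
  by_cases h3 : v ∈ Un
  · rw [Lc_un h1 h2 h3]
    exact LC.B1_le_unipL ρ h.lc A
  · rw [Lc_ax h1 h2 h3]
    exact B1_le_Z1 ρ h.lc _

theorem Lc_Z1 (h : NumH p ρ S₀ q ty Un)
    (hp1 : ∀ A : ValuationSubring Ω, A.LiesOverPrime p → Lp A ≤ Z1 (adR ρ) _)
    (hA : A.LiesOverPrime v) : Lc p ρ Lp q Un v A ≤ Z1 (adR ρ) _ := by
  by_cases h1 : v = p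
  · subst h1
    rw [Lc_p]
    exact hp1 A hA
  by_cases h2 : ∃ j, q j = v
  · rw [Lc_q h1 h2]
    exact B1_le_Z1 ρ h.lc _
  by_cases h3 : v ∈ Un
  · rw [Lc_un h1 h2 h3]
    exact LC.unipL_le_Z1 ρ A
  · rw [Lc_ax h1 h2 h3]

/-- the local dimensions -/
theorem Lc_dim (hLD : LocDim p) [CharP k p] (h : NumH p ρ S₀ q ty Un) {m : ℕ}
    (hp3 : v = p → Module.finrank k (Lp A) ≤ m)
    (hv : v ∈ S₀) (hA : A.LiesOverPrime v) :
    (Module.finrank k (Lc p ρ Lp q Un v A) : ℤ) - 3 ≤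
      (if v = p then (m : ℤ) - 3 else 0) - ∑ j, (if q j = v then ((ty j).dl : ℤ) else 0) := by
  classical
  have hvp := h.prime v hv
  by_cases h1 : v = p
  · subst h1
    rw [Lc_p, if_pos rfl]
    have h2 : ∑ j, (if q j = v then ((ty j).dl : ℤ) else 0) = 0 :=
      Finset.sum_eq_zero fun j _ => by rw [if_neg (h.hq j).2.1]
    rw [h2]
    have := hp3 rfl
    have h3 : (Module.finrank k (Lp A) : ℤ) ≤ m := by exact_mod_cast this
    linarith
  rw [if_neg h1]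
  by_cases h2 : ∃ j, q j = v
  · rw [Lc_q h1 h2]
    obtain ⟨j, rfl⟩ := h2
    have h3 : ∑ i, (if q i = q j then ((ty i).dl : ℤ) else 0) = (ty j).dl := by
      rw [Finset.sum_eq_single j]
      · rw [if_pos rfl]
      · intro i _ hij
        rw [if_neg fun h4 => hij (h.inj h4)]
      · intro h4
        exact absurd (Finset.mem_univ j) h4
    rw [h3]
    obtain ⟨Φ, hΦ⟩ := exists_isFrobeniusAt A hvp hA
    rcases htj : ty j with _ | _
    · obtain ⟨a, ha⟩ := h.hqs j htj A hA Φ hΦ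
      rw [B1_bot_of_scalar fun σ hσ => scalar_dec h.lc hvp hA hΦ (h.hqI j A hA) ha hσ, finrank_bot]
      simp [Ty.dl]
    · have h4 := finrank_B1_ur h.lc h.two hvp hA (h.hqI j A hA)
      have h5 : (Module.finrank k (B1 (adR ρ) (A.decompositionSubgroup ℚ)) : ℤ) ≤ 2 := by
        exact_mod_cast h4
      simp only [Ty.dl]
      push_cast
      linarith
  have h3 : ∑ j, (if q j = v then ((ty j).dl : ℤ) else 0) = 0 :=
    Finset.sum_eq_zero fun j _ => by rw [if_neg fun h4 => h2 ⟨j, h4⟩]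
  rw [h3, sub_zero]
  by_cases h4 : v ∈ Un
  · rw [Lc_un h1 h2 h4]
    haveI : Fact v.Prime := ⟨hvp⟩
    obtain ⟨h5, h6⟩ := (h.hUn v h4).2.2 A hA
    have h7 := (LC.finrank_unipL_le (p := p) h.two h.lc (Ne.symm h1) hA h5 h6).2
    have h8 : (Module.finrank k (LC.unipL ρ A) : ℤ) ≤ 3 := by exact_mod_cast h7
    linarith
  · rw [Lc_ax h1 h2 h4]
    have h5 := finrank_Z1_le_three hLD h.toResH hvp h1 hA
      (h.hax v hv h1 (fun j hj => h2 ⟨j, hj.symm⟩) h4 A hA)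
    have h8 : (Module.finrank k (Z1 (adR ρ) (A.decompositionSubgroup ℚ)) : ℤ) ≤ 3 := by
      exact_mod_cast h5
    linarith

/-- The data of a set of Taylor–Wiles primes. -/
structure TWn (p : ℕ) [hp : Fact p.Prime] [Algebra (ZMod p) k] (ρ : 𝒢 →* M2 k) (S₀ : Finset ℕ)
    (A₀ : ℕ → ValuationSubring Ω)
    (Lp : ∀ A : ValuationSubring Ω, Submodule k (A.decompositionSubgroup ℚ → sl k))
    {t : ℕ} (q : Fin t → ℕ) (Un : Finset ℕ) (r g n : ℕ) (S' : Set ℕ) where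
  qv : Fin r → ℕ
  A : Fin r → ValuationSubring Ω
  Φ : Fin r → 𝒢
  inj : Function.Injective qv
  notS' : ∀ i, qv i ∉ S'
  notS₀ : ∀ i, qv i ∉ S₀
  tw : ∀ i, TWd p ρ n (qv i) (A i) (Φ i)
  S : Finset ℕ
  Ach : ℕ → ValuationSubring Ω
  mem : ∀ v, v ∈ S ↔ v ∈ S₀ ∨ ∃ i, qv i = v
  lies : ∀ v ∈ S, (Ach v).LiesOverPrime v
  ach0 : ∀ v ∈ S₀, Ach v = A₀ v
  achi : ∀ i, Ach (qv i) = A i
  fd : FiniteDimensional k (SelZ (adR ρ) S (fun v : S => Ach v)
          fun v => Lc p ρ Lp q Un v (Ach v))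
  le : Module.finrank k (SelZ (adR ρ) S (fun v : S => Ach v)
          fun v => Lc p ρ Lp q Un v (Ach v)) ≤ 3 + g

/-- **The Taylor–Wiles primes and the size of the Selmer group.** -/
theorem sel_num (hGW : GWStatement p) (hLP : LocPerpTop p) (hLD : LocDim p) [CharP k p]
    (h : NumH p ρ S₀ q ty Un) {m : ℕ}
    (hp1 : ∀ A : ValuationSubring Ω, A.LiesOverPrime p → B1 (adR ρ) _ ≤ Lp A)
    (hp2 : ∀ A : ValuationSubring Ω, A.LiesOverPrime p → Lp A ≤ Z1 (adR ρ) _)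
    (A₀ : ℕ → ValuationSubring Ω) (hA₀ : ∀ v ∈ S₀, (A₀ v).LiesOverPrime v)
    (hp3 : Module.finrank k (Lp (A₀ p)) ≤ m) :
    ∃ r g : ℕ, g + ∑ j, (ty j).dl + 4 = r + m ∧ ∀ n, 1 ≤ n → ∀ S' : Set ℕ, S'.Finite →
      Nonempty (TWn p ρ S₀ A₀ Lp q Un r g n S') := by
  classical
  obtain ⟨r, hr⟩ := tw_sel hGW hLP hLD h.toResH h.conj (Lc p ρ Lp q Un)
    (fun v _ A hA => Lc_B1 h hp1 hA) (fun v _ A hA => Lc_Z1 h hp2 hA)
    (fun v hv A => Lc_ax (fun h1 => hv (by rw [h1]; exact h.mem))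
      (fun ⟨j, hj⟩ => hv (by rw [← hj]; exact (h.hq j).1)) (fun h1 => hv (h.hUn v h1).1))
    A₀ hA₀ (fun D _ hD hD0 n hn S' hS' => hTW_of h.toResH h.noline h.split D hD hD0 n hn S' hS')
  have hsum : ∑ v ∈ S₀, ((Module.finrank k (Lc p ρ Lp q Un v (A₀ v)) : ℤ) - 3) ≤
      (m : ℤ) - 3 - ∑ j, ((ty j).dl : ℤ) := by
    refine (Finset.sum_le_sum fun v hv => Lc_dim (m := m) hLD h (fun h1 => by rw [h1]; exact hp3) hv (hA₀ v hv)).trans ?_
    rw [Finset.sum_sub_distrib, Finset.sum_ite_eq' S₀ p, if_pos h.mem, Finset.sum_comm]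
    have h1 : ∀ j, ∑ v ∈ S₀, (if q j = v then ((ty j).dl : ℤ) else 0) = (ty j).dl := fun j => by
      rw [Finset.sum_ite_eq S₀ (q j), if_pos (h.hq j).1]
    simp only [h1]
    exact le_rfl
  have key : ∃ g : ℕ, g + ∑ j, (ty j).dl + 4 = r + m := by
    obtain ⟨qv, A, Φ, -, -, T, Ach, hT, hTl, -, -, hfd, hdim⟩ := hr 1 le_rfl ∅ Set.finite_empty
    have hf : Function.Injective (LinearMap.codRestrict (SelZ (adR ρ) T (fun v : T => Ach v)
        fun v => Lc p ρ Lp q Un v (Ach v)) (cobG ρ)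
        (cobG_mem h.toResH (fun v hv => (hT v).2 (Or.inl hv)) _ _ fun v =>
          Lc_B1 h hp1 (hTl v v.2))) := fun x y hxy =>
      cobG_injective h.noline (congrArg Subtype.val hxy)
    haveI := hfd
    have h3 := LinearMap.finrank_le_finrank_of_injective hf
    rw [finrank_sl] at h3
    have h4 : (3 : ℤ) ≤ Module.finrank k (SelZ (adR ρ) T (fun v : T => Ach v)
        fun v => Lc p ρ Lp q Un v (Ach v)) := by exact_mod_cast h3
    have h5 : ((∑ j, (ty j).dl : ℕ) : ℤ) + 4 ≤ r + m := by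
      push_cast
      linarith
    have h6 : ∑ j, (ty j).dl + 4 ≤ r + m := by exact_mod_cast h5
    exact ⟨r + m - (∑ j, (ty j).dl + 4), by omega⟩
  obtain ⟨g, hg⟩ := key
  refine ⟨r, g, hg, fun n hn S' hS' => ?_⟩
  obtain ⟨qv, A, Φ, h1, h2, T, Ach, h3, h4, h5, h6, hfd, hdim⟩ := hr n hn S' hS'
  refine ⟨⟨qv, A, Φ, h1, fun i => (h2 i).1, fun i => (h2 i).2.1, fun i => (h2 i).2.2, T, Ach, h3,
    h4, h5, h6, hfd, ?_⟩⟩
  have h7 : ((g + ∑ j, (ty j).dl + 4 : ℕ) : ℤ) = ((r + m : ℕ) : ℤ) := by rw [hg]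
  push_cast at h7
  have h8 : (Module.finrank k (SelZ (adR ρ) T (fun v : T => Ach v)
      fun v => Lc p ρ Lp q Un v (Ach v)) : ℤ) ≤ 3 + g := by linarith
  exact_mod_cast h8

end Lc

end Fermat.Agent.ZG
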