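import Fermat.Agent.ZG.Loc
import Fermat.Agent.ZG.Num

/-!
# Generators of the maximal ideal of the trace ring
-/

set_option autoImplicit false
set_option linter.unusedSectionVars false
set_option linter.style.haveILetI false

noncomputable section

namespace Fermat.Agent.ZG

open Matrix IsLocalRing Fermat.Agent.GalRep Fermat.Agent.TW Fermat.Agent.Places Fermat.Agent.Flat
open Fermat.Agent.Cheb Fermat.Agent.Sel Fermat.Agent.StR Fermat.Agent.TWG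

local notation "Ω" => AlgebraicClosure ℚ

local notation "𝒢" => (AlgebraicClosure ℚ) ≃ₐ[ℚ] (AlgebraicClosure ℚ)

variable {O T Y : Type} [CommRing O] [IsDomain O] [IsLocalRing O] [IsNoetherianRing O]
  [IsAdicComplete (maximalIdeal O) O] [CommRing T] [Algebra O T] [AddCommGroup Y] [Module O Y]
  [Module.Finite O Y] [Module.Free O Y] [Nontrivial Y] {p : ℕ} [hp : Fact p.Prime]
  {hpO : (p : O) ∈ maximalIdeal O} {S : Set ℕ} {ρb : GQ →* M2 (ResidueField O)}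
  {ψ : T →ₐ[O] Module.End O Y} {θ : T →ₐ[O] ResidueField O} {ρ : GQ →* Module.End O Y}
  (h : HG hpO S (fun g => (ρb g).trace) ψ θ ρ) [Invertible (2 : O)] {g₀ k₀ : GQ}
  (hgk : HG.IrrAt (fun g => (ρb g).trace) g₀ k₀)

omit [IsDomain O] in
/-- **Generators of the maximal ideal of the trace ring**, general form. -/
theorem exists_zG [Finite (ResidueField O)] {ϖ : O} (hmax : maximalIdeal O = Ideal.span {ϖ})
    (hred : redR (h.R hgk) h.theta.toRingHom = ρb)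
    [Algebra (ZMod p) (ResidueField O)] {S₀ Sf : Finset ℕ} (hres : ResH p ρb S₀) (hSS : S₀ ⊆ Sf)
    (hno : NoLine ρb)
    (hunr : ∀ l : ℕ, l.Prime → l ∉ Sf → ∀ A : ValuationSubring Ω, A.LiesOverPrime l →
      ∀ σ ∈ A.inertiaSubgroupIn ℚ, h.R hgk σ = 1)
    {A : Sf → ValuationSubring Ω}
    {L : ∀ v : Sf, Submodule (ResidueField O) ((A v).decompositionSubgroup ℚ → sl (ResidueField O))}
    (hL : ∀ v, B1 (adR ρb) _ ≤ L v)
    [FiniteDimensional (ResidueField O) (SelZ (adR ρb) Sf A L)] {g : ℕ}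
    (hg : Module.finrank (ResidueField O) (SelZ (adR ρb) Sf A L) ≤ 3 + g)
    {I : Ideal h.TT} (hI : maximalIdeal h.TT ^ 2 ≤ I) (hI' : I ≤ maximalIdeal h.TT)
    (hϖI : algebraMap O h.TT ϖ ∈ I)
    (hloc : ∀ (D : h.TT → ResidueField O)
      (hD : IsDer h.theta.toRingHom (Set.range (algebraMap O h.TT)) I D) (v : Sf),
      (fun σ : (A v).decompositionSubgroup ℚ => cS h hgk hD σ) ∈ L v) :
    ∃ z : Fin g → h.TT, (∀ i, z i ∈ maximalIdeal h.TT) ∧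
      maximalIdeal h.TT ≤ Ideal.span (Set.range z) ⊔ I := by
  have hpI : (p : h.TT) ∈ I := by
    obtain ⟨c, hc⟩ := Ideal.mem_span_singleton'.1 (by rw [← hmax]; exact hpO :
      (p : O) ∈ Ideal.span {ϖ})
    rw [← map_natCast (algebraMap O h.TT), ← hc, map_mul]
    exact I.mul_mem_left _ hϖI
  obtain ⟨Λ, hΛ⟩ := exists_functional hno hres hSS A L hL (r := g) (by omega)
  refine exists_gens (h.R hgk) h.theta.toRingHom (ker_theta h) (algebraMap O h.TT).range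
    (exists_O_theta h) I hI hI' (fun a ha h0 => ?_) (fun t => ⟨t, gen_TT h hgk t, by
      rw [sub_self]; exact I.zero_mem⟩) _ Λ (fun D hD => ?_) (fun c hcΛ => ?_)
  · obtain ⟨b, hb, rfl⟩ := theta_O h ha h0
    rw [hmax] at hb
    obtain ⟨b', rfl⟩ := Ideal.mem_span_singleton.1 hb
    rw [map_mul]
    exact I.mul_mem_right _ hϖI
  · have hD' : IsDer h.theta.toRingHom (Set.range (algebraMap O h.TT)) I D := hD
    refine ⟨cS h hgk hD', ⟨fun σ τ => cS_mul h hgk hD' hred σ τ, ?_, fun l hl hlS A' hA' σ hσ => ?_,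
      fun v => hloc D hD' v⟩, ?_⟩
    · obtain ⟨F, hF, h1⟩ := cD_lc h hgk hD' hpI
      exact ⟨F, hF, fun σ hσ => Subtype.ext (h1 σ hσ)⟩
    · apply Subtype.ext
      exact cD_of_one h hgk hD' (hunr l hl hlS A' hA' σ hσ)
    · funext σ
      rfl
  · obtain ⟨X, hX⟩ := hΛ c hcΛ
    refine ⟨X, fun σ => ?_⟩
    rw [hX σ, hred]

/-- The frame and the matrices at the non-minimal primes. -/
structure FrD {t : ℕ} (q : Fin t → ℕ) (ty : Fin t → Ty) (A₀ : ℕ → ValuationSubring Ω)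
    (Φ : Fin t → GQ) (v : Fin t → Fin 2 → O)
    (σ₀ : Fin t → GQ) (Qi : Fin t → Matrix (Fin 2) (Fin 2) h.TT) : Prop where
  hQ : ∀ j, fr (ty j) (v j) (h.R hgk (Φ j)) * Qi j = 1
  hσ : ∀ j, σ₀ j ∈ (A₀ (q j)).inertiaSubgroupIn ℚ
  hgen : ∀ j, ∀ σ ∈ (A₀ (q j)).inertiaSubgroupIn ℚ, ∃ n : ℕ,
      MI (Ideal.span {(p : h.TT) ^ 1}) (h.R hgk σ - h.R hgk (σ₀ j ^ n))

/-- Frobenius in the frame -/
def PhiJ {t : ℕ} (ty : Fin t → Ty) (Φ : Fin t → GQ) (v : Fin t → Fin 2 → O)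
    (Qi : Fin t → Matrix (Fin 2) (Fin 2) h.TT) (j : Fin t) : Matrix (Fin 2) (Fin 2) h.TT :=
  Qi j * h.R hgk (Φ j) * fr (ty j) (v j) (h.R hgk (Φ j))

/-- inertia in the frame -/
def NJ {t : ℕ} (ty : Fin t → Ty) (Φ : Fin t → GQ) (v : Fin t → Fin 2 → O)
    (σ₀ : Fin t → GQ) (Qi : Fin t → Matrix (Fin 2) (Fin 2) h.TT) (j : Fin t) :
    Matrix (Fin 2) (Fin 2) h.TT :=
  Qi j * (h.R hgk (σ₀ j) - 1) * fr (ty j) (v j) (h.R hgk (Φ j))

/-- the hypotheses at the non-minimal primes -/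
structure NmH {t : ℕ} (q : Fin t → ℕ) (ty : Fin t → Ty) (ε : Fin t → ℤ)
    (A₀ : ℕ → ValuationSubring Ω) (Φ : Fin t → GQ) (v : Fin t → Fin 2 → O) : Prop where
  prime : ∀ j, (q j).Prime ∧ q j ≠ p
  lies : ∀ j, (A₀ (q j)).LiesOverPrime (q j)
  frob : ∀ j, (A₀ (q j)).IsFrobeniusAt (Φ j) (q j)
  heps : ∀ j, ε j = 1 ∨ ε j = -1
  hI : ∀ j, ∀ σ ∈ (A₀ (q j)).inertiaSubgroupIn ℚ, ρb σ = 1
  htr : ∀ j, (ρb (Φ j)).trace = ε j * (q j + 1)
  hsc : ∀ j, ty j = Ty.sc → ∃ a : ResidueField O, ρb (Φ j) = a • (1 : M2 (ResidueField O))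
  hv : ∀ j, ty j = Ty.ns → (fr Ty.ns (v j) (ρb (Φ j))).det ≠ 0
  hsq : ∀ j, ∀ σ ∈ (A₀ (q j)).inertiaSubgroupIn ℚ, (h.R hgk σ - 1) * (h.R hgk σ - 1) = 0

section nm

variable {t : ℕ} {q : Fin t → ℕ} {ty : Fin t → Ty} {ε : Fin t → ℤ}
    {A₀ : ℕ → ValuationSubring Ω} {Φ : Fin t → GQ} {v : Fin t → Fin 2 → O}
    {σ₀ : Fin t → GQ} {Qi : Fin t → Matrix (Fin 2) (Fin 2) h.TT}

variable {h hgk}

theorem NmH.exists_frD [Finite (ResidueField O)] (H : NmH h hgk q ty ε A₀ Φ v)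
    (hred : redR (h.R hgk) h.theta.toRingHom = ρb) :
    ∃ σ₀ Qi, FrD h hgk q ty A₀ Φ v σ₀ Qi := by
  have h1 : ∀ j, ∃ Qi, fr (ty j) (v j) (h.R hgk (Φ j)) * Qi = 1 := fun j =>
    exists_frame h hgk hred (ty j) (H.hv j)
  choose Qi hQi using h1
  have h2 : ∀ j, ∃ σ₀ ∈ (A₀ (q j)).inertiaSubgroupIn ℚ, ∀ m, ∀ σ ∈ (A₀ (q j)).inertiaSubgroupIn ℚ,
      ∃ n : ℕ, MI (Ideal.span {(p : h.TT) ^ m}) (h.R hgk σ - h.R hgk (σ₀ ^ n)) := fun j => by
    haveI : Fact (q j).Prime := ⟨(H.prime j).1⟩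
    have hres : ∀ σ ∈ (A₀ (q j)).inertiaSubgroupIn ℚ, MI (maximalIdeal h.TT) (h.R hgk σ - 1) :=
      fun σ hσ => h.R_res hgk fun g => by
        rw [map_mul, H.hI j σ hσ, mul_one]
    exact exists_gen_R (R := h.R hgk) hp.out (Ne.symm (H.prime j).2) h.p_mem (h.R_cont hgk)
      (H.lies j) hres
  choose σ₀ hσ₀ hg using h2
  exact ⟨σ₀, Qi, hQi, hσ₀, fun j σ hσ => hg j 1 σ hσ⟩

theorem NmH.qd (H : NmH h hgk q ty ε A₀ Φ v) (F : FrD h hgk q ty A₀ Φ v σ₀ Qi)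
    (hred : redR (h.R hgk) h.theta.toRingHom = ρb) (h2k : (2 : ResidueField O) ≠ 0) (j : Fin t) :
    QD (ty j) (q j) (ε j) (PhiJ h hgk ty Φ v Qi j) (NJ h hgk ty Φ v σ₀ Qi j) := by
  haveI : Fact (q j).Prime := ⟨(H.prime j).1⟩
  exact qd_of h hgk (Ne.symm (H.prime j).2) (H.lies j) (H.frob j) hred h2k (H.heps j)
    (H.hsq j) (H.hI j) (H.htr j) (H.hsc j) (F.hQ j) (F.hσ j)

theorem NmH.cob [Algebra (ZMod p) (ResidueField O)] (H : NmH h hgk q ty ε A₀ Φ v)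
    (F : FrD h hgk q ty A₀ Φ v σ₀ Qi)
    (hred : redR (h.R hgk) h.theta.toRingHom = ρb) (h2k : (2 : ResidueField O) ≠ 0)
    (hlc : ∃ F : IntermediateField ℚ Ω, FiniteDimensional ℚ F ∧
      ∀ σ : 𝒢, (∀ x ∈ F, σ x = x) → ρb σ = 1)
    {I : Ideal h.TT} {D : h.TT → ResidueField O}
    (hD : IsDer h.theta.toRingHom (Set.range (algebraMap O h.TT)) I D) (hpI : (p : h.TT) ∈ I)
    (hpar : ∀ j, ∀ x ∈ par (ty j) (q j) (ε j) (PhiJ h hgk ty Φ v Qi j) (NJ h hgk ty Φ v σ₀ Qi j),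
      x ∈ I) (j : Fin t) :
    (fun σ : (A₀ (q j)).decompositionSubgroup ℚ => cS h hgk hD σ) ∈
      B1 (adR ρb) ((A₀ (q j)).decompositionSubgroup ℚ) := by
  haveI : Fact (q j).Prime := ⟨(H.prime j).1⟩
  exact cob_of h hgk (Ne.symm (H.prime j).2) (H.lies j) (H.frob j) hred h2k hlc
    (H.hI j) (F.hQ j) (F.hσ j) (F.hgen j) (H.qd F hred h2k j) hD hpI (hpar j)

end nm

/-- the ideal of the known parameters -/
def Ipar {t : ℕ} (ϖ : O) (q : Fin t → ℕ) (ty : Fin t → Ty) (ε : Fin t → ℤ) (Φ : Fin t → GQ)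
    (v : Fin t → Fin 2 → O) (σ₀ : Fin t → GQ) (Qi : Fin t → Matrix (Fin 2) (Fin 2) h.TT)
    (W : Set h.TT) : Ideal h.TT :=
  Ideal.span {algebraMap O h.TT ϖ} ⊔ Ideal.span W ⊔
    Ideal.span {x | ∃ j, x ∈ par (ty j) (q j) (ε j) (PhiJ h hgk ty Φ v Qi j)
      (NJ h hgk ty Φ v σ₀ Qi j)} ⊔ maximalIdeal h.TT ^ 2

section main

variable {t : ℕ} {q : Fin t → ℕ} {ty : Fin t → Ty} {ε : Fin t → ℤ}
    {A₀ : ℕ → ValuationSubring Ω} {Φ : Fin t → GQ} {v : Fin t → Fin 2 → O}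
    {σ₀ : Fin t → GQ} {Qi : Fin t → Matrix (Fin 2) (Fin 2) h.TT} {ϖ : O} {W : Set h.TT}

theorem mem_Ipar_pi : algebraMap O h.TT ϖ ∈ Ipar h hgk ϖ q ty ε Φ v σ₀ Qi W :=
  (le_sup_left.trans (le_sup_left.trans le_sup_left) : Ideal.span {algebraMap O h.TT ϖ} ≤ _)
    (Ideal.mem_span_singleton_self _)

theorem mem_Ipar_W {x : h.TT} (hx : x ∈ W) : x ∈ Ipar h hgk ϖ q ty ε Φ v σ₀ Qi W :=
  (le_sup_right.trans (le_sup_left.trans le_sup_left) : Ideal.span W ≤ _)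
    (Ideal.subset_span hx)

theorem mem_Ipar_par {j : Fin t} {x : h.TT} (hx : x ∈ par (ty j) (q j) (ε j)
    (PhiJ h hgk ty Φ v Qi j) (NJ h hgk ty Φ v σ₀ Qi j)) : x ∈ Ipar h hgk ϖ q ty ε Φ v σ₀ Qi W :=
  (le_sup_right.trans le_sup_left : Ideal.span {x | ∃ j, x ∈ par (ty j) (q j) (ε j)
    (PhiJ h hgk ty Φ v Qi j) (NJ h hgk ty Φ v σ₀ Qi j)} ≤ _)
    (Ideal.subset_span ⟨j, hx⟩)

theorem par_le {A : Type} [CommRing A] [IsLocalRing A] {ty : Ty} {q : ℕ} {ε : ℤ}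
    {Φ N : Matrix (Fin 2) (Fin 2) A} (h : QD ty q ε Φ N) {x : A} (hx : x ∈ par ty q ε Φ N) :
    x ∈ maximalIdeal A := by
  cases ty
  · rcases hx with ⟨a, b, rfl⟩ | ⟨a, b, rfl⟩
    · exact h.hN a b
    · exact h.hΦ rfl a b
  · rcases hx with ⟨a, b, rfl⟩ | hx
    · exact h.hN a b
    · rw [Set.mem_singleton_iff] at hx
      rw [hx]
      exact (h.hτ rfl).1

/-- **The generators of the trace ring at a Taylor–Wiles level.** -/
theorem exists_gen [Finite (ResidueField O)] (hmax : maximalIdeal O = Ideal.span {ϖ})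
    (hred : redR (h.R hgk) h.theta.toRingHom = ρb)
    [Algebra (ZMod p) (ResidueField O)] {S₀ Un Sf : Finset ℕ} (hN : NumH p ρb S₀ q ty Un)
    (hSS : S₀ ⊆ Sf) (H : NmH h hgk q ty ε A₀ Φ v) (F : FrD h hgk q ty A₀ Φ v σ₀ Qi)
    (hunr : ∀ l : ℕ, l.Prime → l ∉ Sf → ∀ A : ValuationSubring Ω, A.LiesOverPrime l →
      ∀ σ ∈ A.inertiaSubgroupIn ℚ, h.R hgk σ = 1)
    (hUn : ∀ l ∈ Un, ∀ σ ∈ (A₀ l).inertiaSubgroupIn ℚ, (h.R hgk σ - 1) * (h.R hgk σ - 1) = 0)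
    {Ach : ℕ → ValuationSubring Ω} (hAch : ∀ v ∈ Sf, (Ach v).LiesOverPrime v)
    (hA0 : ∀ v ∈ S₀, Ach v = A₀ v)
    {Lp : ∀ A : ValuationSubring Ω, Submodule (ResidueField O)
      (A.decompositionSubgroup ℚ → sl (ResidueField O))}
    (hp1 : ∀ A : ValuationSubring Ω, A.LiesOverPrime p → B1 (adR ρb) _ ≤ Lp A)
    [FiniteDimensional (ResidueField O) (SelZ (adR ρb) Sf (fun v : Sf => Ach v)
      fun v => Lc p ρb Lp q Un v (Ach v))] {g : ℕ}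
    (hg : Module.finrank (ResidueField O) (SelZ (adR ρb) Sf (fun v : Sf => Ach v)
      fun v => Lc p ρb Lp q Un v (Ach v)) ≤ 3 + g)
    (hW : ∀ x ∈ W, x ∈ maximalIdeal h.TT)
    (hlp : ∀ (D : h.TT → ResidueField O)
      (hD : IsDer h.theta.toRingHom (Set.range (algebraMap O h.TT))
        (Ipar h hgk ϖ q ty ε Φ v σ₀ Qi W) D),
      (fun σ : (A₀ p).decompositionSubgroup ℚ => cS h hgk hD σ) ∈ Lp (A₀ p)) :
    ∃ z : Fin g → h.TT, (∀ i, z i ∈ maximalIdeal h.TT) ∧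
      maximalIdeal h.TT ≤ Ideal.span (Set.range z) ⊔ Ipar h hgk ϖ q ty ε Φ v σ₀ Qi W := by
  classical
  have h2k := hN.two
  have hpI : (p : h.TT) ∈ Ipar h hgk ϖ q ty ε Φ v σ₀ Qi W := by
    obtain ⟨c, hc⟩ := Ideal.mem_span_singleton'.1 (by rw [← hmax]; exact hpO :
      (p : O) ∈ Ideal.span {ϖ})
    rw [← map_natCast (algebraMap O h.TT), ← hc, map_mul]
    exact Ideal.mul_mem_left _ _ (mem_Ipar_pi h hgk)
  have hIm : Ipar h hgk ϖ q ty ε Φ v σ₀ Qi W ≤ maximalIdeal h.TT := by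
    refine sup_le (sup_le (sup_le ?_ ?_) ?_) (Ideal.pow_le_self (by norm_num))
    · rw [Ideal.span_singleton_le_iff_mem, ← h.theta_eq_zero, AlgHom.commutes]
      change residue O ϖ = 0
      rw [IsLocalRing.residue_eq_zero_iff, hmax]
      exact Ideal.mem_span_singleton_self _
    · exact Ideal.span_le.2 hW
    · refine Ideal.span_le.2 ?_
      rintro x ⟨j, hx⟩
      exact par_le (H.qd F hred h2k j) hx
  refine exists_zG h hgk (ϖ := ϖ) hmax hred hN.toResH hSS hN.noline hunr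
    (A := fun v : Sf => Ach v) (L := fun v => Lc p ρb Lp q Un v (Ach v))
    (fun w => Lc_B1 hN hp1 (hAch w w.2)) hg le_sup_right hIm (mem_Ipar_pi h hgk)
    (fun D hD w => ?_)
  -- the cocycle is in the local condition
  have key : ∀ (B : ValuationSubring Ω), Ach w = B →
      (fun σ : B.decompositionSubgroup ℚ => cS h hgk hD σ) ∈ Lc p ρb Lp q Un w B →
      (fun σ : (Ach w).decompositionSubgroup ℚ => cS h hgk hD σ) ∈
        Lc p ρb Lp q Un w (Ach w) := by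
    rintro B rfl hB
    exact hB
  have hZ : ∀ B : ValuationSubring Ω, (fun σ : B.decompositionSubgroup ℚ => cS h hgk hD σ) ∈
      Z1 (adR ρb) (B.decompositionSubgroup ℚ) := by
    intro B
    refine ⟨fun σ τ => cS_mul h hgk hD hred σ τ, ?_⟩
    obtain ⟨F, hF, h2⟩ := cD_lc h hgk hD hpI
    exact ⟨F, hF, fun σ hσ => Subtype.ext (h2 σ hσ)⟩
  by_cases h1 : (w : ℕ) = p
  · refine key (A₀ p) ?_ ?_
    · rw [h1]
      exact hA0 p hN.mem
    · rw [h1, Lc_p]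
      exact hlp D hD
  by_cases h2 : ∃ j, q j = w
  · obtain ⟨j, hj⟩ := h2
    refine key (A₀ (q j)) ?_ ?_
    · rw [← hj]
      exact hA0 (q j) (hN.hq j).1
    · rw [Lc_q h1 ⟨j, hj⟩]
      exact H.cob F hred h2k hN.lc hD hpI (fun j x hx => mem_Ipar_par h hgk hx) j
  by_cases h3 : (w : ℕ) ∈ Un
  · have hwS := (hN.hUn w h3).1
    refine key (A₀ w) (hA0 w hwS) ?_
    rw [Lc_un h1 h2 h3]
    haveI : Fact (w : ℕ).Prime := ⟨hN.prime w hwS⟩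
    have hl : (A₀ w).LiesOverPrime (w : ℕ) := by
      rw [← hA0 w hwS]
      exact hAch w w.2
    exact unip_of h hgk (q := (w : ℕ)) (Ne.symm h1) hl hred (hUn w h3) hD hpI
  · rw [Lc_ax h1 h2 h3]
    exact hZ _

end main

end Fermat.Agent.ZG
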