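import Fermat.Agent.ZG.Sig
import Fermat.Agent.LC.Ord2
import Fermat.Agent.Sel.LocC

/-!
# The local condition at `p` for a fixed unramified quotient and bounded Kummer classes
-/

set_option autoImplicit false
set_option linter.unusedSectionVars false
set_option linter.style.haveILetI false

noncomputable section

namespace Fermat.Agent.ZG

open Matrix IsLocalRing Fermat.Agent.GalRep Fermat.Agent.Places Fermat.Agent.Flat
open Fermat.Agent.Sel
open Fermat.Agent.LC (OrdB RO Up ordL mul2 cycR)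

local notation "Ω" => AlgebraicClosure ℚ

local notation "𝒢" => (AlgebraicClosure ℚ) ≃ₐ[ℚ] (AlgebraicClosure ℚ)

variable {p : ℕ} [hp : Fact p.Prime]

/-- powers of `ζ` -/
theorem zeta_val_inj {ζ : Ω} (hζ : IsPrimitiveRoot ζ p) {a b : ZMod p}
    (h : ζ ^ a.val = ζ ^ b.val) : a = b := by
  haveI : NeZero p := ⟨hp.out.ne_zero⟩
  exact ZMod.val_injective p (hζ.pow_inj (ZMod.val_lt a) (ZMod.val_lt b) h)

theorem zeta_pow_of_cast {ζ : Ω} (hζ : IsPrimitiveRoot ζ p) {m : ℕ} {a : ZMod p} (h : (m : ZMod p) = a) :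
    ζ ^ m = ζ ^ a.val := by
  rw [← h, zeta_pow_val hζ]

/-- the Kummer cocycle of `p` -/
theorem exists_kum {ζ : Ω} (hζ : IsPrimitiveRoot ζ p) {P : Ω} (hP : P ^ p = p) :
    ∃ κ : 𝒢 → ZMod p, (∀ σ τ, κ (σ * τ) = κ σ + cyc p σ * κ τ) ∧ ∀ σ, κ σ = 0 ↔ σ P = P := by
  haveI : NeZero p := ⟨hp.out.ne_zero⟩
  have hp0 : (p : Ω) ≠ 0 := Nat.cast_ne_zero.2 hp.out.ne_zero
  have hP0 : P ≠ 0 := by
    rintro rfl
    rw [zero_pow hp.out.ne_zero] at hP
    exact hp0 hP.symm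
  have h1 : ∀ σ : 𝒢, ∃ m : ZMod p, σ P = ζ ^ m.val * P := by
    intro σ
    have h2 : (σ P / P) ^ p = 1 := by
      rw [div_pow, ← map_pow, hP, map_natCast, div_self hp0]
    obtain ⟨i, -, hi⟩ := hζ.eq_pow_of_pow_eq_one h2
    refine ⟨(i : ZMod p), ?_⟩
    rw [zeta_pow_val hζ, hi, div_mul_cancel₀ _ hP0]
  choose κ hκ using h1
  refine ⟨κ, fun σ τ => ?_, fun σ => ?_⟩
  · apply zeta_val_inj hζ
    have h2 : (σ * τ) P = ζ ^ (κ σ + cyc p σ * κ τ).val * P := by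
      rw [AlgEquiv.mul_apply, hκ τ, map_mul, map_pow, apply_eq_pow_cyc p σ hζ.pow_eq_one, hκ σ,
        ← pow_mul, ← mul_assoc, ← pow_add]
      congr 1
      apply zeta_pow_of_cast hζ
      push_cast
      rw [ZMod.natCast_zmod_val, ZMod.natCast_zmod_val, ZMod.natCast_zmod_val]
      ring
    rw [hκ] at h2
    exact mul_right_cancel₀ hP0 h2
  · constructor
    · intro h
      rw [hκ, h, ZMod.val_zero, pow_zero, one_mul]
    · intro h
      apply zeta_val_inj hζ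
      rw [hκ] at h
      rw [ZMod.val_zero, pow_zero]
      exact mul_right_cancel₀ hP0 (by rw [one_mul]; exact h)

variable {k : Type} [Field k] [Algebra (ZMod p) k]

/-- cocycles in the cyclotomic line which vanish at `σ₁` -/
def Zs (p : ℕ) [Fact p.Prime] (k : Type) [Field k] [Algebra (ZMod p) k]
    {A : ValuationSubring Ω} (σ₁ : A.decompositionSubgroup ℚ) :
    Submodule k (A.decompositionSubgroup ℚ → k) :=
  Z1 (cycR p k) (A.decompositionSubgroup ℚ) ⊓ LinearMap.ker (LinearMap.proj σ₁ :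
    (A.decompositionSubgroup ℚ → k) →ₗ[k] k)

theorem finrank_Zs [Finite k] (hp2 : p ≠ 2) {A : ValuationSubring Ω} (hA : A.LiesOverPrime p)
    {ζ : Ω} (hζ : IsPrimitiveRoot ζ p) {P : Ω} (hP : P ^ p = p)
    {σ₁ : A.decompositionSubgroup ℚ} (hσ : (σ₁ : 𝒢) P ≠ P) :
    Module.finrank k (Zs p k σ₁) ≤ 2 := by
  obtain ⟨h1, h2⟩ := LC.finrank_Z1_cyc (k := k) hp2 hA
  haveI := h1
  obtain ⟨κ, hκ, hκ0⟩ := exists_kum hζ hP
  set b : A.decompositionSubgroup ℚ → k := fun σ => algebraMap (ZMod p) k (κ (σ : 𝒢)) with hb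
  have hbZ : b ∈ Z1 (cycR p k) (A.decompositionSubgroup ℚ) := by
    refine ⟨fun σ τ => ?_, IntermediateField.adjoin ℚ {P}, ?_, fun σ hx => ?_⟩
    · change algebraMap (ZMod p) k (κ ((σ : 𝒢) * (τ : 𝒢))) = algebraMap (ZMod p) k (κ (σ : 𝒢)) +
        algebraMap (ZMod p) k (cyc p (σ : 𝒢)) * algebraMap (ZMod p) k (κ (τ : 𝒢))
      rw [hκ, map_add, map_mul]
    · exact IntermediateField.adjoin.finiteDimensional (Algebra.IsIntegral.isIntegral P)
    · change algebraMap (ZMod p) k (κ (σ : 𝒢)) = 0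
      rw [(hκ0 _).2 (hx P (IntermediateField.mem_adjoin_simple_self _ _)), map_zero]
  have h3 : Zs p k σ₁ < Z1 (cycR p k) (A.decompositionSubgroup ℚ) := by
    refine lt_of_le_of_ne inf_le_left fun h4 => hσ ?_
    rw [← h4] at hbZ
    have h5 : algebraMap (ZMod p) k (κ (σ₁ : 𝒢)) = 0 := hbZ.2
    rw [← hκ0]
    exact (algebraMap (ZMod p) k).injective (by rw [h5, map_zero])
  have h4 := Submodule.finrank_lt_finrank_of_lt h3
  omega

variable (ρ : 𝒢 →* M2 k) (p)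

/-- **The local condition at `p`.** -/
def L0 (σ₁ : 𝒢) (A : ValuationSubring Ω) : Submodule k (A.decompositionSubgroup ℚ → sl k) where
  carrier := {c | c ∈ ordL ρ p A ∧ ∀ h : σ₁ ∈ A.decompositionSubgroup ℚ, c ⟨σ₁, h⟩ = 0}
  zero_mem' := ⟨Submodule.zero_mem _, fun _ => rfl⟩
  add_mem' := fun {c d} hc hd => ⟨Submodule.add_mem _ hc.1 hd.1, fun h => by
    rw [Pi.add_apply, hc.2 h, hd.2 h, add_zero]⟩
  smul_mem' := fun t c hc => ⟨Submodule.smul_mem _ t hc.1, fun h => by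
    rw [Pi.smul_apply, hc.2 h, smul_zero]⟩

variable {ρ p}

theorem L0_le_Z1 (σ₁ : 𝒢) (A : ValuationSubring Ω) : L0 p ρ σ₁ A ≤ Z1 (adR ρ) _ :=
  fun _ hc => LC.ordL_le_Z1 ρ p A hc.1

theorem B1_le_L0 (hlc : ∃ F : IntermediateField ℚ Ω, FiniteDimensional ℚ F ∧
      ∀ σ : 𝒢, (∀ x ∈ F, σ x = x) → ρ σ = 1) {σ₁ : 𝒢} (h1 : ρ σ₁ = 1)
    (A : ValuationSubring Ω) : B1 (adR ρ) _ ≤ L0 p ρ σ₁ A := by
  intro c hc
  refine ⟨LC.B1_le_ordL ρ p hlc A hc, fun h => ?_⟩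
  obtain ⟨X, rfl⟩ := hc
  change adR ρ σ₁ X - X = 0
  rw [adR_one' ρ h1, Module.End.one_apply, sub_self]

/-- the shape of strictly ordinary cocycles -/
theorem ordL_shape (hlc : ∃ F : IntermediateField ℚ Ω, FiniteDimensional ℚ F ∧
      ∀ σ : 𝒢, (∀ x ∈ F, σ x = x) → ρ σ = 1) {A : ValuationSubring Ω} {Q Qi : M2 k}
    (h : OrdB ρ p A Q Qi) : ∃ (n0 f0 : sl k), n0 ≠ 0 ∧ ∀ c ∈ ordL ρ p A,
      ∃ y ∈ Z1 (cycR p k) (A.decompositionSubgroup ℚ), ∃ γ : k,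
      ∀ σ, c σ = y σ • n0 + γ • (adR ρ (σ : 𝒢) f0 - f0) := by
  have hn : (Q * !![0, 1; 0, 0] * Qi : M2 k).trace = 0 := by
    rw [LC.trace_conj_Q h.inv, Matrix.trace_fin_two]; simp
  have hf : (Q * !![0, 0; 1, 0] * Qi : M2 k).trace = 0 := by
    rw [LC.trace_conj_Q h.inv, Matrix.trace_fin_two]; simp
  set n0 : sl k := ⟨_, mem_sl.2 hn⟩ with hn0
  set f0 : sl k := ⟨_, mem_sl.2 hf⟩ with hf0
  refine ⟨n0, f0, fun h0 => ?_, ?_⟩
  · have e1 : (Q * !![0, 1; 0, 0] * Qi : M2 k) = 0 := congrArg Subtype.val h0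
    have e2 : Qi * (Q * !![0, 1; 0, 0] * Qi : M2 k) * Q = !![0, 1; 0, 0] := by
      calc Qi * (Q * !![0, 1; 0, 0] * Qi) * Q = (Qi * Q) * !![0, 1; 0, 0] * (Qi * Q) := by
            simp only [mul_assoc]
        _ = _ := by rw [h.inv', one_mul, mul_one]
    rw [e1, mul_zero, zero_mul] at e2
    have e3 := congrFun (congrFun e2 0) 1
    simp at e3
  rintro c ⟨hc, hX⟩
  obtain ⟨X, hX⟩ := hX Q Qi h
  set γ : k := (Qi * X * Q) 1 0 with hγ
  have hZ10 : (Qi * ((X : M2 k) - γ • (f0 : M2 k)) * Q) 1 0 = 0 := by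
    have e1 : Qi * (f0 : M2 k) * Q = !![0, 0; 1, 0] := by
      change Qi * (Q * !![0, 0; 1, 0] * Qi) * Q = _
      calc Qi * (Q * !![0, 0; 1, 0] * Qi) * Q = (Qi * Q) * !![0, 0; 1, 0] * (Qi * Q) := by
            simp only [mul_assoc]
        _ = _ := by rw [h.inv', one_mul, mul_one]
    rw [mul_sub, sub_mul, Matrix.sub_apply, mul_smul_comm, smul_mul_assoc, e1, ← hγ]
    simp
  set δ : A.decompositionSubgroup ℚ → sl k := fun σ => adR ρ (σ : 𝒢) f0 - f0 with hδ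
  set d : A.decompositionSubgroup ℚ → sl k := c - γ • δ with hd
  have hdu : ∀ σ, Up Q Qi (d σ : M2 k) := by
    intro σ
    have e1 : (d σ : M2 k) = ((c σ : M2 k) - (ρ (σ : 𝒢) * X * ρ (σ : 𝒢)⁻¹ - X)) +
        (ρ (σ : 𝒢) * ((X : M2 k) - γ • (f0 : M2 k)) * ρ (σ : 𝒢)⁻¹ -
          ((X : M2 k) - γ • (f0 : M2 k))) := by
      change (c σ : M2 k) - γ • (ρ (σ : 𝒢) * (f0 : M2 k) * ρ (σ : 𝒢)⁻¹ - (f0 : M2 k)) = _
      rw [mul_sub, sub_mul, mul_smul_comm, smul_mul_assoc, smul_sub]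
      abel
    rw [e1]
    exact (hX σ).add (h.up_of_upper σ.2 hZ10)
  let y : A.decompositionSubgroup ℚ → k := fun σ => (Qi * (d σ : M2 k) * Q) 0 1
  have hdy : ∀ σ, d σ = y σ • n0 := fun σ => Subtype.ext (LC.eq_of_up h.inv (hdu σ) (sl_trace _))
  have hdcoc : ∀ σ τ, d (σ * τ) = d σ + adR ρ (σ : 𝒢) (d τ) := by
    intro σ τ
    have e1 := hc.1 σ τ
    change c (σ * τ) - γ • (adR ρ ((σ : 𝒢) * (τ : 𝒢)) f0 - f0) =
      c σ - γ • (adR ρ (σ : 𝒢) f0 - f0) + adR ρ (σ : 𝒢) (c τ - γ • (adR ρ (τ : 𝒢) f0 - f0))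
    rw [e1, map_mul, Module.End.mul_apply, map_sub, map_smul, map_sub, smul_sub, smul_sub,
      smul_sub]
    abel
  have hy : y ∈ Z1 (cycR p k) (A.decompositionSubgroup ℚ) := by
    refine ⟨fun σ τ => ?_, ?_⟩
    · change (Qi * (d (σ * τ) : M2 k) * Q) 0 1 = (Qi * (d σ : M2 k) * Q) 0 1 +
        algebraMap (ZMod p) k (cyc p (σ : 𝒢)) * (Qi * (d τ : M2 k) * Q) 0 1
      rw [hdcoc, ← h.act_n σ.2 (hdu τ) (sl_trace _)]
      change (Qi * ((d σ : M2 k) + ρ (σ : 𝒢) * (d τ : M2 k) * ρ (σ : 𝒢)⁻¹) * Q) 0 1 = _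
      rw [mul_add, add_mul, Matrix.add_apply]
    · have hd2 : LC0 (A.decompositionSubgroup ℚ) d := by
        obtain ⟨F, hF, h1⟩ := hc.2
        obtain ⟨F', hF', h2⟩ := hlc
        refine ⟨F ⊔ F', inferInstance, fun σ hσ => ?_⟩
        change c σ - γ • (adR ρ (σ : 𝒢) f0 - f0) = 0
        rw [h1 σ fun x hx => hσ x ((le_sup_left : F ≤ F ⊔ F') hx),
          adR_one' ρ (h2 _ fun x hx => hσ x ((le_sup_right : F' ≤ F ⊔ F') hx)),
          Module.End.one_apply, sub_self, smul_zero, sub_zero]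
      obtain ⟨F, hF, h1⟩ := hd2
      refine ⟨F, hF, fun σ hσ => ?_⟩
      change (Qi * (d σ : M2 k) * Q) 0 1 = 0
      rw [h1 σ hσ]
      simp
  refine ⟨y, hy, γ, fun σ => ?_⟩
  rw [← hdy, hd]
  change c σ = c σ - γ • (adR ρ (σ : 𝒢) f0 - f0) + γ • (adR ρ (σ : 𝒢) f0 - f0)
  rw [sub_add_cancel]

/-- **the dimension** -/
theorem finrank_L0 [Finite k] (hp2 : p ≠ 2)
    (hlc : ∃ F : IntermediateField ℚ Ω, FiniteDimensional ℚ F ∧
      ∀ σ : 𝒢, (∀ x ∈ F, σ x = x) → ρ σ = 1) {A : ValuationSubring Ω} (hA : A.LiesOverPrime p)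
    {Q Qi : M2 k} (h : OrdB ρ p A Q Qi) {ζ : Ω} (hζ : IsPrimitiveRoot ζ p) {P : Ω}
    (hP : P ^ p = p) {σ₁ : 𝒢} (hσ₁ : σ₁ ∈ A.inertiaSubgroupIn ℚ) (hσ : σ₁ P ≠ P)
    (h1 : ρ σ₁ = 1) : Module.finrank k (L0 p ρ σ₁ A) ≤ 3 := by
  obtain ⟨n0, f0, hn0, hsh⟩ := ordL_shape hlc h
  set s : A.decompositionSubgroup ℚ := ⟨σ₁, LC.ine_le_dec A hσ₁⟩ with hs
  have hle : L0 p ρ σ₁ A ≤ (Zs p k s).map (LinearMap.compLeft (LinearMap.toSpanSingleton k (sl k)
      n0) _) ⊔ Submodule.span k {fun σ : A.decompositionSubgroup ℚ => adR ρ (σ : 𝒢) f0 - f0} := by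
    rintro c ⟨hc, hc1⟩
    obtain ⟨y, hy, γ, hcy⟩ := hsh c hc
    have e1 := hc1 (LC.ine_le_dec A hσ₁)
    rw [hcy] at e1
    change y s • n0 + γ • (adR ρ σ₁ f0 - f0) = 0 at e1
    rw [adR_one' ρ h1, Module.End.one_apply, sub_self, smul_zero, add_zero] at e1
    have hy0 : y s = 0 := (smul_eq_zero.1 e1).resolve_right hn0
    have e2 : c = (LinearMap.compLeft (LinearMap.toSpanSingleton k (sl k) n0) _) y +
        γ • (fun σ : A.decompositionSubgroup ℚ => adR ρ (σ : 𝒢) f0 - f0) := by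
      funext σ
      exact hcy σ
    rw [e2]
    exact Submodule.add_mem_sup ⟨y, ⟨hy, hy0⟩, rfl⟩
      (Submodule.smul_mem _ _ (Submodule.mem_span_singleton_self _))
  haveI h2 := (LC.finrank_Z1_cyc (k := k) hp2 hA).1
  haveI : FiniteDimensional k (Zs p k s) := Submodule.finiteDimensional_of_le inf_le_left
  haveI : FiniteDimensional k ((Zs p k s).map (LinearMap.compLeft
    (LinearMap.toSpanSingleton k (sl k) n0) _)) := inferInstance
  refine (Submodule.finrank_mono hle).trans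
    ((Submodule.finrank_add_le_finrank_add_finrank _ _).trans ?_)
  have h3 := Submodule.finrank_map_le (LinearMap.compLeft (LinearMap.toSpanSingleton k (sl k)
      n0) (A.decompositionSubgroup ℚ)) (Zs p k s)
  have h4 : Module.finrank k (Submodule.span k
      {fun σ : A.decompositionSubgroup ℚ => adR ρ (σ : 𝒢) f0 - f0}) ≤ 1 := by
    have := finrank_span_le_card (R := k)
      ({fun σ : A.decompositionSubgroup ℚ => adR ρ (σ : 𝒢) f0 - f0} : Set _)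
    simpa using this
  have h5 := finrank_Zs (k := k) hp2 hA hζ hP (σ₁ := s) hσ
  omega

end Fermat.Agent.ZG
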