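import Fermat.Agent.Sel.QDat
import Fermat.Agent.StR.Iface
import Fermat.Agent.LC.Unip

/-!
# Local data at the primes dividing the level exactly once, and their tangent cocycles
-/

set_option autoImplicit false
set_option linter.unusedSectionVars false
set_option linter.style.haveILetI false

noncomputable section

namespace Fermat.Agent.ZG

open Matrix IsLocalRing Fermat.Agent.GalRep Fermat.Agent.TW Fermat.Agent.Places Fermat.Agent.Flat
open Fermat.Agent.Cheb Fermat.Agent.Sel Fermat.Agent.StR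

local notation "Ω" => AlgebraicClosure ℚ

local notation "𝒢" => (AlgebraicClosure ℚ) ≃ₐ[ℚ] (AlgebraicClosure ℚ)

section mat

variable {A : Type} [CommRing A]

theorem tr_zero_of_unip {X Z : Matrix (Fin 2) (Fin 2) A} (hsq : (X - 1) * (X - 1) = 0)
    (hdet : X.det = 1) (hXZ : X * Z = 1) : (X - 1).trace = 0 := by
  set N := X - 1 with hN
  have h1 := CH N
  rw [hsq] at h1
  have h2 : X.det = 1 + N.trace + N.det := by
    have : X = N + 1 := by rw [hN]; abel
    rw [this, Matrix.det_fin_two, Matrix.det_fin_two, Matrix.trace_fin_two]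
    simp only [Matrix.add_apply, Matrix.one_apply_eq, ne_eq, zero_ne_one, not_false_eq_true,
      Matrix.one_apply_ne, one_ne_zero, add_zero]
    ring
  have h3 : N.det = -N.trace := by rw [hdet] at h2; linear_combination -h2
  rw [h3] at h1
  have h4 : N.trace • X = 0 := by
    have : X = N + 1 := by rw [hN]; abel
    rw [this, smul_add, h1, neg_smul]
    abel
  have h5 : N.trace • (1 : Matrix (Fin 2) (Fin 2) A) = 0 := by
    rw [← hXZ, ← smul_mul_assoc, h4, zero_mul]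
  have h6 := congrFun (congrFun h5 0) 0
  rw [Matrix.smul_apply, Matrix.one_apply_eq, smul_eq_mul, mul_one] at h6
  exact h6

theorem conj_mul_conj {Q Qi X Y : Matrix (Fin 2) (Fin 2) A} (hQ : Q * Qi = 1) :
    (Qi * X * Q) * (Qi * Y * Q) = Qi * (X * Y) * Q := by
  calc (Qi * X * Q) * (Qi * Y * Q) = Qi * X * (Q * Qi) * Y * Q := by simp only [mul_assoc]
    _ = _ := by rw [hQ, mul_one]; simp only [mul_assoc]

theorem det_conj_one {Q Qi X : Matrix (Fin 2) (Fin 2) A} (hQ : Q * Qi = 1) :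
    (Qi * X * Q).det = X.det := by
  rw [Matrix.det_mul, Matrix.det_mul, mul_comm, ← mul_assoc, ← Matrix.det_mul, hQ,
    Matrix.det_one, one_mul]

theorem trace_conj_one {Q Qi X : Matrix (Fin 2) (Fin 2) A} (hQ : Q * Qi = 1) :
    (Qi * X * Q).trace = X.trace := by
  rw [Matrix.trace_mul_comm, ← mul_assoc, hQ, one_mul]

/-- the frame attached to a vector: `Q = (v, X v)` -/
def fr {O : Type} [CommRing O] [Algebra O A] (ty : Ty) (v : Fin 2 → O)
    (X : Matrix (Fin 2) (Fin 2) A) : Matrix (Fin 2) (Fin 2) A :=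
  match ty with
  | Ty.sc => 1
  | Ty.ns => !![algebraMap O A (v 0),
      X 0 0 * algebraMap O A (v 0) + X 0 1 * algebraMap O A (v 1);
      algebraMap O A (v 1), X 1 0 * algebraMap O A (v 0) + X 1 1 * algebraMap O A (v 1)]

theorem fr_map {O A' : Type} [CommRing O] [Algebra O A] [CommRing A'] [Algebra O A']
    (f : A' →ₐ[O] A) (ty : Ty) (v : Fin 2 → O) (X : Matrix (Fin 2) (Fin 2) A') :
    (fr ty v X).map f = fr ty v (X.map f) := by
  cases ty
  · exact map_one (f.toRingHom.mapMatrix : Matrix (Fin 2) (Fin 2) A' →+* _)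
  · ext i j
    fin_cases i <;> fin_cases j <;> simp [fr]

theorem fr_conj {O : Type} [CommRing O] [Algebra O A] {v : Fin 2 → O}
    {X Qi : Matrix (Fin 2) (Fin 2) A} (hQ : fr Ty.ns v X * Qi = 1) :
    Qi * X * fr Ty.ns v X = !![0, -X.det; 1, X.trace] := by
  have h1 : X * fr Ty.ns v X = fr Ty.ns v X * !![0, -X.det; 1, X.trace] := by
    ext i j
    fin_cases i <;> fin_cases j <;>
      simp [fr, Matrix.mul_apply, Fin.sum_univ_two, Matrix.det_fin_two, Matrix.trace_fin_two] <;>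
      ring
  have h2 : Qi * fr Ty.ns v X = 1 := by rw [mul_eq_one_comm]; exact hQ
  rw [mul_assoc, h1, ← mul_assoc, h2, one_mul]

end mat

variable {O T Y : Type} [CommRing O] [IsDomain O] [IsLocalRing O] [IsNoetherianRing O]
  [IsAdicComplete (maximalIdeal O) O] [CommRing T] [Algebra O T] [AddCommGroup Y] [Module O Y]
  [Module.Finite O Y] [Module.Free O Y] [Nontrivial Y] {p : ℕ} [hp : Fact p.Prime]
  {hpO : (p : O) ∈ maximalIdeal O} {S : Set ℕ} {ρb : GQ →* M2 (ResidueField O)}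
  {ψ : T →ₐ[O] Module.End O Y} {θ : T →ₐ[O] ResidueField O} {ρ : GQ →* Module.End O Y}
  (h : HG hpO S (fun g => (ρb g).trace) ψ θ ρ) [Invertible (2 : O)] {g₀ k₀ : GQ}
  (hgk : HG.IrrAt (fun g => (ρb g).trace) g₀ k₀)

/-! ### the frame -/

omit [IsDomain O] in
include hgk in
/-- a vector defining a frame exists; it only depends on the residual representation -/
theorem exists_frame (hred : redR (h.R hgk) h.theta.toRingHom = ρb) (ty : Ty) {Φ : GQ}
    {v : Fin 2 → O} (hv : ty = Ty.ns → (fr Ty.ns v (ρb Φ)).det ≠ 0) :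
    ∃ Qi, fr ty v (h.R hgk Φ) * Qi = 1 := by
  cases ty
  · exact ⟨1, mul_one 1⟩
  · have h1 : IsUnit (fr Ty.ns v (h.R hgk Φ)).det := by
      by_contra hnu
      have h2 : (fr Ty.ns v (h.R hgk Φ)).det ∈ maximalIdeal h.TT :=
        (IsLocalRing.mem_maximalIdeal _).2 hnu
      rw [← h.theta_eq_zero] at h2
      apply hv rfl
      have h3 : ρb Φ = (h.R hgk Φ).map h.theta := (DFunLike.congr_fun hred Φ).symm
      rw [h3, ← fr_map]
      rw [Matrix.det_fin_two] at h2 ⊢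
      rw [map_sub, map_mul, map_mul] at h2
      exact h2
    exact ⟨(fr Ty.ns v (h.R hgk Φ))⁻¹, Matrix.mul_nonsing_inv _ h1⟩

theorem exists_vec {k : Type} [Field k] {O : Type} [CommRing O] [Algebra O k] (X : M2 k)
    (hX : ¬ ∃ a : k, X = a • 1) : ∃ v : Fin 2 → O, (fr (A := k) Ty.ns v X).det ≠ 0 := by
  by_cases h1 : X 1 0 = 0
  · by_cases h2 : X 0 1 = 0
    · refine ⟨![1, 1], fun h3 => hX ⟨X 0 0, ?_⟩⟩
      rw [Matrix.det_fin_two] at h3
      simp [fr, h1, h2] at h3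
      have h4 : X 1 1 = X 0 0 := by linear_combination h3
      ext i j
      fin_cases i <;> fin_cases j <;> simp [h1, h2, h4]
    · refine ⟨![0, 1], fun h3 => h2 ?_⟩
      rw [Matrix.det_fin_two] at h3
      simpa [fr] using h3
  · refine ⟨![1, 0], fun h3 => h1 ?_⟩
    rw [Matrix.det_fin_two] at h3
    simpa [fr] using h3

variable {q : ℕ} [hq : Fact q.Prime] (hpq : p ≠ q) {A : ValuationSubring Ω}
  (hA : A.LiesOverPrime q) {Φ : GQ} (hΦ : A.IsFrobeniusAt Φ q) {ε : ℤ}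

/-- a scalar Frobenius -/
theorem scalar_eq {k : Type} [Field k] (h2 : (2 : k) ≠ 0) {q : ℕ} {ε : ℤ} (hε : ε = 1 ∨ ε = -1)
    {X : M2 k} (hdet : X.det = q) (htr : X.trace = ε * (q + 1)) {a : k} (ha : X = a • 1) :
    X = (ε : k) • 1 := by
  have e1 : a * a = q := by
    rw [← hdet, ha, Matrix.det_fin_two]
    simp
  have e2 : 2 * a = ε * (q + 1) := by
    rw [← htr, ha, Matrix.trace_fin_two]
    simp
    ring
  have e3 : (ε : k) * ε = 1 := by rcases hε with rfl | rfl <;> simp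
  have e4 : ((q : k) - 1) * ((q : k) - 1) = 0 := by
    have e5 : (2 * a) * (2 * a) = 4 * (q : k) := by linear_combination 4 * e1
    rw [e2] at e5
    linear_combination e5 - ((q : k) + 1) ^ 2 * e3
  have e5 : (q : k) = 1 := sub_eq_zero.1 (mul_self_eq_zero.1 e4)
  have e6 : a = ε := by
    apply mul_left_cancel₀ h2
    rw [e2, e5]
    ring
  rw [ha, e6]

include hpq hA hΦ in
omit [IsDomain O] in
/-- **The local data at `q`.** -/
theorem qd_of (hred : redR (h.R hgk) h.theta.toRingHom = ρb) (h2k : (2 : ResidueField O) ≠ 0)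
    (hε : ε = 1 ∨ ε = -1)
    (hsq : ∀ σ ∈ A.inertiaSubgroupIn ℚ, (h.R hgk σ - 1) * (h.R hgk σ - 1) = 0)
    (hI : ∀ σ ∈ A.inertiaSubgroupIn ℚ, ρb σ = 1)
    (htr : (ρb Φ).trace = ε * (q + 1)) {ty : Ty} (hty : ty = Ty.sc → ∃ a : ResidueField O, ρb Φ = a • (1 : M2 (ResidueField O)))
    {v : Fin 2 → O} {Qi : Matrix (Fin 2) (Fin 2) h.TT} (hQ : fr ty v (h.R hgk Φ) * Qi = 1)
    {σ₀ : GQ} (hσ₀ : σ₀ ∈ A.inertiaSubgroupIn ℚ) :
    QD ty q ε (Qi * h.R hgk Φ * fr ty v (h.R hgk Φ))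
      (Qi * (h.R hgk σ₀ - 1) * fr ty v (h.R hgk Φ)) := by
  set Q := fr ty v (h.R hgk Φ) with hQdef
  have hQ' : Qi * Q = 1 := by rw [mul_eq_one_comm]; exact hQ
  have hres : ∀ σ ∈ A.inertiaSubgroupIn ℚ, MI (maximalIdeal h.TT) (h.R hgk σ - 1) :=
    fun σ hσ => h.R_res hgk fun g => by
      rw [map_mul, hI σ hσ, mul_one]
  have hdet : (h.R hgk Φ).det = (q : h.TT) := by
    rw [h.R_det, cycO_frob hpO hq.out (Ne.symm hpq) hA hΦ, map_natCast]
  have hredΦ : ρb Φ = (h.R hgk Φ).map h.theta := (DFunLike.congr_fun hred Φ).symm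
  have hdet' : (ρb Φ).det = (q : ResidueField O) := by
    rw [hredΦ]
    have h1 : ((h.R hgk Φ).map h.theta).det = h.theta (h.R hgk Φ).det := by
      rw [Matrix.det_fin_two, Matrix.det_fin_two, map_sub, map_mul, map_mul]
      rfl
    rw [h1, hdet, map_natCast]
  refine ⟨?_, ?_, ?_, ?_, ?_, ?_, ?_⟩
  · rw [det_conj_one hQ, hdet]
  · rw [trace_conj_one hQ]
    refine tr_zero_of_unip (hsq σ₀ hσ₀) ?_ (Z := h.R hgk σ₀⁻¹) ?_
    · rw [h.R_det, cycO_inertia hpO hq.out (Ne.symm hpq) hA hσ₀, map_one]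
    · rw [← map_mul, mul_inv_cancel, map_one]
  · rw [conj_mul_conj hQ, hsq σ₀ hσ₀, mul_zero, zero_mul]
  · have h1 := frob_rel (R := h.R hgk) hp.out hpq h.p_mem (h.R_cont hgk) hA hres
      (isFr_of_isFrobeniusAt hΦ) hσ₀
    have h2 := pow_unip (hsq σ₀ hσ₀) q
    have h3 : h.R hgk Φ * (h.R hgk σ₀ - 1) = (q : h.TT) • ((h.R hgk σ₀ - 1) * h.R hgk Φ) := by
      rw [← smul_mul_assoc, ← h2, mul_sub, sub_mul, h1, mul_one, one_mul]
    rw [conj_mul_conj hQ, conj_mul_conj hQ, h3, mul_smul_comm, smul_mul_assoc]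
  · intro a b
    exact ((hres σ₀ hσ₀).mul_left Qi).mul_right Q a b
  · intro hsc a b
    obtain ⟨a', ha'⟩ := hty hsc
    have h1 := scalar_eq h2k hε hdet' htr ha'
    have h2 : MI (maximalIdeal h.TT)
        (h.R hgk Φ - (ε : h.TT) • (1 : Matrix (Fin 2) (Fin 2) h.TT)) := by
      intro i j
      rw [← h.theta_eq_zero, Matrix.sub_apply, map_sub, Matrix.smul_apply, smul_eq_mul, map_mul,
        map_intCast, sub_eq_zero]
      have h3 : h.theta (h.R hgk Φ i j) = ρb Φ i j := by rw [hredΦ]; rfl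
      rw [h3, h1, Matrix.smul_apply, smul_eq_mul]
      congr 1
      rw [Matrix.one_apply, Matrix.one_apply]
      split_ifs
      · rw [map_one]
      · rw [map_zero]
    have h3 : Qi * h.R hgk Φ * Q - (ε : h.TT) • (1 : Matrix (Fin 2) (Fin 2) h.TT) =
        Qi * (h.R hgk Φ - (ε : h.TT) • (1 : Matrix (Fin 2) (Fin 2) h.TT)) * Q := by
      rw [mul_sub, sub_mul, mul_smul_comm, mul_one, smul_mul_assoc, hQ']
    rw [h3]
    exact (h2.mul_left Qi).mul_right Q a b
  · intro hns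
    subst hns
    constructor
    · rw [trace_conj_one hQ, ← h.theta_eq_zero, map_sub, map_mul, map_add, map_intCast,
        map_natCast, map_one, sub_eq_zero, ← htr, Matrix.trace_fin_two, map_add, hredΦ,
        Matrix.trace_fin_two]
      rfl
    · rw [trace_conj_one hQ, hQdef, fr_conj hQ, hdet]

/-- change of basis for tangent cocycles -/
theorem cD_conj {G : Type*} [Group G] {T' : Type*} [CommRing T'] {k : Type} [Field k]
    {R : G →* Matrix (Fin 2) (Fin 2) T'} {π : T' →+* k} {OO : Set T'} {I : Ideal T'} {D : T' → k}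
    (hD : IsDer π OO I D) {Q Qi : Matrix (Fin 2) (Fin 2) T'} (hQ : Q * Qi = 1) (σ : G)
    (h0 : (Qi * R σ * Q).map D = 0) :
    cD R π D σ = redR R π σ * (-(Q.map D * Qi.map π)) * redR R π σ⁻¹ -
      (-(Q.map D * Qi.map π)) := by
  have hQ' : Qi * Q = 1 := by rw [mul_eq_one_comm]; exact hQ
  set N := Qi * R σ * Q with hN
  have hmm : ∀ X Y : Matrix (Fin 2) (Fin 2) T', (X * Y).map π = X.map π * Y.map π := fun X Y =>
    map_mul (π.mapMatrix : Matrix (Fin 2) (Fin 2) T' →+* M2 k) X Y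
  have hone : (1 : Matrix (Fin 2) (Fin 2) T').map π = 1 :=
    map_one (π.mapMatrix : Matrix (Fin 2) (Fin 2) T' →+* M2 k)
  have hDone : (1 : Matrix (Fin 2) (Fin 2) T').map D = 0 := by
    ext i j
    rw [Matrix.map_apply, Matrix.one_apply, Matrix.zero_apply]
    split_ifs
    · exact hD.one
    · exact hD.zero
  have hMN : R σ = Q * N * Qi := by
    rw [hN]
    calc R σ = (Q * Qi) * R σ * (Q * Qi) := by rw [hQ, one_mul, mul_one]
      _ = _ := by simp only [mul_assoc]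
  have hρ : redR R π σ = Q.map π * N.map π * Qi.map π := by
    rw [redR_apply, ← hmm, ← hmm, ← hMN]
  have hiq : Qi.map π * Q.map π = 1 := by rw [← hmm, hQ', hone]
  have hqi : Q.map π * Qi.map π = 1 := by rw [← hmm, hQ, hone]
  have hDQ : Qi.map D = -(Qi.map π * (Q.map D * Qi.map π)) := by
    have e1 : (Qi * Q).map D = 0 := by rw [hQ', hDone]
    rw [hD.map_mul_matrix] at e1
    have e2 : Qi.map D * Q.map π = -(Qi.map π * Q.map D) := by
      rw [eq_neg_iff_add_eq_zero, add_comm]; exact e1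
    calc Qi.map D = Qi.map D * Q.map π * Qi.map π := by rw [mul_assoc, hqi, mul_one]
      _ = _ := by rw [e2, neg_mul, mul_assoc]
  have e1 : (R σ).map D = Q.map D * Qi.map π * redR R π σ -
      redR R π σ * (Q.map D * Qi.map π) := by
    conv_lhs => rw [hMN]
    rw [hD.map_mul_matrix, hD.map_mul_matrix, hmm, hDQ, h0, mul_zero, zero_add]
    have e2 : Q.map D * N.map π * Qi.map π = Q.map D * Qi.map π * redR R π σ := by
      rw [hρ]
      calc Q.map D * N.map π * Qi.map π = Q.map D * (Qi.map π * Q.map π) * N.map π * Qi.map π := by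
            rw [hiq, mul_one]
        _ = _ := by simp only [mul_assoc]
    rw [e2, mul_neg]
    have e3 : Q.map π * N.map π * (Qi.map π * (Q.map D * Qi.map π)) =
        redR R π σ * (Q.map D * Qi.map π) := by
      rw [hρ]; simp only [mul_assoc]
    rw [e3]
    abel
  rw [cD, e1, sub_mul, mul_assoc (Q.map D * Qi.map π), redR_mul_inv, mul_one, mul_neg, neg_mul]
  abel

omit [IsDomain O] in
/-- the trace zero part of a matrix -/
theorem exists_sl {k : Type} [Field k] (h2k : (2 : k) ≠ 0) (Y : M2 k) {g gi : M2 k}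
    (hg : g * gi = 1) : ∃ X : sl k, ∀ g gi : M2 k, g * gi = 1 →
      g * (X : M2 k) * gi - X = g * Y * gi - Y := by
  have htr : (Y - (Y.trace / 2) • (1 : M2 k)).trace = 0 := by
    rw [Matrix.trace_sub, Matrix.trace_smul, Matrix.trace_one, Fintype.card_fin]
    simp only [smul_eq_mul, Nat.cast_ofNat]
    field_simp
    ring
  refine ⟨⟨_, mem_sl.2 htr⟩, fun g gi hg => ?_⟩
  change g * (Y - (Y.trace / 2) • (1 : M2 k)) * gi - (Y - (Y.trace / 2) • (1 : M2 k)) = _
  rw [mul_sub, sub_mul, mul_smul_comm, mul_one, smul_mul_assoc, hg]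
  abel

include hpq hA hΦ in
omit [IsDomain O] in
/-- **Derivations killing the local parameters have locally trivial cocycles.** -/
theorem cob_of (hred : redR (h.R hgk) h.theta.toRingHom = ρb) (h2k : (2 : ResidueField O) ≠ 0)
    (hlc : ∃ F : IntermediateField ℚ Ω, FiniteDimensional ℚ F ∧
      ∀ σ : 𝒢, (∀ x ∈ F, σ x = x) → ρb σ = 1)
    (hI : ∀ σ ∈ A.inertiaSubgroupIn ℚ, ρb σ = 1) {ty : Ty}
    {v : Fin 2 → O} {Qi : Matrix (Fin 2) (Fin 2) h.TT} (hQ : fr ty v (h.R hgk Φ) * Qi = 1)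
    {σ₀ : GQ} (hσ₀ : σ₀ ∈ A.inertiaSubgroupIn ℚ)
    (hgen : ∀ σ ∈ A.inertiaSubgroupIn ℚ, ∃ n : ℕ,
      MI (Ideal.span {(p : h.TT) ^ 1}) (h.R hgk σ - h.R hgk (σ₀ ^ n)))
    (hqd : QD ty q ε (Qi * h.R hgk Φ * fr ty v (h.R hgk Φ))
      (Qi * (h.R hgk σ₀ - 1) * fr ty v (h.R hgk Φ)))
    {I : Ideal h.TT} {D : h.TT → ResidueField O}
    (hD : IsDer h.theta.toRingHom (Set.range (algebraMap O h.TT)) I D) (hpI : (p : h.TT) ∈ I)
    (hpar : ∀ x ∈ par ty q ε (Qi * h.R hgk Φ * fr ty v (h.R hgk Φ))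
      (Qi * (h.R hgk σ₀ - 1) * fr ty v (h.R hgk Φ)), x ∈ I) :
    (fun σ : A.decompositionSubgroup ℚ => cS h hgk hD σ) ∈
      B1 (adR ρb) (A.decompositionSubgroup ℚ) := by
  set Q := fr ty v (h.R hgk Φ) with hQdef
  have hQ' : Qi * Q = 1 := by rw [mul_eq_one_comm]; exact hQ
  have hint : ∀ n : ℤ, D (n : h.TT) = 0 := fun n => hD.zeroO _ ⟨(n : O), map_intCast _ n⟩
  have hnat : ∀ n : ℕ, D (n : h.TT) = 0 := fun n => hD.zeroO _ ⟨(n : O), map_natCast _ n⟩
  -- the derivative vanishes at the two generators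
  have hN : (Qi * (h.R hgk σ₀ - 1) * Q).map D = 0 := by
    ext a b
    rw [Matrix.map_apply, Matrix.zero_apply]
    refine hD.zeroI _ (hpar _ ?_)
    cases ty
    · exact Or.inl ⟨a, b, rfl⟩
    · exact Or.inl ⟨a, b, rfl⟩
  have h1 : (Qi * h.R hgk σ₀ * Q).map D = 0 := by
    have e1 : Qi * h.R hgk σ₀ * Q = Qi * (h.R hgk σ₀ - 1) * Q + 1 := by
      rw [mul_sub, sub_mul, mul_one, hQ', sub_add_cancel]
    ext a b
    have e2 := congrFun (congrFun hN a) b
    rw [Matrix.map_apply, Matrix.zero_apply] at e2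
    have e3 := congrFun (congrFun (map_D_one h hD) a) b
    rw [Matrix.map_apply, Matrix.zero_apply] at e3
    rw [Matrix.map_apply, e1, Matrix.add_apply, hD.add, e2, e3, add_zero, Matrix.zero_apply]
  have h2 : (Qi * h.R hgk Φ * Q).map D = 0 := by
    cases ty
    · ext a b
      have e2 : D ((Qi * h.R hgk Φ * Q - (ε : h.TT) • (1 : Matrix (Fin 2) (Fin 2) h.TT)) a b) = 0 :=
        hD.zeroI _ (hpar _ (Or.inr ⟨a, b, rfl⟩))
      have e3 : (Qi * h.R hgk Φ * Q) a b = (Qi * h.R hgk Φ * Q - (ε : h.TT) •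
          (1 : Matrix (Fin 2) (Fin 2) h.TT)) a b + (ε : h.TT) *
          (1 : Matrix (Fin 2) (Fin 2) h.TT) a b := by
        rw [Matrix.sub_apply, Matrix.smul_apply, smul_eq_mul, sub_add_cancel]
      rw [Matrix.map_apply, e3, hD.add, e2, zero_add, Matrix.zero_apply, Matrix.one_apply]
      split_ifs
      · rw [mul_one]; exact hint ε
      · rw [mul_zero]; exact hD.zero
    · obtain ⟨-, e1⟩ := hqd.hτ rfl
      have e2 : D ((Qi * h.R hgk Φ * Q).trace - ε * (q + 1)) = 0 :=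
        hD.zeroI _ (hpar _ (Or.inr rfl))
      have e3 : D (Qi * h.R hgk Φ * Q).trace = 0 := by
        have e4 := hD.add ((Qi * h.R hgk Φ * Q).trace - ε * (q + 1)) (ε * (q + 1))
        rw [sub_add_cancel, e2, zero_add] at e4
        rw [e4]
        have e5 : (ε : h.TT) * (q + 1) = ((ε * (q + 1) : ℤ) : h.TT) := by push_cast; rfl
        rw [e5]
        exact hint _
      rw [e1]
      ext a b
      fin_cases a <;> fin_cases b
      · exact hD.zero
      · change D (-(q : h.TT)) = 0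
        rw [hD.neg, hnat, neg_zero]
      · exact hD.one
      · exact e3
  have c1 := cD_conj (R := h.R hgk) hD hQ σ₀ h1
  have c2 := cD_conj (R := h.R hgk) hD hQ Φ h2
  rw [hred] at c1 c2
  obtain ⟨X, hX⟩ := exists_sl h2k (-(Q.map D * Qi.map h.theta.toRingHom)) (g := (1 : M2 _))
    (gi := 1) (mul_one 1)
  have hΦD : Φ ∈ A.decompositionSubgroup ℚ := hΦ.mem_decompositionSubgroup
  set c : A.decompositionSubgroup ℚ → sl (ResidueField O) := fun σ => cS h hgk hD σ with hc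
  set δ : A.decompositionSubgroup ℚ → sl (ResidueField O) := fun σ => adR ρb (σ : 𝒢) X - X with hδ
  have hδB : δ ∈ B1 (adR ρb) (A.decompositionSubgroup ℚ) := LC.B1_mem _ _ _
  have hcZ : c ∈ Z1 (adR ρb) (A.decompositionSubgroup ℚ) := by
    refine ⟨fun σ τ => cS_mul h hgk hD hred σ τ, ?_⟩
    obtain ⟨F, hF, h2⟩ := cD_lc h hgk hD hpI
    exact ⟨F, hF, fun σ hσ => Subtype.ext (h2 σ hσ)⟩
  have hcd : c - δ ∈ Z1 (adR ρb) (A.decompositionSubgroup ℚ) :=
    Submodule.sub_mem _ hcZ (B1_le_Z1 ρb hlc _ hδB)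
  have hz : ∀ (σ : 𝒢) (hσ : σ ∈ A.decompositionSubgroup ℚ),
      cD (h.R hgk) h.theta.toRingHom D σ = ρb σ * (-(Q.map D * Qi.map h.theta.toRingHom)) * ρb σ⁻¹ -
      (-(Q.map D * Qi.map h.theta.toRingHom)) → (c - δ) ⟨σ, hσ⟩ = 0 := by
    intro σ hσ he
    apply Subtype.ext
    change cD (h.R hgk) h.theta.toRingHom D σ -
      (ρb σ * (X : M2 (ResidueField O)) * ρb σ⁻¹ - (X : M2 (ResidueField O))) = 0
    rw [he, hX _ _ (Sel.rho_mul_inv (ρ := ρb) σ), sub_self]
  have z1 := hz σ₀ (LC.ine_le_dec A hσ₀) c1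
  have z2 := hz Φ hΦD c2
  have hur : c - δ ∈ CFT.urZ (adR ρb) A := by
    refine ⟨hcd, fun σ hσ => ?_⟩
    obtain ⟨n, hn⟩ := hgen σ hσ
    have e1 : c σ = c (⟨σ₀, LC.ine_le_dec A hσ₀⟩ ^ n) := by
      apply Subtype.ext
      refine cD_congr h hgk hD hpI fun i j => ?_
      have := hn i j
      rwa [pow_one] at this
    have e2 : ∀ τ : A.decompositionSubgroup ℚ, (τ : 𝒢) ∈ A.inertiaSubgroupIn ℚ → δ τ = 0 := by
      intro τ hτ
      change adR ρb (τ : 𝒢) X - X = 0
      rw [adR_one' ρb (hI _ hτ), Module.End.one_apply, sub_self]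
    have e3 := LC.Z1_pow_zero hcd _ z1 n
    rw [Pi.sub_apply, e2 (⟨σ₀, LC.ine_le_dec A hσ₀⟩ ^ n) (pow_mem hσ₀ n), sub_zero] at e3
    rw [Pi.sub_apply, e1, e3, e2 σ hσ, sub_zero]
  have hfin : c - δ = 0 := by
    obtain ⟨P, rfl⟩ : ∃ P : CFT.Pl, P.v = A := ⟨⟨A, q, hq.out, hA⟩, rfl⟩
    have hell : P.ell = q := P.ell_unique hq.out hA
    have hfr : CFT.IsFr P Φ := CFT.isFr_of (by rw [hell]; exact hΦ)
    exact CFT.urZ_eq_zero hfr hur z2
  rw [show c = δ from sub_eq_zero.1 hfin]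
  exact hδB

include hA hpq in
omit [IsDomain O] in
/-- the unipotent condition for tangent cocycles -/
theorem unip_of (hred : redR (h.R hgk) h.theta.toRingHom = ρb)
    (hsq : ∀ σ ∈ A.inertiaSubgroupIn ℚ, (h.R hgk σ - 1) * (h.R hgk σ - 1) = 0)
    {I : Ideal h.TT} {D : h.TT → ResidueField O}
    (hD : IsDer h.theta.toRingHom (Set.range (algebraMap O h.TT)) I D) (hpI : (p : h.TT) ∈ I) :
    (fun σ : A.decompositionSubgroup ℚ => cS h hgk hD σ) ∈ LC.unipL ρb A := by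
  refine ⟨⟨fun σ τ => cS_mul h hgk hD hred σ τ, ?_⟩, fun σ hσ => ?_⟩
  · obtain ⟨F, hF, h2⟩ := cD_lc h hgk hD hpI
    exact ⟨F, hF, fun σ hσ => Subtype.ext (h2 σ hσ)⟩
  · have h1 := tr_zero_of_unip (hsq σ hσ) (by
      rw [h.R_det, cycO_inertia hpO hq.out (Ne.symm hpq) hA hσ, map_one]) (Z := h.R hgk (σ : 𝒢)⁻¹) (by
      rw [← map_mul, mul_inv_cancel, map_one])
    change (cD (h.R hgk) h.theta.toRingHom D (σ : 𝒢) * ρb (σ : 𝒢)).trace = 0
    have h3 : cD (h.R hgk) h.theta.toRingHom D (σ : 𝒢) * ρb (σ : 𝒢) = (h.R hgk (σ : 𝒢)).map D := by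
      rw [cD, hred, mul_assoc, Sel.rho_inv_mul, mul_one]
    rw [h3, Matrix.trace_fin_two, Matrix.map_apply, Matrix.map_apply, ← hD.add,
      ← Matrix.trace_fin_two]
    rw [Matrix.trace_sub, Matrix.trace_one, Fintype.card_fin, sub_eq_zero] at h1
    rw [h1]
    exact hD.zeroO _ ⟨(2 : ℕ), map_natCast _ 2⟩

end Fermat.Agent.ZG
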