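import Fermat.Agent.ZG.P

/-!
# Tangent cocycles at `p`, ordinary case
-/

set_option autoImplicit false
set_option linter.unusedSectionVars false
set_option linter.style.haveILetI false

noncomputable section

namespace Fermat.Agent.ZG

open Matrix IsLocalRing Fermat.Agent.GalRep Fermat.Agent.TW Fermat.Agent.Places Fermat.Agent.Flat
open Fermat.Agent.Cheb Fermat.Agent.Sel Fermat.Agent.StR Fermat.Agent.TWG
open Fermat.Agent.LC (OrdB RO Up ordL mul2)
open scoped Pointwise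

local notation "Ω" => AlgebraicClosure ℚ

local notation "𝒢" => (AlgebraicClosure ℚ) ≃ₐ[ℚ] (AlgebraicClosure ℚ)

/-- change of basis for tangent cocycles -/
theorem cD_conj' {G : Type*} [Group G] {T' : Type*} [CommRing T'] {k : Type} [Field k]
    {R : G →* Matrix (Fin 2) (Fin 2) T'} {π : T' →+* k} {OO : Set T'} {I : Ideal T'} {D : T' → k}
    (hD : IsDer π OO I D) {Q Qi : Matrix (Fin 2) (Fin 2) T'} (hQ : Q * Qi = 1) (σ : G) :
    cD R π D σ = Q.map π * (Qi * R σ * Q).map D * Qi.map π * redR R π σ⁻¹ +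
      (Q.map D * Qi.map π - redR R π σ * (Q.map D * Qi.map π) * redR R π σ⁻¹) := by
  have hQ' : Qi * Q = 1 := by rw [mul_eq_one_comm]; exact hQ
  set N := Qi * R σ * Q with hN
  have hmm : ∀ X Y : Matrix (Fin 2) (Fin 2) T', (X * Y).map π = X.map π * Y.map π := fun X Y =>
    map_mul (π.mapMatrix : Matrix (Fin 2) (Fin 2) T' →+* M2 k) X Y
  have hone : (1 : Matrix (Fin 2) (Fin 2) T').map π = 1 :=
    map_one (π.mapMatrix : Matrix (Fin 2) (Fin 2) T' →+* M2 k)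
  have hDone : (1 : Matrix (Fin 2) (Fin 2) T').map D = 0 := by
    ext i j
    rw [Matrix.map_apply, Matrix.one_apply, Matrix.zero_apply]
    split_ifs
    · exact hD.one
    · exact hD.zero
  have hMN : R σ = Q * N * Qi := by
    rw [hN]
    calc R σ = (Q * Qi) * R σ * (Q * Qi) := by rw [hQ, one_mul, mul_one]
      _ = _ := by simp only [mul_assoc]
  have hρ : redR R π σ = Q.map π * N.map π * Qi.map π := by
    rw [redR_apply, ← hmm, ← hmm, ← hMN]
  have hiq : Qi.map π * Q.map π = 1 := by rw [← hmm, hQ', hone]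
  have hqi : Q.map π * Qi.map π = 1 := by rw [← hmm, hQ, hone]
  have hDQ : Qi.map D = -(Qi.map π * (Q.map D * Qi.map π)) := by
    have e1 : (Qi * Q).map D = 0 := by rw [hQ', hDone]
    rw [hD.map_mul_matrix] at e1
    have e2 : Qi.map D * Q.map π = -(Qi.map π * Q.map D) := by
      rw [eq_neg_iff_add_eq_zero, add_comm]; exact e1
    calc Qi.map D = Qi.map D * Q.map π * Qi.map π := by rw [mul_assoc, hqi, mul_one]
      _ = _ := by rw [e2, neg_mul, mul_assoc]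
  have e1 : (R σ).map D = Q.map π * N.map D * Qi.map π + Q.map D * Qi.map π * redR R π σ -
      redR R π σ * (Q.map D * Qi.map π) := by
    conv_lhs => rw [hMN]
    rw [hD.map_mul_matrix, hD.map_mul_matrix, hmm, hDQ]
    have e2 : Q.map D * N.map π * Qi.map π = Q.map D * Qi.map π * redR R π σ := by
      rw [hρ]
      calc Q.map D * N.map π * Qi.map π = Q.map D * (Qi.map π * Q.map π) * N.map π * Qi.map π := by
            rw [hiq, mul_one]
        _ = _ := by simp only [mul_assoc]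
    have e3 : Q.map π * N.map π * (Qi.map π * (Q.map D * Qi.map π)) =
        redR R π σ * (Q.map D * Qi.map π) := by
      rw [hρ]; simp only [mul_assoc]
    rw [add_mul, e2, mul_neg, e3]
    abel
  rw [cD, e1, sub_mul, add_mul, mul_assoc (Q.map D * Qi.map π), redR_mul_inv, mul_one]
  abel

/-- a residual adapted basis at one place gives adapted bases at all places -/
theorem RO_of {k : Type} [Field k] {ρ : 𝒢 →* M2 k} {p : ℕ} [hp : Fact p.Prime]
    [Algebra (ZMod p) k] {A : ValuationSubring Ω} (hA : A.LiesOverPrime p) {Q Qi : M2 k}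
    (h : OrdB ρ p A Q Qi) : RO ρ p := by
  intro B hB
  obtain ⟨g, rfl⟩ := Places.exists_smul_eq_of_liesOverPrime hp.out A B hA hB
  have hcomp : ∀ σ : 𝒢, Qi * ρ g⁻¹ * ρ σ * (ρ g * Q) = Qi * ρ (g⁻¹ * σ * g) * Q := fun σ => by
    rw [map_mul, map_mul]; simp only [mul_assoc]
  have hdec : ∀ σ ∈ (g • A).decompositionSubgroup ℚ, g⁻¹ * σ * g ∈ A.decompositionSubgroup ℚ := by
    intro σ hσ
    have h1 : σ • (g • A) = g • A := hσ
    change (g⁻¹ * σ * g) • A = A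
    rw [mul_smul, mul_smul, h1, inv_smul_smul]
  have hcyc : ∀ σ : 𝒢, cyc p (g⁻¹ * σ * g) = cyc p σ := fun σ => by
    rw [map_mul, map_mul, mul_comm (cyc p g⁻¹), mul_assoc, ← map_mul, inv_mul_cancel, map_one,
      mul_one]
  refine ⟨ρ g * Q, Qi * ρ g⁻¹, ?_, fun σ hσ => ?_, fun σ hσ => ?_, fun σ hσ => ?_⟩
  · calc ρ g * Q * (Qi * ρ g⁻¹) = ρ g * (Q * Qi) * ρ g⁻¹ := by simp only [mul_assoc]
      _ = 1 := by rw [h.inv, mul_one, Sel.rho_mul_inv (ρ := ρ)]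
  · rw [hcomp]
    exact h.low _ (hdec σ hσ)
  · rw [hcomp]
    exact h.ine _ (conj_inertia hσ)
  · rw [hcomp, h.diag _ (hdec σ hσ), hcyc]

variable {O T Y : Type} [CommRing O] [IsDomain O] [IsLocalRing O] [IsNoetherianRing O]
  [IsAdicComplete (maximalIdeal O) O] [CommRing T] [Algebra O T] [AddCommGroup Y] [Module O Y]
  [Module.Finite O Y] [Module.Free O Y] [Nontrivial Y] {p : ℕ} [hp : Fact p.Prime]
  {hpO : (p : O) ∈ maximalIdeal O} {S : Set ℕ} {ρb : GQ →* M2 (ResidueField O)}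
  {ψ : T →ₐ[O] Module.End O Y} {θ : T →ₐ[O] ResidueField O} {ρ : GQ →* Module.End O Y}
  {h : HG hpO S (fun g => (ρb g).trace) ψ θ ρ} [Invertible (2 : O)] {g₀ k₀ : GQ}
  {hgk : HG.IrrAt (fun g => (ρb g).trace) g₀ k₀}

namespace OrdR

variable {A : ValuationSubring Ω} {Q Qi : Matrix (Fin 2) (Fin 2) h.TT}

omit [IsDomain O]

theorem inv' (H : OrdR h hgk A Q Qi) : Qi * Q = 1 := by rw [mul_eq_one_comm]; exact H.inv

theorem mul11 (H : OrdR h hgk A Q Qi) {σ τ : 𝒢} (hσ : σ ∈ A.decompositionSubgroup ℚ) :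
    (Qi * h.R hgk (σ * τ) * Q) 1 1 = (Qi * h.R hgk σ * Q) 1 1 * (Qi * h.R hgk τ * Q) 1 1 := by
  rw [map_mul, ← conj_mul_conj H.inv, Matrix.mul_apply, Fin.sum_univ_two, H.low σ hσ, zero_mul,
    zero_add]

theorem pow11 (H : OrdR h hgk A Q Qi) {σ : 𝒢} (hσ : σ ∈ A.decompositionSubgroup ℚ) (i : ℕ) :
    (Qi * h.R hgk (σ ^ i) * Q) 1 1 = (Qi * h.R hgk σ * Q) 1 1 ^ i := by
  induction i with
  | zero => rw [pow_zero, map_one, mul_one, H.inv', pow_zero, Matrix.one_apply_eq]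
  | succ i ih => rw [pow_succ, H.mul11 (pow_mem hσ i), ih, pow_succ]

/-- the quotient character is determined by Frobenius modulo `p` -/
theorem exists_pow (H : OrdR h hgk A Q Qi) (hA : A.LiesOverPrime p) {Φ : 𝒢}
    (hΦ : A.IsFrobeniusAt Φ p) {g : 𝒢} (hg : g ∈ A.decompositionSubgroup ℚ) :
    ∃ i : ℕ, (Qi * h.R hgk g * Q) 1 1 - (Qi * h.R hgk Φ * Q) 1 1 ^ i ∈
      Ideal.span {(p : h.TT)} := by
  obtain ⟨F, hF, h1⟩ := h.R_cont hgk 1
  obtain ⟨i, τ, hτ, hi⟩ := exists_dec hp.out hA hΦ hg F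
  have hΦD : Φ ∈ A.decompositionSubgroup ℚ := hΦ.mem_decompositionSubgroup
  have hτD := LC.ine_le_dec A hτ
  refine ⟨i, ?_⟩
  have e3 : g = (Φ ^ i * τ) * ((Φ ^ i * τ)⁻¹ * g) := by group
  have e4 := h1 ((Φ ^ i * τ)⁻¹ * g) fun x hx => by
    rw [AlgEquiv.mul_apply, hi x hx]
    exact (Φ ^ i * τ).symm_apply_apply x
  have e5 : (Qi * h.R hgk (Φ ^ i * τ) * Q) 1 1 = (Qi * h.R hgk Φ * Q) 1 1 ^ i := by
    rw [H.mul11 (pow_mem hΦD i), H.ine τ hτ, mul_one, H.pow11 hΦD]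
  have e6 : (Qi * h.R hgk g * Q) = (Qi * h.R hgk (Φ ^ i * τ) * Q) +
      (Qi * (h.R hgk (Φ ^ i * τ) * (h.R hgk ((Φ ^ i * τ)⁻¹ * g) - 1)) * Q) := by
    conv_lhs => rw [e3, map_mul]
    rw [mul_sub, mul_one, mul_sub, sub_mul, add_sub_cancel]
  have e7 : MI (Ideal.span {(p : h.TT)}) (h.R hgk ((Φ ^ i * τ)⁻¹ * g) - 1) := by
    intro a b
    have := e4 a b
    rw [pow_one] at this
    exact this
  rw [e6, Matrix.add_apply, e5, add_sub_cancel_left]
  exact ((e7.mul_left _).mul_left Qi).mul_right Q 1 1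

theorem theta11_ne (H : OrdR h hgk A Q Qi) {g : 𝒢} (hg : g ∈ A.decompositionSubgroup ℚ) :
    h.theta ((Qi * h.R hgk g * Q) 1 1) ≠ 0 := by
  have h1 := H.mul11 (τ := g⁻¹) hg
  rw [mul_inv_cancel, map_one, mul_one, H.inv', Matrix.one_apply_eq] at h1
  intro h0
  have h2 := congrArg h.theta h1
  rw [map_one, map_mul, h0, zero_mul] at h2
  exact one_ne_zero h2

theorem det_eq (H : OrdR h hgk A Q Qi) {g : 𝒢} (hg : g ∈ A.decompositionSubgroup ℚ) :
    (Qi * h.R hgk g * Q) 0 0 * (Qi * h.R hgk g * Q) 1 1 =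
      algebraMap O h.TT (cycO hpO g) := by
  rw [← h.R_det hgk, ← det_conj_one (X := h.R hgk g) H.inv, Matrix.det_fin_two, H.low g hg,
    mul_zero, sub_zero]

/-- the residual basis -/
theorem ordB [Algebra (ZMod p) (ResidueField O)] (H : OrdR h hgk A Q Qi) (hA : A.LiesOverPrime p)
    (hred : redR (h.R hgk) h.theta.toRingHom = ρb) {Φ : 𝒢} (hΦ : A.IsFrobeniusAt Φ p)
    (hu : (Qi * h.R hgk Φ * Q) 1 1 ^ 2 - 1 ∈ maximalIdeal h.TT) :
    OrdB ρb p A (Q.map h.theta) (Qi.map h.theta) := by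
  have hmm : ∀ X Y : Matrix (Fin 2) (Fin 2) h.TT,
      (X * Y).map h.theta = X.map h.theta * Y.map h.theta := fun X Y =>
    map_mul (h.theta.toRingHom.mapMatrix : Matrix (Fin 2) (Fin 2) h.TT →+* _) X Y
  have hN : ∀ σ, Qi.map h.theta * ρb σ * Q.map h.theta = (Qi * h.R hgk σ * Q).map h.theta := by
    intro σ
    have h1 : ρb σ = (h.R hgk σ).map h.theta := (DFunLike.congr_fun hred σ).symm
    rw [hmm, hmm, h1]
  have hsq : ∀ g ∈ A.decompositionSubgroup ℚ, h.theta ((Qi * h.R hgk g * Q) 1 1) ^ 2 = 1 := by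
    intro g hg
    obtain ⟨i, hi⟩ := H.exists_pow hA hΦ hg
    have h1 : (Qi * h.R hgk g * Q) 1 1 - (Qi * h.R hgk Φ * Q) 1 1 ^ i ∈ maximalIdeal h.TT :=
      (Ideal.span_singleton_le_iff_mem _).2 h.p_mem hi
    rw [← h.theta_eq_zero, map_sub, map_pow, sub_eq_zero] at h1
    rw [← h.theta_eq_zero, map_sub, map_pow, map_one, sub_eq_zero] at hu
    rw [h1, ← pow_mul, mul_comm, pow_mul, hu, one_pow]
  constructor
  · rw [← hmm, H.inv]
    exact map_one (h.theta.toRingHom.mapMatrix : Matrix (Fin 2) (Fin 2) h.TT →+* _)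
  · intro σ hσ
    rw [hN, Matrix.map_apply, H.low σ hσ, map_zero]
  · intro σ hσ
    rw [hN, Matrix.map_apply, H.ine σ hσ, map_one]
  · intro σ hσ
    rw [hN, Matrix.map_apply, Matrix.map_apply]
    have e1 := congrArg h.theta (H.det_eq hσ)
    rw [map_mul, AlgHom.commutes] at e1
    have e2 : algebraMap (ZMod p) (ResidueField O) (cyc p σ) =
        h.theta ((Qi * h.R hgk σ * Q) 0 0) * h.theta ((Qi * h.R hgk σ * Q) 1 1) := by
      rw [e1, ← residue_cycO hpO]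
      rfl
    rw [e2]
    linear_combination (-(h.theta ((Qi * h.R hgk σ * Q) 0 0))) * hsq σ hσ

variable {I : Ideal h.TT} {D : h.TT → ResidueField O}
  (hD : IsDer h.theta.toRingHom (Set.range (algebraMap O h.TT)) I D)

include hD

theorem der_pow {a : h.TT} (h0 : D a = 0) (i : ℕ) : D (a ^ i) = 0 := by
  induction i with
  | zero => rw [pow_zero]; exact hD.one
  | succ i ih => rw [pow_succ, hD.mul, ih, h0, mul_zero, mul_zero, add_zero]

theorem der_sub {a b : h.TT} (hab : a - b ∈ I) : D a = D b := by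
  have h1 := hD.add (a - b) b
  rw [sub_add_cancel, hD.zeroI _ hab, zero_add] at h1
  exact h1

/-- the derivatives of the diagonal entries vanish -/
theorem der_diag (H : OrdR h hgk A Q Qi) (hA : A.LiesOverPrime p) (hpI : (p : h.TT) ∈ I)
    (h2k : (2 : ResidueField O) ≠ 0) {Φ : 𝒢} (hΦ : A.IsFrobeniusAt Φ p)
    (hu : (Qi * h.R hgk Φ * Q) 1 1 ^ 2 - 1 ∈ I) {g : 𝒢}
    (hg : g ∈ A.decompositionSubgroup ℚ) :
    D ((Qi * h.R hgk g * Q) 0 0) = 0 ∧ D ((Qi * h.R hgk g * Q) 1 1) = 0 := by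
  have hΦD : Φ ∈ A.decompositionSubgroup ℚ := hΦ.mem_decompositionSubgroup
  have h1 : D ((Qi * h.R hgk Φ * Q) 1 1) = 0 := by
    have e1 := der_sub hD (a := (Qi * h.R hgk Φ * Q) 1 1 ^ 2) (b := 1) hu
    rw [hD.one, sq, hD.mul] at e1
    have e2 : 2 * h.theta ((Qi * h.R hgk Φ * Q) 1 1) * D ((Qi * h.R hgk Φ * Q) 1 1) = 0 := by
      have e3 : h.theta.toRingHom ((Qi * h.R hgk Φ * Q) 1 1) =
        h.theta ((Qi * h.R hgk Φ * Q) 1 1) := rfl
      rw [e3] at e1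
      linear_combination e1
    exact (mul_eq_zero.1 e2).resolve_left (mul_ne_zero h2k (H.theta11_ne hΦD))
  have h2 : D ((Qi * h.R hgk g * Q) 1 1) = 0 := by
    obtain ⟨i, hi⟩ := H.exists_pow hA hΦ hg
    rw [der_sub hD ((Ideal.span_singleton_le_iff_mem I).2 hpI hi)]
    exact der_pow hD h1 i
  refine ⟨?_, h2⟩
  have h3 : D ((Qi * h.R hgk g * Q) 0 0 * (Qi * h.R hgk g * Q) 1 1) = 0 := by
    rw [H.det_eq hg]
    exact hD.zeroO _ ⟨_, rfl⟩
  rw [hD.mul, h2, mul_zero, zero_add] at h3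
  exact (mul_eq_zero.1 h3).resolve_left (H.theta11_ne hg)

/-- the tangent cocycle in an adapted basis -/
theorem cob_eq (H : OrdR h hgk A Q Qi) (hA : A.LiesOverPrime p) (hpI : (p : h.TT) ∈ I)
    (h2k : (2 : ResidueField O) ≠ 0) {Φ : 𝒢} (hΦ : A.IsFrobeniusAt Φ p)
    (hred : redR (h.R hgk) h.theta.toRingHom = ρb)
    (hu : (Qi * h.R hgk Φ * Q) 1 1 ^ 2 - 1 ∈ I) : ∃ X : sl (ResidueField O), ∀ σ,
      (cS h hgk hD σ : M2 (ResidueField O)) - (ρb σ * X * ρb σ⁻¹ - X) =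
        Q.map h.theta * (Qi * h.R hgk σ * Q).map D * Qi.map h.theta * ρb σ⁻¹ := by
  obtain ⟨X, hX⟩ := exists_sl h2k (-(Q.map D * Qi.map h.theta)) (g := (1 : M2 _))
    (gi := 1) (mul_one 1)
  refine ⟨X, fun σ => ?_⟩
  rw [hX _ _ (Sel.rho_mul_inv (ρ := ρb) σ)]
  change cD (h.R hgk) h.theta.toRingHom D σ - _ = _
  rw [cD_conj' hD H.inv σ, hred]
  have e1 : Q.map h.theta.toRingHom = Q.map h.theta := rfl
  have e2 : Qi.map h.theta.toRingHom = Qi.map h.theta := rfl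
  rw [e1, e2, mul_neg, neg_mul]
  abel

/-- **the tangent cocycles are strictly ordinary** -/
theorem mem_ordL [Algebra (ZMod p) (ResidueField O)] (H : OrdR h hgk A Q Qi)
    (hA : A.LiesOverPrime p) (hp2 : p ≠ 2) (hpI : (p : h.TT) ∈ I)
    (hI : I ≤ maximalIdeal h.TT)
    (h2k : (2 : ResidueField O) ≠ 0) {Φ : 𝒢} (hΦ : A.IsFrobeniusAt Φ p)
    (hred : redR (h.R hgk) h.theta.toRingHom = ρb)
    (hu : (Qi * h.R hgk Φ * Q) 1 1 ^ 2 - 1 ∈ I) :
    (fun σ : A.decompositionSubgroup ℚ => cS h hgk hD σ) ∈ ordL ρb p A := by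
  have hB := H.ordB hA hred hΦ (hI hu)
  refine ⟨⟨fun σ τ => cS_mul h hgk hD hred σ τ, ?_⟩, fun Q' Qi' hB' => ?_⟩
  · obtain ⟨F, hF, h2⟩ := cD_lc h hgk hD hpI
    exact ⟨F, hF, fun σ hσ => Subtype.ext (h2 σ hσ)⟩
  obtain ⟨X, hX⟩ := H.cob_eq hD hA hpI h2k hΦ hred hu
  have key : ∀ σ : A.decompositionSubgroup ℚ, Up (Q.map h.theta) (Qi.map h.theta)
      ((cS h hgk hD (σ : 𝒢) : M2 (ResidueField O)) - (ρb (σ : 𝒢) * X * ρb (σ : 𝒢)⁻¹ - X)) := by
    intro σ
    rw [hX]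
    obtain ⟨d0, d1⟩ := H.der_diag hD hA hpI h2k hΦ hu σ.2
    set N := Qi * h.R hgk (σ : 𝒢) * Q with hN
    have hiq : Qi.map h.theta * Q.map h.theta = 1 := hB.inv'
    have e5 : Qi.map h.theta * (Q.map h.theta * N.map D * Qi.map h.theta * ρb (σ : 𝒢)⁻¹) *
        Q.map h.theta = N.map D * (Qi.map h.theta * ρb (σ : 𝒢)⁻¹ * Q.map h.theta) := by
      calc Qi.map h.theta * (Q.map h.theta * N.map D * Qi.map h.theta * ρb (σ : 𝒢)⁻¹) *
        Q.map h.theta = (Qi.map h.theta * Q.map h.theta) * N.map D *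
          (Qi.map h.theta * ρb (σ : 𝒢)⁻¹ * Q.map h.theta) := by simp only [mul_assoc]
        _ = _ := by rw [hiq, one_mul]
    have f10 : (N.map D) 1 0 = 0 := by
      rw [Matrix.map_apply, hN, H.low _ σ.2]
      exact hD.zero
    have f00 : (N.map D) 0 0 = 0 := d0
    have f11 : (N.map D) 1 1 = 0 := d1
    have g10 : (Qi.map h.theta * ρb (σ : 𝒢)⁻¹ * Q.map h.theta) 1 0 = 0 := hB.low _ (inv_mem σ.2)
    constructor
    · rw [e5, mul2, f10, f11]; ring
    · rw [e5, mul2 (N.map D), f00, g10]; ring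
  refine ⟨X, fun σ => ?_⟩
  refine (key σ).change ?_ hB.inv (hB.uniq hp2 hA hB') (hB'.uniq hp2 hA hB)
  rw [Matrix.trace_sub, Matrix.trace_sub, sl_trace]
  rw [Matrix.trace_mul_comm, ← mul_assoc, Sel.rho_inv_mul, one_mul, sub_self, sub_zero]

end OrdR

end Fermat.Agent.ZG
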