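import Fermat.Agent.Flat.Ord3

/-!
# An element of inertia detecting the Kummer class of `p`
-/

set_option autoImplicit false
set_option linter.unusedSectionVars false
set_option linter.style.haveILetI false

noncomputable section

namespace Fermat.Agent.ZG

open Fermat.Agent.Places Fermat.Agent.RedMod Fermat.Agent.FlatRam Fermat.Agent.Flat

local notation "Ω" => AlgebraicClosure ℚ

local notation "𝒢" => (AlgebraicClosure ℚ) ≃ₐ[ℚ] (AlgebraicClosure ℚ)

variable {A : ValuationSubring (AlgebraicClosure ℚ)} {p : ℕ} [hp : Fact p.Prime] {ζ : Ω}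

/-- a `p`-th root of something in `M1` of valuation `1 / p` is not in `M1` -/
theorem not_mem_M1 (hζ : IsPrimitiveRoot ζ p) (hA : A.LiesOverPrime p) {R : Ω} (hR0 : R ≠ 0)
    (hR : (p : ℚ) * (rval A p hA).w R = 1) : R ∉ M1 A ζ := by
  intro hR1
  haveI : FiniteDimensional (K0 A) (M1 A ζ) :=
    IntermediateField.adjoin.finiteDimensional (Algebra.IsIntegral.isIntegral (R := K0 A) ζ)
  obtain ⟨n, hn⟩ := exists_int (rval A p hA) (M1 A ζ) (x := ⟨R, hR1⟩)
    (fun h => hR0 (congrArg Subtype.val h))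
  have h1 : Module.finrank (K0 A) (M1 A ζ) ≤ p - 1 := by
    rw [IntermediateField.adjoin.finrank (Algebra.IsIntegral.isIntegral (R := K0 A) ζ)]
    have h1 : minpoly (K0 A) ζ ∣ Polynomial.cyclotomic p (K0 A) := by
      apply minpoly.dvd
      rw [Polynomial.aeval_def, Polynomial.eval₂_eq_eval_map, Polynomial.map_cyclotomic]
      exact (Polynomial.isRoot_cyclotomic_iff (n := p) (R := Ω)).2 hζ
    have h2 := Polynomial.natDegree_le_of_dvd h1 (Polynomial.cyclotomic_ne_zero p _)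
    rwa [Polynomial.natDegree_cyclotomic, Nat.totient_prime hp.out] at h2
  have h2 : 0 < Module.finrank (K0 A) (M1 A ζ) := Module.finrank_pos
  have h3 : ((Module.finrank (K0 A) (M1 A ζ) : ℤ)) = p * n := by
    have h4 : (Module.finrank (K0 A) (M1 A ζ) : ℚ) = p * n := by
      rw [← hn]
      change _ = (p : ℚ) * ((Module.finrank (K0 A) (M1 A ζ) : ℚ) * (rval A p hA).w R)
      rw [mul_left_comm, hR, mul_one]
    exact_mod_cast h4
  have h4 : p ∣ Module.finrank (K0 A) (M1 A ζ) := by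
    have h5 : (p : ℤ) ∣ (Module.finrank (K0 A) (M1 A ζ) : ℤ) := ⟨n, h3⟩
    exact_mod_cast h5
  have h5 := Nat.le_of_dvd h2 h4
  have h6 := hp.out.two_le
  omega

/-- the quotient `σ y / y` -/
theorem exists_root (hζ : IsPrimitiveRoot ζ p) {F : IntermediateField (K0 A) Ω}
    {σ : Ω ≃ₐ[K0 A] Ω} (hσ : ∀ x ∈ F, σ x = x) {y : Ω} (hy : y ^ p ∈ F) (hy0 : y ≠ 0) :
    (σ y / y) ^ p = 1 := by
  rw [div_pow, ← map_pow, hσ _ hy, div_self (pow_ne_zero _ hy0)]

/-- the induction step -/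
theorem kummer_step (hζ : IsPrimitiveRoot ζ p) {F : IntermediateField (K0 A) Ω} (hζF : ζ ∈ F)
    {y R : Ω} (hy0 : y ≠ 0) (hR0 : R ≠ 0) (hy : y ^ p ∈ F) (hR : R ^ p ∈ F)
    (hn : ∀ j : ℕ, R / y ^ j ∉ F) : ∃ σ : Ω ≃ₐ[K0 A] Ω, (∀ x ∈ F, σ x = x) ∧ σ y = y ∧ σ R ≠ R := by
  by_contra hcon
  push Not at hcon
  have hμF : ∀ x : Ω, x ^ p = 1 → x ∈ F := by
    intro x hx
    obtain ⟨i, -, rfl⟩ := hζ.eq_pow_of_pow_eq_one hx
    exact pow_mem hζF i
  obtain ⟨σ, hσ, hσR⟩ : ∃ σ : Ω ≃ₐ[K0 A] Ω, (∀ x ∈ F, σ x = x) ∧ σ R ≠ R := by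
    by_contra hc
    push Not at hc
    apply hn 0
    rw [pow_zero, div_one]
    exact mem_of_fixed hc
  set a := σ y / y with ha
  have hap : a ^ p = 1 := exists_root hζ hσ hy hy0
  have ha1 : a ≠ 1 := by
    intro h1
    apply hσR
    apply hcon σ hσ
    rw [ha, div_eq_one_iff_eq hy0] at h1
    exact h1
  have hprim : IsPrimitiveRoot a p := by
    have := orderOf_eq_prime hap ha1
    rw [← this]
    exact IsPrimitiveRoot.orderOf a
  have hσy : σ y = a * y := by rw [ha, div_mul_cancel₀ _ hy0]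
  obtain ⟨j, -, hj⟩ := hprim.eq_pow_of_pow_eq_one (exists_root hζ hσ hR hR0)
  have hσR' : σ R = a ^ j * R := by rw [hj, div_mul_cancel₀ _ hR0]
  have haF : a ∈ F := hμF a hap
  have hσn : ∀ n : ℕ, (∀ x ∈ F, (σ ^ n) x = x) ∧ (σ ^ n) y = a ^ n * y ∧
      (σ ^ n) R = (a ^ n) ^ j * R := by
    intro n
    induction n with
    | zero => simp
    | succ n ih =>
      obtain ⟨h1, h2, h3⟩ := ih
      refine ⟨fun x hx => ?_, ?_, ?_⟩
      · rw [pow_succ, AlgEquiv.mul_apply, hσ x hx, h1 x hx]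
      · rw [pow_succ, AlgEquiv.mul_apply, hσy, map_mul, h1 a haF, h2]
        ring
      · rw [pow_succ, AlgEquiv.mul_apply, hσR', map_mul, h1 _ (pow_mem haF j), h3]
        ring
  apply hn j
  refine mem_of_fixed fun τ hτ => ?_
  obtain ⟨n, -, hn'⟩ := hprim.eq_pow_of_pow_eq_one (exists_root hζ hτ hy hy0)
  have hτy : τ y = a ^ n * y := by rw [hn', div_mul_cancel₀ _ hy0]
  obtain ⟨h1, h2, h3⟩ := hσn n
  have h4 : ((σ ^ n)⁻¹ * τ) R = R := by
    refine hcon _ (fun x hx => ?_) ?_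
    · rw [AlgEquiv.mul_apply, hτ x hx]
      conv_lhs => rw [← h1 x hx]
      exact (σ ^ n).symm_apply_apply x
    · rw [AlgEquiv.mul_apply, hτy, ← h2]
      exact (σ ^ n).symm_apply_apply y
  have h5 : τ R = (a ^ n) ^ j * R := by
    rw [← h3]
    conv_rhs => rw [← h4]
    rw [AlgEquiv.mul_apply]
    exact ((σ ^ n).apply_symm_apply _).symm
  rw [map_div₀, map_pow, hτy, h5, mul_pow]
  have h6 : (a ^ n) ^ j ≠ 0 := pow_ne_zero _ (pow_ne_zero _ (hprim.ne_zero hp.out.ne_zero))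
  have h7 : y ^ j ≠ 0 := pow_ne_zero _ hy0
  field_simp

/-- unit Kummer generators do not produce the class of `p` -/
theorem not_mem_adjoin (hζ : IsPrimitiveRoot ζ p) (hA : A.LiesOverPrime p) (T : Finset Ω)
    (hT : ∀ y ∈ T, y ≠ 0 ∧ y ^ p ∈ M1 A ζ ∧ (rval A p hA).w y = 0) (R : Ω) (hR0 : R ≠ 0)
    (hRp : R ^ p ∈ M1 A ζ) (hR : (p : ℚ) * (rval A p hA).w R = 1) :
    R ∉ IntermediateField.adjoin (K0 A) ({ζ} ∪ (T : Set Ω)) := by
  classical
  induction T using Finset.induction_on generalizing R with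
  | empty =>
    simp only [Finset.coe_empty, Set.union_empty]
    exact not_mem_M1 hζ hA hR0 hR
  | insert y T' hy' ih =>
    obtain ⟨hy0, hyM, hyw⟩ := hT y (Finset.mem_insert_self y T')
    have hT' : ∀ y ∈ T', y ≠ 0 ∧ y ^ p ∈ M1 A ζ ∧ (rval A p hA).w y = 0 := fun z hz =>
      hT z (Finset.mem_insert_of_mem hz)
    set F := IntermediateField.adjoin (K0 A) ({ζ} ∪ (T' : Set Ω)) with hF
    have hMF : M1 A ζ ≤ F := IntermediateField.adjoin.mono _ _ _ Set.subset_union_left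
    obtain ⟨σ, h1, h2, h3⟩ := kummer_step hζ (F := F) (hMF zeta_mem_M1) hy0 hR0 (hMF hyM)
      (hMF hRp) (fun j => ih hT' (R / y ^ j) (div_ne_zero hR0 (pow_ne_zero _ hy0)) (by
        rw [div_pow, ← pow_mul, mul_comm, pow_mul]
        exact div_mem hRp (pow_mem hyM j)) (by
        rw [RVal.w_div hR0 (pow_ne_zero _ hy0), RVal.w_pow hy0, hyw, mul_zero, sub_zero, hR]))
    intro hmem
    apply h3
    have h4 : ∀ x ∈ IntermediateField.adjoin (K0 A) ({ζ} ∪ ((insert y T' : Finset Ω) : Set Ω)),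
        σ x = x := by
      intro x hx
      induction hx using IntermediateField.adjoin_induction with
      | mem x hx =>
        rcases hx with hx | hx
        · exact h1 x (IntermediateField.subset_adjoin _ _ (Or.inl hx))
        · rw [Finset.mem_coe, Finset.mem_insert] at hx
          rcases hx with rfl | hx
          · exact h2
          · exact h1 x (IntermediateField.subset_adjoin _ _ (Or.inr hx))
      | algebraMap x => exact σ.commutes x
      | add x y _ _ hx hy => rw [map_add, hx, hy]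
      | inv x _ hx => rw [map_inv₀, hx]
      | mul x y _ _ hx hy => rw [map_mul, hx, hy]
    exact h4 R hmem

theorem w_unit (hA : A.LiesOverPrime p) {y a : Ω} (ha : a ∈ A) (hy : y ^ p = 1 + p * a) :
    y ≠ 0 ∧ (rval A p hA).w y = 0 := by
  obtain ⟨h1, h2⟩ := one_add_unit hA ha
  have hne : (1 : Ω) + p * a ≠ 0 := by
    intro h0
    apply h2
    rw [h0]
    exact zero_mem_nonunits A
  have hy0 : y ≠ 0 := by
    rintro rfl
    rw [zero_pow hp.out.ne_zero] at hy
    exact hne hy.symm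
  refine ⟨hy0, ?_⟩
  have h3 : (rval A p hA).w (1 + p * a) = 0 := by
    apply le_antisymm
    · by_contra hc
      push Not at hc
      exact h2 ((wA_pos_iff hA hne).1 hc)
    · exact (wA_nonneg_iff hA hne).2 h1
  rw [← hy, RVal.w_pow hy0] at h3
  exact (mul_eq_zero.1 h3).resolve_left (Nat.cast_ne_zero.2 hp.out.ne_zero)

/-- **An element of inertia detecting the Kummer class of `p`.** -/
theorem exists_sigma (hζ : IsPrimitiveRoot ζ p) (hA : A.LiesOverPrime p) {P : Ω}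
    (hP : P ^ p = p) : ∃ σ ∈ NM A (M1 A ζ), (∀ y a : Ω, a ∈ A → a ∈ M1 A ζ →
      y ^ p = 1 + p * a → σ y = y) ∧ σ P ≠ P := by
  classical
  have hp0 : (p : Ω) ≠ 0 := Nat.cast_ne_zero.2 hp.out.ne_zero
  have hP0 : P ≠ 0 := by
    rintro rfl
    rw [zero_pow hp.out.ne_zero] at hP
    exact hp0 hP.symm
  set Y : Set Ω := {y | ∃ a : Ω, a ∈ A ∧ a ∈ M1 A ζ ∧ y ^ p = 1 + p * a} with hY
  have hPw : (p : ℚ) * (rval A p hA).w P = 1 := by
    rw [← RVal.w_pow hP0, hP, (rval A p hA).w_p]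
  have hPE : P ∉ IntermediateField.adjoin (K0 A) ({ζ} ∪ Y) := by
    intro hmem
    obtain ⟨T, hT, hPT⟩ := IntermediateField.exists_finset_of_mem_adjoin hmem
    refine not_mem_adjoin hζ hA (T.filter fun y => y ∈ Y) (fun y hy => ?_) P hP0 (by
      rw [hP]; exact natCast_mem _ p) hPw ?_
    · obtain ⟨a, h1, h2, h3⟩ := (Finset.mem_filter.1 hy).2
      obtain ⟨h4, h5⟩ := w_unit hA h1 h3
      refine ⟨h4, ?_, h5⟩
      rw [h3]
      exact add_mem (one_mem _) (mul_mem (natCast_mem _ p) h2)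
    · refine IntermediateField.adjoin.mono _ _ _ ?_ hPT
      intro x hx
      rcases hT hx with h1 | h1
      · exact Or.inl h1
      · exact Or.inr (Finset.mem_coe.2 (Finset.mem_filter.2 ⟨hx, h1⟩))
  obtain ⟨σ, hσ, hσP⟩ : ∃ σ : Ω ≃ₐ[K0 A] Ω,
      (∀ x ∈ IntermediateField.adjoin (K0 A) ({ζ} ∪ Y), σ x = x) ∧ σ P ≠ P := by
    by_contra hc
    push Not at hc
    exact hPE (mem_of_fixed hc)
  refine ⟨AlgEquiv.restrictScalars ℚ σ, ⟨res_mem σ, fun m hm => ?_⟩, fun y a h1 h2 h3 => ?_, hσP⟩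
  · exact hσ m (IntermediateField.adjoin.mono _ _ _ Set.subset_union_left hm)
  · exact hσ y (IntermediateField.subset_adjoin _ _ (Or.inr ⟨a, h1, h2, h3⟩))

end Fermat.Agent.ZG
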