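import Fermat.Agent.ZG.P2
import Fermat.Agent.ZG.FlS

/-!
# Generators in the case of a peu ramifiée residual representation at `p`
-/

set_option autoImplicit false
set_option linter.unusedSectionVars false
set_option linter.style.haveILetI false

noncomputable section

namespace Fermat.Agent.ZG

open Matrix IsLocalRing Fermat.Agent.GalRep Fermat.Agent.TW Fermat.Agent.Places Fermat.Agent.Flat
open Fermat.Agent.Cheb Fermat.Agent.Sel Fermat.Agent.StR Fermat.Agent.TWG
open Fermat.Agent.LC (OrdB RO Up ordL mul2)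

local notation "Ω" => AlgebraicClosure ℚ

local notation "𝒢" => (AlgebraicClosure ℚ) ≃ₐ[ℚ] (AlgebraicClosure ℚ)

section par

theorem par_map {A A' : Type} [CommRing A] [CommRing A'] (f : A' →+* A) {ty : Ty} {q : ℕ} {ε : ℤ}
    {Φ N : Matrix (Fin 2) (Fin 2) A'} {x : A'} (hx : x ∈ par ty q ε Φ N) :
    f x ∈ par ty q ε (Φ.map f) (N.map f) := by
  have hsm : ∀ a b, f ((Φ - (ε : A') • (1 : Matrix (Fin 2) (Fin 2) A')) a b) =
      (Φ.map f - (ε : A) • (1 : Matrix (Fin 2) (Fin 2) A)) a b := by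
    intro a b
    rw [Matrix.sub_apply, Matrix.sub_apply, map_sub, Matrix.smul_apply, Matrix.smul_apply,
      smul_eq_mul, smul_eq_mul, map_mul, map_intCast, Matrix.map_apply, Matrix.one_apply,
      Matrix.one_apply]
    split_ifs
    · rw [map_one]
    · rw [map_zero]
  cases ty
  · rcases hx with ⟨a, b, rfl⟩ | ⟨a, b, rfl⟩
    · exact Or.inl ⟨a, b, rfl⟩
    · exact Or.inr ⟨a, b, hsm a b⟩
  · rcases hx with ⟨a, b, rfl⟩ | hx
    · exact Or.inl ⟨a, b, rfl⟩
    · rw [Set.mem_singleton_iff] at hx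
      refine Or.inr ?_
      rw [hx, Set.mem_singleton_iff, map_sub, map_mul, map_intCast, map_add, map_natCast, map_one,
        Matrix.trace_fin_two, Matrix.trace_fin_two, map_add]
      rfl

end par

variable {O : Type} [CommRing O] [IsDomain O] [IsLocalRing O] [IsNoetherianRing O]
  [IsAdicComplete (maximalIdeal O) O] {p : ℕ} [hp : Fact p.Prime]
  {hpO : (p : O) ∈ maximalIdeal O} {ρb : GQ →* M2 (ResidueField O)} [Invertible (2 : O)]
  {g₀ k₀ : GQ} {hgk : HG.IrrAt (fun g => (ρb g).trace) g₀ k₀}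
  {T' Y' : Type} [CommRing T'] [Algebra O T'] [AddCommGroup Y'] [Module O Y']
  [Module.Finite O Y'] [Module.Free O Y'] [Nontrivial Y'] {S' : Set ℕ}
  {ψ' : T' →ₐ[O] Module.End O Y'} {θ' : T' →ₐ[O] ResidueField O} {ρ' : GQ →* Module.End O Y'}
  {h' : HG hpO S' (fun g => (ρb g).trace) ψ' θ' ρ'}
  {T Y : Type} [CommRing T] [Algebra O T] [AddCommGroup Y] [Module O Y]
  [Module.Finite O Y] [Module.Free O Y] [Nontrivial Y] {S : Set ℕ}
  {ψ : T →ₐ[O] Module.End O Y} {θ : T →ₐ[O] ResidueField O} {ρ : GQ →* Module.End O Y}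
  {h : HG hpO S (fun g => (ρb g).trace) ψ θ ρ}

omit [IsDomain O]

/-- the representation over a quotient of the trace ring -/
theorem map_R (π : h'.TT →ₐ[O] h.TT) (hπ : ∀ g, π (h'.tt g) = h.tt g) (σ : GQ) :
    (h'.R hgk σ).map π = h.R hgk σ := by
  have h1 : (fun g => π.toRingHom (h'.tt g)) = h.tt := funext hπ
  have hu : Units.map (π.toRingHom : h'.TT →* h.TT) (h'.uu hgk) = h.uu hgk := by
    apply Units.ext
    change π.toRingHom (h'.uu hgk : h'.TT) = _
    rw [h'.uu_eq, h.uu_eq]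
    have h2 := FlT.map_bc π.toRingHom h'.tt complexConjugation g₀ k₀
    rw [h1] at h2
    exact h2
  ext i j
  have h3 := FlT.map_RR π.toRingHom h'.tt complexConjugation g₀ k₀ (h'.uu hgk) σ i j
  rw [h1, hu] at h3
  exact h3

theorem pi_surj (π : h'.TT →ₐ[O] h.TT) (hπ : ∀ g, π (h'.tt g) = h.tt g) :
    Function.Surjective π := by
  have h1 : Algebra.adjoin O (Set.range h.tt) ≤ π.range := by
    refine Algebra.adjoin_le ?_
    rintro _ ⟨g, rfl⟩
    exact ⟨h'.tt g, hπ g⟩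
  rw [h.adjoin_tt] at h1
  intro x
  exact h1 (trivial : x ∈ (⊤ : Subalgebra O h.TT))

theorem theta_comp (π : h'.TT →ₐ[O] h.TT) (x : h'.TT) : h.theta (π x) = h'.theta x := by
  -- the kernel of `θ ∘ π` is the maximal ideal
  have hk : RingHom.ker (h.theta.comp π).toRingHom = maximalIdeal h'.TT := by
    apply IsLocalRing.eq_maximalIdeal
    apply RingHom.ker_isMaximal_of_surjective
    intro y
    obtain ⟨a, rfl⟩ := IsLocalRing.residue_surjective y
    exact ⟨algebraMap O h'.TT a, (h.theta.comp π).commutes a⟩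
  obtain ⟨a, ha⟩ := IsLocalRing.residue_surjective (h'.theta x)
  have h1 : x - algebraMap O h'.TT a ∈ maximalIdeal h'.TT := by
    rw [← h'.theta_eq_zero, map_sub, AlgHom.commutes, sub_eq_zero]
    exact ha.symm
  have h2 := h1
  rw [← hk, RingHom.mem_ker] at h1
  rw [← h'.theta_eq_zero] at h2
  have h3 : h.theta (π (x - algebraMap O h'.TT a)) = 0 := h1
  rw [map_sub, map_sub, AlgHom.commutes, AlgHom.commutes, sub_eq_zero] at h3
  rw [map_sub, AlgHom.commutes, sub_eq_zero] at h2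
  rw [h2, h3]

/-- derivations pull back -/
theorem isDer_comp (π : h'.TT →ₐ[O] h.TT) {J : Ideal h.TT} {D : h.TT → ResidueField O}
    (hD : IsDer h.theta.toRingHom (Set.range (algebraMap O h.TT)) J D) {I : Ideal h'.TT}
    (hI : ∀ x ∈ I, D (π x) = 0) :
    IsDer h'.theta.toRingHom (Set.range (algebraMap O h'.TT)) I (fun x => D (π x)) where
  add a b := by rw [map_add, hD.add]
  mul a b := by
    rw [map_mul, hD.mul]
    have h1 : ∀ x : h'.TT, h.theta.toRingHom (π x) = h'.theta.toRingHom x := theta_comp π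
    rw [h1, h1]
  zeroO := by
    rintro _ ⟨a, rfl⟩
    rw [AlgHom.commutes]
    exact hD.zeroO _ ⟨a, rfl⟩
  zeroI a ha := hI a ha

theorem ordR_map (π : h'.TT →ₐ[O] h.TT) (hπ : ∀ g, π (h'.tt g) = h.tt g) {A : ValuationSubring Ω}
    {Q Qi : Matrix (Fin 2) (Fin 2) h'.TT} (H : OrdR h' hgk A Q Qi) :
    OrdR h hgk A (Q.map π) (Qi.map π) := by
  have hmm : ∀ X Z : Matrix (Fin 2) (Fin 2) h'.TT, (X * Z).map π = X.map π * Z.map π := fun X Z =>
    map_mul (π.toRingHom.mapMatrix : Matrix (Fin 2) (Fin 2) h'.TT →+* _) X Z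
  constructor
  · rw [← hmm, H.inv]
    exact map_one (π.toRingHom.mapMatrix : Matrix (Fin 2) (Fin 2) h'.TT →+* _)
  · intro σ hσ
    rw [← map_R π hπ, ← hmm, ← hmm, Matrix.map_apply, H.low σ hσ, map_zero]
  · intro σ hσ
    rw [← map_R π hπ, ← hmm, ← hmm, Matrix.map_apply, H.ine σ hσ, map_one]

/-- the cocycle vanishes at the detecting element if its upper right entry does -/
theorem OrdR.cS_sigma {A : ValuationSubring Ω}
    {Q Qi : Matrix (Fin 2) (Fin 2) h.TT} (H : OrdR h hgk A Q Qi)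
    (hA : A.LiesOverPrime p) {I : Ideal h.TT} {D : h.TT → ResidueField O}
    (hD : IsDer h.theta.toRingHom (Set.range (algebraMap O h.TT)) I D)
    (hpI : (p : h.TT) ∈ I) (h2k : (2 : ResidueField O) ≠ 0) {Φ : 𝒢} (hΦ : A.IsFrobeniusAt Φ p)
    (hred : redR (h.R hgk) h.theta.toRingHom = ρb)
    (hu : (Qi * h.R hgk Φ * Q) 1 1 ^ 2 - 1 ∈ I) {σ₁ : 𝒢} (hσ : σ₁ ∈ A.inertiaSubgroupIn ℚ)
    (h1 : ρb σ₁ = 1) : cS h hgk hD σ₁ = 0 ↔ D ((Qi * h.R hgk σ₁ * Q) 0 1) = 0 := by
  obtain ⟨X, hX⟩ := H.cob_eq hD hA hpI h2k hΦ hred hu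
  have hσD := LC.ine_le_dec A hσ
  have e1 := hX σ₁
  have h1' : ρb σ₁⁻¹ = 1 := by
    have := Sel.rho_mul_inv (ρ := ρb) σ₁
    rwa [h1, one_mul] at this
  rw [h1, h1', one_mul, mul_one, sub_self, sub_zero, mul_one] at e1
  have hmm : ∀ X Y : Matrix (Fin 2) (Fin 2) h.TT,
      (X * Y).map h.theta = X.map h.theta * Y.map h.theta := fun X Y =>
    map_mul (h.theta.toRingHom.mapMatrix : Matrix (Fin 2) (Fin 2) h.TT →+* _) X Y
  have hq : Q.map h.theta * Qi.map h.theta = 1 := by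
    rw [← hmm, H.inv]
    exact map_one (h.theta.toRingHom.mapMatrix : Matrix (Fin 2) (Fin 2) h.TT →+* _)
  have hq' : Qi.map h.theta * Q.map h.theta = 1 := by rw [mul_eq_one_comm]; exact hq
  constructor
  · intro h0
    have e2 : (cS h hgk hD σ₁ : M2 (ResidueField O)) = 0 := by rw [h0]; rfl
    rw [e2] at e1
    have e3 : (Qi * h.R hgk σ₁ * Q).map D = 0 := by
      have e4 : Qi.map h.theta * (Q.map h.theta * (Qi * h.R hgk σ₁ * Q).map D *
          Qi.map h.theta) * Q.map h.theta = (Qi * h.R hgk σ₁ * Q).map D := by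
        calc Qi.map h.theta * (Q.map h.theta * (Qi * h.R hgk σ₁ * Q).map D *
          Qi.map h.theta) * Q.map h.theta = (Qi.map h.theta * Q.map h.theta) *
            (Qi * h.R hgk σ₁ * Q).map D * (Qi.map h.theta * Q.map h.theta) := by
              simp only [mul_assoc]
          _ = _ := by rw [hq', one_mul, mul_one]
      rw [← e4, ← e1, mul_zero, zero_mul]
    exact congrFun (congrFun e3 0) 1
  · intro h0
    obtain ⟨d0, d1⟩ := H.der_diag hD hA hpI h2k hΦ hu hσD
    have e3 : (Qi * h.R hgk σ₁ * Q).map D = 0 := by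
      ext i j
      fin_cases i <;> fin_cases j
      · exact d0
      · exact h0
      · change D ((Qi * h.R hgk σ₁ * Q) 1 0) = 0
        rw [H.low σ₁ hσD]
        exact hD.zero
      · exact d1
    rw [e3, mul_zero, zero_mul] at e1
    exact Subtype.ext e1

/-- residual value of the upper right entry -/
theorem OrdR.w_mem {A : ValuationSubring Ω}
    {Q Qi : Matrix (Fin 2) (Fin 2) h.TT} (H : OrdR h hgk A Q Qi)
    (hred : redR (h.R hgk) h.theta.toRingHom = ρb) {σ₁ : 𝒢} (h1 : ρb σ₁ = 1) :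
    (Qi * h.R hgk σ₁ * Q) 0 1 ∈ maximalIdeal h.TT := by
  have hmm : ∀ X Y : Matrix (Fin 2) (Fin 2) h.TT,
      (X * Y).map h.theta = X.map h.theta * Y.map h.theta := fun X Y =>
    map_mul (h.theta.toRingHom.mapMatrix : Matrix (Fin 2) (Fin 2) h.TT →+* _) X Y
  have h2 : (h.R hgk σ₁).map h.theta = 1 := by
    rw [← h1]
    exact DFunLike.congr_fun hred σ₁
  have h3 : (Qi * h.R hgk σ₁ * Q).map h.theta = 1 := by
    rw [hmm, hmm, h2, mul_one, ← hmm, H.inv']
    exact map_one (h.theta.toRingHom.mapMatrix : Matrix (Fin 2) (Fin 2) h.TT →+* _)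
  rw [← h.theta_eq_zero]
  exact congrFun (congrFun h3 0) 1

end Fermat.Agent.ZG
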